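/-
S36lib / Thick / Datum  (helper6, WG-C)  --  INTERFACE v1 of the THICK ČECH CORE (brick B5)

Route (TH): over a discretely valued base `(K, R)` (uniformizer `π`, residue field `k`) a function
field `F / K` carries THREE valuation rings `O₁, O₂, O₃` above `R`

* `O₁` (`= v₂₀`) and `O₃` (`= v₀₂`): Gauss valuations, UNRAMIFIED over `R` (existing structure
  `S18lib.GaussDatum R F Fᵢ`, so the whole library `S18lib/Weak/Lemmas` applies);
* `O₂` (`= v₁₁`): RAMIFIED of index `e` over `R`, uniformizer `ϖ` (`RamGaussDatum` below),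

with residue fields `F₁ F₂ F₃` = function fields of the three components `Z₁, Z₂, Z₃` of the
special fibre `Z₁ + e Z₂ + Z₃`, all three passing through each of the `s` TRIPLE POINTS
`(x₁ c, x₂ c, x₃ c)`.

The generic fibre enters ONLY through two chart families of finite dimensional `K`-subspaces
`𝓛 a b ⊆ F` (`= L(a P₁ + b P₂)`, `a b : ℕ`) and, for a Kummer function `z` (`n ∣ div z`),
`𝓔 a b ⊆ F` (`= L(div(z)/n + a P₁ + b P₂)`): no places / divisors of `F / K` are used, so `K` need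
not be algebraically closed.

EXPORTS (proved in `Thick/Main.lean`; stated here as `Prop`s):
* `ExistsTwistStatement`  : the toric invariant `(λ_c, μ_c)` of a Kummer tri-unit exists;
* `NondegStatement`       : in the stable range there is `h ∈ 𝓔 a b ∩ O` with `red₂ h = 1`
                            (so the twist is unique, hence multiplicative in `z`);
* `ThickCoreStatement`    : constant twist `⟹ ∃ t ≠ 0, t ∈ 𝓔 0 0`  (i.e. `z = c · t⁻ⁿ`).
-/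
import Mathlib
import Fermat.Agent.S18lib.Setup.CurveRR
import Fermat.Agent.S18lib.Weak.Lemmas
import Fermat.Agent.LSb.Core.CechChart

set_option autoImplicit false

noncomputable section

namespace Fermat.Agent.S36lib.Thick

open AlgebraicCurve Module
open Fermat.Agent.LSb (HasValueAt)
open Fermat.Agent.LSb.Core (lin2)

/-- A RAMIFIED Gauss datum: a discrete valuation ring `O` of `F` above `R` with a chosen
uniformizer `unif` and a reduction map onto `Fk` compatible with `R → k`. -/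
structure RamGaussDatum {K : Type*} [Field K] (R : ValuationSubring K)
    (F : Type*) [Field F] [Algebra K F]
    (Fk : Type*) [Field Fk] [Algebra (IsLocalRing.ResidueField R) Fk] where
  /-- the valuation ring -/
  O : ValuationSubring F
  /-- `O ∩ K = R` -/
  algebraMap_mem_iff : ∀ c : K, algebraMap K F c ∈ O ↔ c ∈ R
  /-- the reduction map -/
  red : O →+* Fk
  red_surjective : Function.Surjective red
  /-- reduction is compatible with the residue map on constants -/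
  red_algebraMap : ∀ (a : R) (h : algebraMap K F (a : K) ∈ O),
    red ⟨algebraMap K F (a : K), h⟩ =
      algebraMap (IsLocalRing.ResidueField R) Fk (IsLocalRing.residue R a)
  /-- the uniformizer `ϖ` -/
  unif : F
  unif_mem : unif ∈ O
  /-- `ϖ` is not a unit -/
  red_unif : red ⟨unif, unif_mem⟩ = 0
  /-- `O` is a discrete valuation ring with uniformizer `ϖ` -/
  exists_zpow_mul_isUnit : ∀ f : F, f ≠ 0 → ∃ (j : ℤ) (u : Oˣ), f = unif ^ j * ((u : O) : F)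

/-- The thick reduction datum (function level). -/
structure ThickDatum {K : Type*} [Field K] (R : ValuationSubring K)
    (F : Type*) [Field F] [Algebra K F]
    (F₁ F₂ F₃ : Type*) [Field F₁] [Field F₂] [Field F₃]
    [Algebra (IsLocalRing.ResidueField R) F₁] [Algebra (IsLocalRing.ResidueField R) F₂]
    [Algebra (IsLocalRing.ResidueField R) F₃] where
  /-- a uniformizer of `R` -/
  π : K
  /-- the ramification index of the middle component -/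
  e : ℕ
  /-- the first component (`v₂₀`): unramified Gauss valuation -/
  V₁ : S18lib.GaussDatum R F F₁
  /-- the middle component (`v₁₁`): ramified of index `e` -/
  V₂ : RamGaussDatum R F F₂
  /-- the third component (`v₀₂`): unramified Gauss valuation -/
  V₃ : S18lib.GaussDatum R F F₃
  /-- the chart spaces `L(a P₁ + b P₂)` of the generic fibre -/
  𝓛 : ℕ → ℕ → Submodule K F
  /-- the degrees of the two chart divisors on the generic fibre -/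
  d₁ : ℕ
  d₂ : ℕ
  /-- reductions of `P₁`, `P₂` on the three components -/
  Q₁₁ : Divisor (IsLocalRing.ResidueField R) F₁
  Q₂₁ : Divisor (IsLocalRing.ResidueField R) F₁
  Q₁₂ : Divisor (IsLocalRing.ResidueField R) F₂
  Q₂₂ : Divisor (IsLocalRing.ResidueField R) F₂
  Q₁₃ : Divisor (IsLocalRing.ResidueField R) F₃
  Q₂₃ : Divisor (IsLocalRing.ResidueField R) F₃
  /-- the number of triple points -/
  s : ℕ
  /-- the triple points on the three components -/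
  x₁ : Fin s → Place (IsLocalRing.ResidueField R) F₁
  x₂ : Fin s → Place (IsLocalRing.ResidueField R) F₂
  x₃ : Fin s → Place (IsLocalRing.ResidueField R) F₃

namespace ThickDatum

variable {K : Type*} [Field K] {R : ValuationSubring K}
variable {F : Type*} [Field F] [Algebra K F]
variable {F₁ F₂ F₃ : Type*} [Field F₁] [Field F₂] [Field F₃]
variable [Algebra (IsLocalRing.ResidueField R) F₁] [Algebra (IsLocalRing.ResidueField R) F₂]
variable [Algebra (IsLocalRing.ResidueField R) F₃]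

local notation "k" => IsLocalRing.ResidueField R

/-- the uniformizer `ϖ` of the middle component -/
abbrev ϖ (D : ThickDatum R F F₁ F₂ F₃) : F := D.V₂.unif

/-- the total reduction on the middle component (`0` outside `O₂`) -/
def red₂ (D : ThickDatum R F F₁ F₂ F₃) (y : F) : F₂ :=
  letI := Classical.propDecidable
  if h : y ∈ D.V₂.O then D.V₂.red ⟨y, h⟩ else 0

/-- the sup-norm unit ball `O = O₁ ⊓ O₂ ⊓ O₃` -/
def O (D : ThickDatum R F F₁ F₂ F₃) : Subring F :=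
  D.V₁.O.toSubring ⊓ D.V₂.O.toSubring ⊓ D.V₃.O.toSubring

theorem mem_O {D : ThickDatum R F F₁ F₂ F₃} {y : F} :
    y ∈ D.O ↔ y ∈ D.V₁.O ∧ y ∈ D.V₂.O ∧ y ∈ D.V₃.O := by
  rw [O, Subring.mem_inf, Subring.mem_inf, and_assoc]; rfl

/-- the reduced chart divisors `a Q₁ᵢ + b Q₂ᵢ` -/
def chartDiv₁ (D : ThickDatum R F F₁ F₂ F₃) (a b : ℕ) : Divisor k F₁ := lin2 D.Q₁₁ D.Q₂₁ a b
def chartDiv₂ (D : ThickDatum R F F₁ F₂ F₃) (a b : ℕ) : Divisor k F₂ := lin2 D.Q₁₂ D.Q₂₂ a b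
def chartDiv₃ (D : ThickDatum R F F₁ F₂ F₃) (a b : ℕ) : Divisor k F₃ := lin2 D.Q₁₃ D.Q₂₃ a b

/-- **(N1)**: every finite dimensional `K`-subspace `W` of `F` has a `K`-basis in `O` which is
an `R`-basis of the lattice `W ∩ O`. -/
def HasLatticeBases (D : ThickDatum R F F₁ F₂ F₃) : Prop :=
  ∀ W : Submodule K F, FiniteDimensional K W →
    ∃ b : Fin (finrank K W) → F, (∀ i, b i ∈ W) ∧ (∀ i, b i ∈ D.O) ∧
      ∀ f ∈ W, f ∈ D.O → ∃ a : Fin (finrank K W) → R, f = ∑ i, algebraMap K F (a i : K) * b i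

end ThickDatum

variable {K : Type*} [Field K] {R : ValuationSubring K}
variable {F : Type*} [Field F] [Algebra K F]
variable {F₁ F₂ F₃ : Type*} [Field F₁] [Field F₂] [Field F₃]
variable [Algebra (IsLocalRing.ResidueField R) F₁] [Algebra (IsLocalRing.ResidueField R) F₂]
variable [Algebra (IsLocalRing.ResidueField R) F₃]

/-- The hypotheses on a thick datum. -/
structure ThickCtx (D : ThickDatum R F F₁ F₂ F₃) (g g₁ g₂ g₃ : ℕ) : Prop where
  hF₁ : S18lib.IsCurveOfGenus (IsLocalRing.ResidueField R) F₁ g₁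
  hF₂ : S18lib.IsCurveOfGenus (IsLocalRing.ResidueField R) F₂ g₂
  hF₃ : S18lib.IsCurveOfGenus (IsLocalRing.ResidueField R) F₃ g₃
  -- the base is a discrete valuation ring with uniformizer `π`
  π_mem : D.π ∈ R
  π_not_unit : D.π⁻¹ ∉ R
  exists_zpow_mul_unit : ∀ c : K, c ≠ 0 → ∃ m : ℤ, c * D.π ^ (-m) ∈ R ∧ (c * D.π ^ (-m))⁻¹ ∈ R
  -- ramification: `ϖ^e = π · unit` in `O₂`, and `ϖ` is a unit of `O₁`, `O₃`
  e_pos : 0 < D.e
  unif_pow : ∃ u : D.V₂.Oˣ, D.ϖ ^ D.e = algebraMap K F D.π * ((u : D.V₂.O) : F)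
  unif_mem₁ : D.ϖ ∈ D.V₁.O
  unif_inv_mem₁ : D.ϖ⁻¹ ∈ D.V₁.O
  unif_mem₃ : D.ϖ ∈ D.V₃.O
  unif_inv_mem₃ : D.ϖ⁻¹ ∈ D.V₃.O
  /-- **(N1)** -/
  hD : D.HasLatticeBases
  -- the chart spaces of the generic fibre
  finiteDimensional : ∀ a b, FiniteDimensional K (D.𝓛 a b)
  mono : ∀ {a b a' b' : ℕ}, a ≤ a' → b ≤ b' → D.𝓛 a b ≤ D.𝓛 a' b'
  inter : ∀ a b a' b' : ℕ, D.𝓛 a b ⊓ D.𝓛 a' b' ≤ D.𝓛 (min a a') (min b b')
  mul_mem : ∀ {a b a' b' : ℕ} {f f' : F}, f ∈ D.𝓛 a b → f' ∈ D.𝓛 a' b' →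
    f * f' ∈ D.𝓛 (a + a') (b + b')
  one_mem : (1 : F) ∈ D.𝓛 0 0
  /-- Riemann's inequality on the generic fibre (`g` = its genus) -/
  riemann : ∀ a b : ℕ, (a : ℤ) * D.d₁ + b * D.d₂ + 1 - g ≤ (finrank K (D.𝓛 a b) : ℤ)
  /-- the uniformizer `ϖ` has its poles on the charts -/
  unif_mem_chart : ∃ a b : ℕ, D.ϖ ∈ D.𝓛 a b
  -- shape of the reduced charts
  Q₁₁_nonneg : 0 ≤ D.Q₁₁
  Q₂₁_nonneg : 0 ≤ D.Q₂₁
  Q₁₂_nonneg : 0 ≤ D.Q₁₂
  Q₂₂_nonneg : 0 ≤ D.Q₂₂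
  Q₁₃_nonneg : 0 ≤ D.Q₁₃
  Q₂₃_nonneg : 0 ≤ D.Q₂₃
  Q₁_disjoint : Disjoint D.Q₁₁.support D.Q₂₁.support
  Q₂_disjoint : Disjoint D.Q₁₂.support D.Q₂₂.support
  Q₃_disjoint : Disjoint D.Q₁₃.support D.Q₂₃.support
  /-- every chart meets every component -/
  deg_Q₁₁_pos : 0 < Divisor.degree D.Q₁₁
  deg_Q₂₁_pos : 0 < Divisor.degree D.Q₂₁
  deg_Q₁₂_pos : 0 < Divisor.degree D.Q₁₂
  deg_Q₂₂_pos : 0 < Divisor.degree D.Q₂₂
  deg_Q₁₃_pos : 0 < Divisor.degree D.Q₁₃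
  deg_Q₂₃_pos : 0 < Divisor.degree D.Q₂₃
  /-- the special fibre is `Z₁ + e Z₂ + Z₃` (only `≤` is needed) -/
  deg_Q₁_le : Divisor.degree D.Q₁₁ + D.e * Divisor.degree D.Q₁₂ + Divisor.degree D.Q₁₃ ≤ D.d₁
  deg_Q₂_le : Divisor.degree D.Q₂₁ + D.e * Divisor.degree D.Q₂₂ + Divisor.degree D.Q₂₃ ≤ D.d₂
  -- the triple points
  x₁_injective : Function.Injective D.x₁
  x₂_injective : Function.Injective D.x₂
  x₃_injective : Function.Injective D.x₃
  x₁_not_mem : ∀ c, D.x₁ c ∉ D.Q₁₁.support ∧ D.x₁ c ∉ D.Q₂₁.support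
  x₂_not_mem : ∀ c, D.x₂ c ∉ D.Q₁₂.support ∧ D.x₂ c ∉ D.Q₂₂.support
  x₃_not_mem : ∀ c, D.x₃ c ∉ D.Q₁₃.support ∧ D.x₃ c ∉ D.Q₂₃.support
  /-- **(CHART)** on the three components -/
  chart₁ : ∀ (a b : ℕ) (f : F), f ∈ D.𝓛 a b → f ∈ D.O →
    D.V₁.redF f ∈ riemannRochSpace (D.chartDiv₁ a b)
  chart₂ : ∀ (a b : ℕ) (f : F), f ∈ D.𝓛 a b → f ∈ D.O →
    D.red₂ f ∈ riemannRochSpace (D.chartDiv₂ a b)
  chart₃ : ∀ (a b : ℕ) (f : F), f ∈ D.𝓛 a b → f ∈ D.O →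
    D.V₃.redF f ∈ riemannRochSpace (D.chartDiv₃ a b)
  /-- **(GLUE)**: the three reductions have a common value at every triple point -/
  glue : ∀ (a b : ℕ) (f : F), f ∈ D.𝓛 a b → f ∈ D.O → ∀ c, ∃ α : IsLocalRing.ResidueField R,
    HasValueAt (D.x₁ c) (D.V₁.redF f) α ∧ HasValueAt (D.x₂ c) (D.red₂ f) α ∧
      HasValueAt (D.x₃ c) (D.V₃.redF f) α
  /-- **(REG)** thickness one at the triple points: local equations `f₁` of `Z₁` and `f₃` of `Z₃`
  with `f₁ f₃ ϖ^e = π · U`, `U` a unit at the triple point `c`. -/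
  reg : ∃ a b : ℕ, ∀ c, ∃ f₁ f₃ : F, f₁ ∈ D.𝓛 a b ∧ f₃ ∈ D.𝓛 a b ∧ f₁ ∈ D.O ∧ f₃ ∈ D.O ∧
    f₁ * (algebraMap K F D.π)⁻¹ ∈ D.V₁.O ∧ f₃ * (algebraMap K F D.π)⁻¹ ∈ D.V₃.O ∧
    ∃ α : IsLocalRing.ResidueField R, α ≠ 0 ∧
      HasValueAt (D.x₂ c) (D.red₂ (f₁ * f₃ * D.ϖ ^ D.e * (algebraMap K F D.π)⁻¹)) α
  /-- **(COUNT)** -/
  count : g + D.e + 1 ≤ g₁ + D.e * g₂ + g₃ + D.s * (D.e + 2)
  /-- the special fibre is connected -/
  s_pos : 0 < D.s

/-- A Kummer family: the chart spaces `𝓔 a b = L(div(z)/n + a P₁ + b P₂)` of a function `z` whose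
divisor is divisible by `n`. -/
structure KummerFamily (D : ThickDatum R F F₁ F₂ F₃) (g : ℕ) (n : ℕ) (z : F) where
  /-- the twisted chart spaces -/
  𝓔 : ℕ → ℕ → Submodule K F
  finiteDimensional : ∀ a b, FiniteDimensional K (𝓔 a b)
  mono : ∀ {a b a' b' : ℕ}, a ≤ a' → b ≤ b' → 𝓔 a b ≤ 𝓔 a' b'
  inter : ∀ a b a' b' : ℕ, 𝓔 a b ⊓ 𝓔 a' b' ≤ 𝓔 (min a a') (min b b')
  /-- `L(A) · L(E + B) ⊆ L(E + A + B)` -/
  mul_mem : ∀ {a b a' b' : ℕ} {f h : F}, f ∈ D.𝓛 a b → h ∈ 𝓔 a' b' →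
    f * h ∈ 𝓔 (a + a') (b + b')
  /-- `h · h₀ⁿ⁻¹ · z ∈ L(A + (n-1) A₀)` for `h ∈ L(E + A)`, `h₀ ∈ L(E + A₀)` (`n E = div z`) -/
  mixed_mem : ∀ {a b a' b' : ℕ} {h h₀ : F}, h ∈ 𝓔 a b → h₀ ∈ 𝓔 a' b' →
    h * h₀ ^ (n - 1) * z ∈ D.𝓛 (a + (n - 1) * a') (b + (n - 1) * b')
  /-- Riemann's inequality (`deg (div(z)/n) = 0`) -/
  riemann : ∀ a b : ℕ, (a : ℤ) * D.d₁ + b * D.d₂ + 1 - g ≤ (finrank K (𝓔 a b) : ℤ)

/-- `z` is a tri-unit with constant residues `b₁ b₂ b₃` -/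
structure IsTriUnit (D : ThickDatum R F F₁ F₂ F₃) (z : F)
    (b₁ b₂ b₃ : IsLocalRing.ResidueField R) : Prop where
  b₁_ne : b₁ ≠ 0
  b₂_ne : b₂ ≠ 0
  b₃_ne : b₃ ≠ 0
  red₁ : D.V₁.redF z = algebraMap (IsLocalRing.ResidueField R) F₁ b₁
  red₂ : D.red₂ z = algebraMap (IsLocalRing.ResidueField R) F₂ b₂
  red₃ : D.V₃.redF z = algebraMap (IsLocalRing.ResidueField R) F₃ b₃

/-- `(lam, mu)` is a twist of the Kummer family `E`: every `h ∈ 𝓔 a b ∩ O` has reductions regular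
at the triple points with `h₁(x₁ c) = lam c · h₂(x₂ c)` and `h₃(x₃ c) = mu c · h₂(x₂ c)`. -/
def IsTwist (D : ThickDatum R F F₁ F₂ F₃) {g n : ℕ} {z : F} (E : KummerFamily D g n z)
    (lam mu : Fin D.s → IsLocalRing.ResidueField R) : Prop :=
  ∀ (a b : ℕ) (h : F), h ∈ E.𝓔 a b → h ∈ D.O → ∀ c, ∃ α : IsLocalRing.ResidueField R,
    HasValueAt (D.x₁ c) (D.V₁.redF h) (lam c * α) ∧ HasValueAt (D.x₂ c) (D.red₂ h) α ∧
      HasValueAt (D.x₃ c) (D.V₃.redF h) (mu c * α)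

/-! ### the exported statements -/

/-- **Export 1**: a Kummer tri-unit has a twist (toric invariant). -/
def ExistsTwistStatement (D : ThickDatum R F F₁ F₂ F₃) (g : ℕ) : Prop :=
  ∀ (n : ℕ), (n : IsLocalRing.ResidueField R) ≠ 0 → ∀ (z : F) (E : KummerFamily D g n z)
    (b₁ b₂ b₃ : IsLocalRing.ResidueField R), IsTriUnit D z b₁ b₂ b₃ →
    ∃ lam mu : Fin D.s → IsLocalRing.ResidueField R, (∀ c, lam c ≠ 0) ∧ (∀ c, mu c ≠ 0) ∧
      IsTwist D E lam mu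

/-- **Export 2**: nondegeneracy in the stable range: some `h ∈ 𝓔 a b ∩ O` has `red₂ h = 1`
(hence the twist is unique). -/
def NondegStatement (D : ThickDatum R F F₁ F₂ F₃) (g : ℕ) : Prop :=
  ∀ (n : ℕ), (n : IsLocalRing.ResidueField R) ≠ 0 → ∀ (z : F) (E : KummerFamily D g n z)
    (b₁ b₂ b₃ : IsLocalRing.ResidueField R), IsTriUnit D z b₁ b₂ b₃ →
    ∃ m₀ : ℕ, ∀ a b : ℕ, m₀ ≤ a ∨ m₀ ≤ b → ∃ h ∈ E.𝓔 a b, h ∈ D.O ∧ D.red₂ h = 1

/-- **Export 3, the thick Čech core**: a Kummer tri-unit whose twist is CONSTANT (independent of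
the triple point) is, up to a constant, an `n`-th power: `𝓔 0 0 ≠ 0`. -/
def ThickCoreStatement (D : ThickDatum R F F₁ F₂ F₃) (g : ℕ) : Prop :=
  ∀ (n : ℕ), (n : IsLocalRing.ResidueField R) ≠ 0 → ∀ (z : F) (E : KummerFamily D g n z)
    (b₁ b₂ b₃ : IsLocalRing.ResidueField R), IsTriUnit D z b₁ b₂ b₃ →
    ∀ lam₀ mu₀ : IsLocalRing.ResidueField R, IsTwist D E (fun _ => lam₀) (fun _ => mu₀) →
      ∃ t : F, t ≠ 0 ∧ t ∈ E.𝓔 0 0

end Fermat.Agent.S36lib.Thick
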