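/-
S36lib / Thick / Filt  (helper6, WG-C)

ABSTRACT FILTERED LATTICES over a discrete valuation ring `R ⊆ K` (uniformizer `π`, residue field
`k`).  `F` a field over `K`, `O ⊆ F` a subring ("unit ball") containing `R`, with a finite chain

  `O = 𝔠 0 ⊇ 𝔠 1 ⊇ … ⊇ 𝔠 N = π O`

of `O`-submodules and SYMBOL maps `sy i : 𝔠 i → 𝔽` (`𝔽` a `k`-vector space), additive,
`R → k`-semilinear, with `ker (sy i) = 𝔠 (i+1)`.

For a finite dimensional `K`-subspace `W ⊆ F` whose lattice `W ∩ O` has an `R`-basis (N1):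

* `finrank_le_sum`      : `dim_K W ≤ Σ_i dim_k sy i (W ∩ 𝔠 i)`;
* `symImage_eq_of_sum_le` : if `sy i (W ∩ 𝔠 i) ⊆ T i` and `Σ_i dim T i ≤ dim_K W` then
                          `sy i (W ∩ 𝔠 i) = T i` for all `i` (the COUNT principle);
* `exists_add_of_symImage_le` : the SUM principle along the chain (with Nakayama);
* `exists_const_sub_mem` : the `H⁰`-principle.
-/
import Mathlib

set_option autoImplicit false

noncomputable section

namespace Fermat.Agent.S36lib.Thick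

open Module

/-- an abstract filtered unit ball with symbol maps -/
structure FiltSys {K : Type*} [Field K] (R : ValuationSubring K) (F : Type*) [Field F]
    [Algebra K F] (𝔽 : Type*) [AddCommGroup 𝔽] [Module (IsLocalRing.ResidueField R) 𝔽] where
  /-- the unit ball -/
  O : Subring F
  algebraMap_mem : ∀ a : R, algebraMap K F (a : K) ∈ O
  /-- the uniformizer of the base -/
  π : K
  π_mem : π ∈ R
  π_not_unit : π⁻¹ ∉ R
  exists_pow_mul_mem : ∀ f : F, ∃ n : ℕ, algebraMap K F π ^ n * f ∈ O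
  /-- the length of the chain -/
  N : ℕ
  /-- the chain -/
  𝔠 : ℕ → AddSubgroup F
  𝔠_zero : ∀ f, f ∈ 𝔠 0 ↔ f ∈ O
  𝔠_anti : ∀ i, 𝔠 (i + 1) ≤ 𝔠 i
  𝔠_mul_mem : ∀ i {g f : F}, g ∈ O → f ∈ 𝔠 i → g * f ∈ 𝔠 i
  𝔠_last : ∀ f, f ∈ 𝔠 N ↔ ∃ g ∈ O, f = algebraMap K F π * g
  /-- the symbol maps -/
  sy : ℕ → F → 𝔽
  sy_add : ∀ i {f g : F}, f ∈ 𝔠 i → g ∈ 𝔠 i → sy i (f + g) = sy i f + sy i g
  sy_smul : ∀ i (a : R) {f : F}, f ∈ 𝔠 i →
    sy i (algebraMap K F (a : K) * f) = IsLocalRing.residue R a • sy i f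
  mem_succ_iff : ∀ i, i < N → ∀ f, f ∈ 𝔠 (i + 1) ↔ f ∈ 𝔠 i ∧ sy i f = 0

namespace FiltSys

variable {K : Type*} [Field K] {R : ValuationSubring K} {F : Type*} [Field F] [Algebra K F]
variable {𝔽 : Type*} [AddCommGroup 𝔽] [Module (IsLocalRing.ResidueField R) 𝔽]
variable (S : FiltSys R F 𝔽)

local notation "k" => IsLocalRing.ResidueField R

/-! ### basic facts -/

theorem π_ne_zero : S.π ≠ 0 := by
  intro h
  apply S.π_not_unit
  rw [h, inv_zero]
  exact R.zero_mem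

/-- `π` as an element of `R` -/
def πR : R := ⟨S.π, S.π_mem⟩

theorem πR_mem_maximalIdeal : S.πR ∈ IsLocalRing.maximalIdeal R := by
  rw [IsLocalRing.mem_maximalIdeal, mem_nonunits_iff]
  rintro ⟨u, hu⟩
  apply S.π_not_unit
  have h1 : ((u⁻¹ : Rˣ) : R) * S.πR = 1 := by rw [← hu]; simp
  have h2 : (((u⁻¹ : Rˣ) : R) : K) * S.π = 1 := by
    have := congrArg (fun x : R => (x : K)) h1
    simpa [πR] using this
  have h3 : S.π⁻¹ = (((u⁻¹ : Rˣ) : R) : K) := (eq_inv_of_mul_eq_one_left h2).symm ▸ rfl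
  rw [h3]
  exact ((u⁻¹ : Rˣ) : R).2

theorem residue_πR : IsLocalRing.residue R S.πR = 0 :=
  (IsLocalRing.residue_eq_zero_iff _).2 S.πR_mem_maximalIdeal

theorem 𝔠_le_of_le {i j : ℕ} (h : i ≤ j) : S.𝔠 j ≤ S.𝔠 i := by
  induction h with
  | refl => exact le_rfl
  | step _ ih => exact (S.𝔠_anti _).trans ih

theorem mem_O_of_mem_𝔠 {i : ℕ} {f : F} (h : f ∈ S.𝔠 i) : f ∈ S.O :=
  (S.𝔠_zero f).1 (S.𝔠_le_of_le (Nat.zero_le i) h)

theorem smul_mem_𝔠 (i : ℕ) (a : R) {f : F} (h : f ∈ S.𝔠 i) :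
    algebraMap K F (a : K) * f ∈ S.𝔠 i :=
  S.𝔠_mul_mem i (S.algebraMap_mem a) h

theorem sy_zero' (i : ℕ) : S.sy i 0 = 0 := by
  have := S.sy_add i (S.𝔠 i).zero_mem (S.𝔠 i).zero_mem
  rw [add_zero] at this
  exact left_eq_add.mp this

theorem sy_neg (i : ℕ) {f : F} (h : f ∈ S.𝔠 i) : S.sy i (-f) = -S.sy i f := by
  have := S.sy_add i h ((S.𝔠 i).neg_mem h)
  rw [add_neg_cancel, S.sy_zero'] at this
  exact eq_neg_of_add_eq_zero_right this.symm

theorem sy_sub (i : ℕ) {f g : F} (hf : f ∈ S.𝔠 i) (hg : g ∈ S.𝔠 i) :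
    S.sy i (f - g) = S.sy i f - S.sy i g := by
  rw [sub_eq_add_neg, S.sy_add i hf ((S.𝔠 i).neg_mem hg), S.sy_neg i hg, sub_eq_add_neg]

theorem sy_sum (i : ℕ) {ι : Type*} (s : Finset ι) (f : ι → F) (hf : ∀ l ∈ s, f l ∈ S.𝔠 i) :
    S.sy i (∑ l ∈ s, f l) = ∑ l ∈ s, S.sy i (f l) := by
  classical
  induction s using Finset.induction_on with
  | empty => simpa using S.sy_zero' i
  | insert a s ha ih =>
    rw [Finset.sum_insert ha, Finset.sum_insert ha,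
      S.sy_add i (hf a (Finset.mem_insert_self a s))
        ((S.𝔠 i).sum_mem fun l hl => hf l (Finset.mem_insert_of_mem hl)),
      ih fun l hl => hf l (Finset.mem_insert_of_mem hl)]

theorem sy_eq_zero_of_mem_succ {i : ℕ} (hi : i < S.N) {f : F} (h : f ∈ S.𝔠 (i + 1)) :
    S.sy i f = 0 :=
  ((S.mem_succ_iff i hi f).1 h).2

/-- `π O ⊆ 𝔠 i` for `i ≤ N` -/
theorem π_mul_mem_𝔠 {i : ℕ} (hi : i ≤ S.N) {g : F} (hg : g ∈ S.O) :
    algebraMap K F S.π * g ∈ S.𝔠 i :=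
  S.𝔠_le_of_le hi ((S.𝔠_last _).2 ⟨g, hg, rfl⟩)

/-! ### lattices -/

/-- the lattice `W ∩ O` as an `R`-submodule of `F` -/
def lat (W : Submodule K F) : Submodule R F where
  carrier := {f | f ∈ W ∧ f ∈ S.O}
  zero_mem' := ⟨W.zero_mem, S.O.zero_mem⟩
  add_mem' := fun h h' => ⟨W.add_mem h.1 h'.1, S.O.add_mem h.2 h'.2⟩
  smul_mem' := by
    rintro a f ⟨h1, h2⟩
    have e : a • f = algebraMap K F (a : K) * f := by rw [Algebra.smul_def]; rfl
    rw [e]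
    refine ⟨?_, S.O.mul_mem (S.algebraMap_mem a) h2⟩
    rw [← Algebra.smul_def]
    exact W.smul_mem _ h1

theorem mem_lat {W : Submodule K F} {f : F} : f ∈ S.lat W ↔ f ∈ W ∧ f ∈ S.O := Iff.rfl

omit S in
theorem smul_eq (a : R) (f : F) : a • f = algebraMap K F (a : K) * f := by
  rw [Algebra.smul_def]; rfl

/-- **(N1)** for `W`: an `R`-basis of the lattice `W ∩ O` of cardinality `dim_K W` -/
def HasBasis (W : Submodule K F) : Prop :=
  ∃ b : Fin (finrank K W) → F, (∀ i, b i ∈ W) ∧ (∀ i, b i ∈ S.O) ∧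
    ∀ f ∈ W, f ∈ S.O → ∃ a : Fin (finrank K W) → R, f = ∑ i, algebraMap K F (a i : K) * b i

theorem lat_fg {W : Submodule K F} (hW : S.HasBasis W) : (S.lat W).FG := by
  obtain ⟨b, hbW, hbO, hb⟩ := hW
  refine Submodule.fg_def.2 ⟨Set.range b, Set.finite_range b, le_antisymm ?_ ?_⟩
  · rw [Submodule.span_le]
    rintro x ⟨i, rfl⟩
    exact ⟨hbW i, hbO i⟩
  · rintro f ⟨hfW, hfO⟩
    obtain ⟨a, rfl⟩ := hb f hfW hfO
    refine Submodule.sum_mem _ fun i _ => ?_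
    rw [← smul_eq]
    exact Submodule.smul_mem _ _ (Submodule.subset_span ⟨i, rfl⟩)

/-- the image of `W ∩ 𝔠 i` under the `i`-th symbol map, a `k`-subspace of `𝔽` -/
def symImage (i : ℕ) (W : Submodule K F) : Submodule k 𝔽 where
  carrier := {φ | ∃ f ∈ W, f ∈ S.𝔠 i ∧ S.sy i f = φ}
  zero_mem' := ⟨0, W.zero_mem, (S.𝔠 i).zero_mem, S.sy_zero' i⟩
  add_mem' := by
    rintro _ _ ⟨f, hW, hc, rfl⟩ ⟨f', hW', hc', rfl⟩
    exact ⟨f + f', W.add_mem hW hW', (S.𝔠 i).add_mem hc hc', S.sy_add i hc hc'⟩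
  smul_mem' := by
    rintro c _ ⟨f, hW, hc, rfl⟩
    obtain ⟨a, rfl⟩ := IsLocalRing.residue_surjective c
    refine ⟨algebraMap K F (a : K) * f, ?_, S.smul_mem_𝔠 i a hc, S.sy_smul i a hc⟩
    rw [← Algebra.smul_def]
    exact W.smul_mem _ hW

theorem mem_symImage {i : ℕ} {W : Submodule K F} {φ : 𝔽} :
    φ ∈ S.symImage i W ↔ ∃ f ∈ W, f ∈ S.𝔠 i ∧ S.sy i f = φ := Iff.rfl

theorem sy_mem_symImage {i : ℕ} {W : Submodule K F} {f : F} (hW : f ∈ W) (hc : f ∈ S.𝔠 i) :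
    S.sy i f ∈ S.symImage i W := ⟨f, hW, hc, rfl⟩

theorem symImage_mono (i : ℕ) {W W' : Submodule K F} (h : W ≤ W') :
    S.symImage i W ≤ S.symImage i W' := by
  rintro _ ⟨f, hW, hc, rfl⟩
  exact ⟨f, h hW, hc, rfl⟩

/-! ### descent along the chain -/

/-- If a class `P` of functions (closed under addition) realises all symbols of `W` at the levels
`i₀ ≤ i < N`, then every `f ∈ W ∩ 𝔠 i` is `p + (element of W ∩ 𝔠 N)` with `P p`. -/
theorem exists_sub_mem_last {W : Submodule K F} (P : F → Prop)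
    (hPadd : ∀ x y, P x → P y → P (x + y)) (hP0 : P 0) (i₀ : ℕ)
    (hreal : ∀ i, i₀ ≤ i → i < S.N → ∀ f ∈ W, f ∈ S.𝔠 i →
      ∃ p, P p ∧ p ∈ W ∧ p ∈ S.𝔠 i ∧ S.sy i p = S.sy i f) :
    ∀ j i, i + j = S.N → i₀ ≤ i → ∀ f ∈ W, f ∈ S.𝔠 i →
      ∃ p, P p ∧ p ∈ W ∧ p ∈ S.𝔠 i ∧ f - p ∈ S.𝔠 S.N := by
  intro j
  induction j with
  | zero =>
    intro i hi _ f _ hfc
    rw [add_zero] at hi
    subst hi
    exact ⟨0, hP0, W.zero_mem, (S.𝔠 _).zero_mem, by rwa [sub_zero]⟩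
  | succ j ih =>
    intro i hi hi₀ f hfW hfc
    have hiN : i < S.N := by omega
    obtain ⟨p₀, hp₀P, hp₀W, hp₀c, hp₀s⟩ := hreal i hi₀ hiN f hfW hfc
    have h1 : f - p₀ ∈ S.𝔠 (i + 1) := by
      rw [S.mem_succ_iff i hiN]
      exact ⟨(S.𝔠 i).sub_mem hfc hp₀c, by rw [S.sy_sub i hfc hp₀c, hp₀s, sub_self]⟩
    obtain ⟨p₁, hp₁P, hp₁W, hp₁c, hp₁s⟩ :=
      ih (i + 1) (by omega) (by omega) (f - p₀) (W.sub_mem hfW hp₀W) h1
    refine ⟨p₀ + p₁, hPadd _ _ hp₀P hp₁P, W.add_mem hp₀W hp₁W,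
      (S.𝔠 i).add_mem hp₀c (S.𝔠_anti i hp₁c), ?_⟩
    have e : f - (p₀ + p₁) = f - p₀ - p₁ := by ring
    rw [e]
    exact hp₁s

/-- `W ∩ 𝔠 N = π (W ∩ O)` -/
theorem exists_eq_π_mul_of_mem_last {W : Submodule K F} {f : F} (hW : f ∈ W)
    (hc : f ∈ S.𝔠 S.N) : ∃ g ∈ W, g ∈ S.O ∧ f = algebraMap K F S.π * g := by
  obtain ⟨g, hgO, rfl⟩ := (S.𝔠_last f).1 hc
  refine ⟨g, ?_, hgO, rfl⟩
  have := W.smul_mem (S.π⁻¹) hW
  rwa [Algebra.smul_def, map_inv₀, ← mul_assoc,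
    inv_mul_cancel₀ ((map_ne_zero _).2 S.π_ne_zero), one_mul] at this

/-- **Nakayama** for the lattice `W ∩ O` -/
theorem lat_le_of_forall {W : Submodule K F} (hW : S.HasBasis W) (P : Submodule R F)
    (h : ∀ f ∈ W, f ∈ S.O → ∃ p ∈ P, p ∈ W ∧ f - p ∈ S.𝔠 S.N) : S.lat W ≤ P := by
  refine Submodule.le_of_le_smul_of_le_jacobson_bot (I := Ideal.span {S.πR}) (S.lat_fg hW) ?_ ?_
  · rw [IsLocalRing.jacobson_eq_maximalIdeal ⊥ bot_ne_top, Ideal.span_le]
    rintro x hx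
    rw [Set.mem_singleton_iff] at hx
    rw [hx]
    exact S.πR_mem_maximalIdeal
  · rintro f ⟨hfW, hfO⟩
    obtain ⟨p, hpP, hpW, hfp⟩ := h f hfW hfO
    obtain ⟨g, hgW, hgO, hg⟩ := S.exists_eq_π_mul_of_mem_last (W.sub_mem hfW hpW) hfp
    have e : f = p + S.πR • g := by
      rw [smul_eq]
      show f = p + algebraMap K F S.π * g
      rw [← hg]; ring
    rw [e]
    exact Submodule.add_mem_sup hpP
      (Submodule.smul_mem_smul (Ideal.subset_span rfl) ⟨hgW, hgO⟩)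

/-- every element of `W` is a `K`-multiple of an element of the lattice -/
theorem exists_pow_mul_mem_lat {W : Submodule K F} {f : F} (hf : f ∈ W) :
    ∃ n : ℕ, algebraMap K F S.π ^ n * f ∈ S.lat W := by
  obtain ⟨n, hn⟩ := S.exists_pow_mul_mem f
  refine ⟨n, ?_, hn⟩
  have := W.smul_mem (S.π ^ n) hf
  rwa [Algebra.smul_def, map_pow] at this

/-! ### the COUNT principle -/

/-- **`dim_K W ≤ Σ_i dim_k sy i (W ∩ 𝔠 i)`** -/
theorem finrank_le_sum {W : Submodule K F} [FiniteDimensional K W] (hW : S.HasBasis W)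
    (hfd : ∀ i < S.N, FiniteDimensional k (S.symImage i W)) :
    finrank K W ≤ ∑ i ∈ Finset.range S.N, finrank k (S.symImage i W) := by
  classical
  -- bases of the symbol images, lifted to `W`
  have hfd' : ∀ i : Fin S.N, FiniteDimensional k (S.symImage i W) := fun i => hfd i i.2
  let d : Fin S.N → ℕ := fun i => finrank k (S.symImage i W)
  let β : ∀ i : Fin S.N, Basis (Fin (d i)) k (S.symImage i W) := fun i => Module.finBasis k _
  have hlift : ∀ (i : Fin S.N) (l : Fin (d i)), ∃ f ∈ W, f ∈ S.𝔠 i ∧ S.sy i f = (β i l : 𝔽) :=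
    fun i l => (β i l).2
  choose fam hfamW hfamc hfams using hlift
  let ι := Σ i : Fin S.N, Fin (d i)
  let gen : ι → F := fun x => fam x.1 x.2
  let P : Submodule R F := Submodule.span R (Set.range gen)
  -- `P` realises all symbols
  have hreal : ∀ i, 0 ≤ i → i < S.N → ∀ f ∈ W, f ∈ S.𝔠 i →
      ∃ p, p ∈ P ∧ p ∈ W ∧ p ∈ S.𝔠 i ∧ S.sy i p = S.sy i f := by
    intro i _ hiN f hfW hfc
    set i' : Fin S.N := ⟨i, hiN⟩ with hi'
    have hmem : S.sy i f ∈ S.symImage i' W := S.sy_mem_symImage hfW hfc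
    set φ : S.symImage i' W := ⟨S.sy i f, hmem⟩ with hφ
    have hrepr := (β i').sum_repr φ
    choose a ha using fun l => IsLocalRing.residue_surjective ((β i').repr φ l)
    refine ⟨∑ l, algebraMap K F (a l : K) * fam i' l, ?_, ?_, ?_, ?_⟩
    · refine Submodule.sum_mem _ fun l _ => ?_
      rw [← smul_eq]
      exact Submodule.smul_mem _ _ (Submodule.subset_span ⟨⟨i', l⟩, rfl⟩)
    · refine Submodule.sum_mem _ fun l _ => ?_
      rw [← Algebra.smul_def]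
      exact W.smul_mem _ (hfamW i' l)
    · exact (S.𝔠 i).sum_mem fun l _ => S.smul_mem_𝔠 i (a l) (hfamc i' l)
    · rw [S.sy_sum i _ _ fun l _ => S.smul_mem_𝔠 i (a l) (hfamc i' l)]
      have h1 : ∀ l, S.sy i (algebraMap K F (a l : K) * fam i' l) =
          (β i').repr φ l • ((β i' l : S.symImage i' W) : 𝔽) := by
        intro l
        rw [S.sy_smul i (a l) (hfamc i' l), ha l, hfams i' l]
      rw [Finset.sum_congr rfl fun l _ => h1 l]
      have h2 := congrArg (fun x : S.symImage i' W => (x : 𝔽)) hrepr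
      simp only [Submodule.coe_sum, Submodule.coe_smul] at h2
      rw [h2]
  -- hence `lat W ≤ P`
  have hlat : S.lat W ≤ P := by
    refine S.lat_le_of_forall hW P fun f hfW hfO => ?_
    obtain ⟨p, hpP, hpW, _, hfp⟩ := S.exists_sub_mem_last (W := W) (fun x => x ∈ P)
      (fun x y hx hy => P.add_mem hx hy) P.zero_mem 0 hreal S.N 0 (zero_add _) le_rfl f hfW
      ((S.𝔠_zero f).2 hfO)
    exact ⟨p, hpP, hpW, hfp⟩
  -- hence `W ≤ span_K gen`
  have hspan : W ≤ Submodule.span K (Set.range gen) := by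
    intro f hf
    obtain ⟨n, hn⟩ := S.exists_pow_mul_mem_lat hf
    have h1 : algebraMap K F S.π ^ n * f ∈ Submodule.span K (Set.range gen) := by
      have h2 : (P : Set F) ⊆ Submodule.span K (Set.range gen) := by
        intro x hx
        refine Submodule.span_induction (p := fun x _ => x ∈ Submodule.span K (Set.range gen))
          (fun y hy => Submodule.subset_span hy) (Submodule.zero_mem _)
          (fun x y _ _ hx hy => Submodule.add_mem _ hx hy) (fun a x _ hx => ?_) hx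
        rw [smul_eq, ← Algebra.smul_def]
        exact Submodule.smul_mem _ _ hx
      exact h2 (hlat hn)
    have h3 := Submodule.smul_mem _ ((S.π ^ n)⁻¹) h1
    rwa [Algebra.smul_def, map_inv₀, map_pow, ← mul_assoc,
      inv_mul_cancel₀ (pow_ne_zero n ((map_ne_zero _).2 S.π_ne_zero)), one_mul] at h3
  have hfin : FiniteDimensional K (Submodule.span K (Set.range gen)) :=
    FiniteDimensional.span_of_finite K (Set.finite_range gen)
  calc finrank K W ≤ finrank K (Submodule.span K (Set.range gen)) :=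
        Submodule.finrank_mono hspan
    _ ≤ Fintype.card ι := by
        have := finrank_span_le_card (R := K) (Set.range gen)
        refine this.trans ?_
        rw [Set.toFinset_range]
        exact Finset.card_image_le.trans (by simp)
    _ = ∑ i ∈ Finset.range S.N, finrank k (S.symImage i W) := by
        rw [Fintype.card_sigma]
        simp only [Fintype.card_fin]
        exact Fin.sum_univ_eq_sum_range (fun i => finrank k (S.symImage i W)) S.N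

/-- **the COUNT principle**: if the symbol images of `W` lie in spaces `T i` whose dimensions add
up to at most `dim_K W`, then they are EQUAL to the `T i`. -/
theorem symImage_eq_of_sum_le {W : Submodule K F} [FiniteDimensional K W] (hW : S.HasBasis W)
    (T : ℕ → Submodule k 𝔽) (hT : ∀ i < S.N, FiniteDimensional k (T i))
    (hle : ∀ i < S.N, S.symImage i W ≤ T i)
    (hsum : ∑ i ∈ Finset.range S.N, finrank k (T i) ≤ finrank K W) :
    ∀ i < S.N, S.symImage i W = T i := by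
  have hfd : ∀ i < S.N, FiniteDimensional k (S.symImage i W) := fun i hi => by
    have := hT i hi
    exact Submodule.finiteDimensional_of_le (hle i hi)
  have h1 := S.finrank_le_sum hW hfd
  have hmono : ∀ i ∈ Finset.range S.N, finrank k (S.symImage i W) ≤ finrank k (T i) := by
    intro i hi
    have := hT i (Finset.mem_range.1 hi)
    exact Submodule.finrank_mono (hle i (Finset.mem_range.1 hi))
  have h2 : ∑ i ∈ Finset.range S.N, finrank k (S.symImage i W) =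
      ∑ i ∈ Finset.range S.N, finrank k (T i) :=
    le_antisymm (Finset.sum_le_sum hmono) (hsum.trans h1)
  intro i hi
  have := hT i hi
  refine Submodule.eq_of_le_of_finrank_le (hle i hi) ?_
  exact ((Finset.sum_eq_sum_iff_of_le hmono).1 h2 i (Finset.mem_range.2 hi)).ge

/-! ### the SUM principle -/

/-- **the sum principle along the chain**: if all symbol images of `W` are sums of those of
`W'` and `W''` then `W ∩ 𝔠 i₀ = (W' ∩ 𝔠 i₀) + (W'' ∩ 𝔠 i₀)` for every `i₀ ≤ N`. -/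
theorem exists_add_of_symImage_le {W W' W'' : Submodule K F} (hW : S.HasBasis W)
    (h' : W' ≤ W) (h'' : W'' ≤ W)
    (hsym : ∀ i < S.N, S.symImage i W ≤ S.symImage i W' ⊔ S.symImage i W'')
    {i₀ : ℕ} (hi₀ : i₀ ≤ S.N) {f : F} (hf : f ∈ W) (hfc : f ∈ S.𝔠 i₀) :
    ∃ f' ∈ W', f' ∈ S.𝔠 i₀ ∧ ∃ f'' ∈ W'', f'' ∈ S.𝔠 i₀ ∧ f = f' + f'' := by
  -- the class of sums at level `j`
  let P : ℕ → F → Prop := fun j x => ∃ f' ∈ W', f' ∈ S.𝔠 j ∧ ∃ f'' ∈ W'', f'' ∈ S.𝔠 j ∧ x = f' + f''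
  have hPadd : ∀ j x y, P j x → P j y → P j (x + y) := by
    rintro j x y ⟨x', hx'W, hx'c, x'', hx''W, hx''c, rfl⟩ ⟨y', hy'W, hy'c, y'', hy''W, hy''c, rfl⟩
    exact ⟨x' + y', W'.add_mem hx'W hy'W, (S.𝔠 j).add_mem hx'c hy'c, x'' + y'',
      W''.add_mem hx''W hy''W, (S.𝔠 j).add_mem hx''c hy''c, by ring⟩
  have hP0 : ∀ j, P j 0 := fun j =>
    ⟨0, W'.zero_mem, (S.𝔠 j).zero_mem, 0, W''.zero_mem, (S.𝔠 j).zero_mem, by simp⟩
  have hreal : ∀ j i, j ≤ i → i < S.N → ∀ f ∈ W, f ∈ S.𝔠 i →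
      ∃ p, P j p ∧ p ∈ W ∧ p ∈ S.𝔠 i ∧ S.sy i p = S.sy i f := by
    intro j i hji hiN f hfW hfc
    have := hsym i hiN (S.sy_mem_symImage hfW hfc)
    obtain ⟨φ', ⟨f', hf'W, hf'c, rfl⟩, φ'', ⟨f'', hf''W, hf''c, rfl⟩, hsum⟩ :=
      Submodule.mem_sup.1 this
    refine ⟨f' + f'', ⟨f', hf'W, S.𝔠_le_of_le hji hf'c, f'', hf''W, S.𝔠_le_of_le hji hf''c, rfl⟩,
      W.add_mem (h' hf'W) (h'' hf''W), (S.𝔠 i).add_mem hf'c hf''c, ?_⟩
    rw [S.sy_add i hf'c hf''c, hsum]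
  -- Step 1: the full lattices
  have hstep1 : ∀ m ∈ W, m ∈ S.O → P 0 m := by
    intro m hmW hmO
    let Q : Submodule R F := S.lat W' ⊔ S.lat W''
    have hQ : ∀ x, P 0 x → x ∈ Q := by
      rintro x ⟨x', hx'W, hx'c, x'', hx''W, hx''c, rfl⟩
      exact Submodule.add_mem_sup ⟨hx'W, (S.𝔠_zero _).1 hx'c⟩ ⟨hx''W, (S.𝔠_zero _).1 hx''c⟩
    have hle : S.lat W ≤ Q := by
      refine S.lat_le_of_forall hW Q fun f hfW hfO => ?_
      obtain ⟨p, hpP, hpW, _, hfp⟩ := S.exists_sub_mem_last (W := W) (P 0) (hPadd 0) (hP0 0) 0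
        (hreal 0) S.N 0 (zero_add _) le_rfl f hfW ((S.𝔠_zero f).2 hfO)
      exact ⟨p, hQ p hpP, hpW, hfp⟩
    obtain ⟨x', ⟨hx'W, hx'O⟩, x'', ⟨hx''W, hx''O⟩, hsum⟩ := Submodule.mem_sup.1 (hle ⟨hmW, hmO⟩)
    exact ⟨x', hx'W, (S.𝔠_zero _).2 hx'O, x'', hx''W, (S.𝔠_zero _).2 hx''O, hsum.symm⟩
  -- Step 2: level `i₀`
  obtain ⟨p, ⟨p', hp'W, hp'c, p'', hp''W, hp''c, rfl⟩, hpW, _, hfp⟩ :=
    S.exists_sub_mem_last (W := W) (P i₀) (hPadd i₀) (hP0 i₀) i₀ (hreal i₀) (S.N - i₀) i₀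
      (by omega) le_rfl f hf hfc
  obtain ⟨m, hmW, hmO, hm⟩ := S.exists_eq_π_mul_of_mem_last (W.sub_mem hf hpW) hfp
  obtain ⟨m', hm'W, hm'c, m'', hm''W, hm''c, rfl⟩ := hstep1 m hmW hmO
  refine ⟨p' + algebraMap K F S.π * m', W'.add_mem hp'W ?_,
    (S.𝔠 i₀).add_mem hp'c (S.π_mul_mem_𝔠 hi₀ ((S.𝔠_zero _).1 hm'c)),
    p'' + algebraMap K F S.π * m'', W''.add_mem hp''W ?_,
    (S.𝔠 i₀).add_mem hp''c (S.π_mul_mem_𝔠 hi₀ ((S.𝔠_zero _).1 hm''c)), ?_⟩
  · rw [← Algebra.smul_def]; exact W'.smul_mem _ hm'W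
  · rw [← Algebra.smul_def]; exact W''.smul_mem _ hm''W
  · have : f = (p' + p'') + algebraMap K F S.π * (m' + m'') := by rw [← hm]; ring
    rw [this]; ring

/-! ### the `H⁰` principle -/

/-- **the `H⁰` principle**: two functions `y₁ ∈ W' ∩ O`, `y₂ ∈ W'' ∩ O` which agree modulo
`𝔠 i` are congruent to a common CONSTANT modulo `𝔠 i`, provided the symbol targets of `W'` and
`W''` meet in the constants (level `0`) resp. in `0` (levels `≥ 1`). -/
theorem exists_const_sub_mem {W' W'' : Submodule K F} (hone' : (1 : F) ∈ W') (hone'' : (1 : F) ∈ W'')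
    (T' T'' : ℕ → Submodule k 𝔽)
    (hT' : ∀ i < S.N, S.symImage i W' ≤ T' i) (hT'' : ∀ i < S.N, S.symImage i W'' ≤ T'' i)
    (hconst : ∀ φ, φ ∈ T' 0 → φ ∈ T'' 0 → ∃ a : R, φ = S.sy 0 (algebraMap K F (a : K)))
    (hzero : ∀ i, 0 < i → i < S.N → ∀ φ, φ ∈ T' i → φ ∈ T'' i → φ = 0) :
    ∀ i ≤ S.N, ∀ y₁ ∈ W', y₁ ∈ S.O → ∀ y₂ ∈ W'', y₂ ∈ S.O → y₁ - y₂ ∈ S.𝔠 i →
      ∃ a : R, y₁ - algebraMap K F (a : K) ∈ S.𝔠 i := by
  have hconstW' : ∀ a : R, algebraMap K F (a : K) ∈ W' := fun a => by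
    have := W'.smul_mem (a : K) hone'
    rwa [Algebra.smul_def, mul_one] at this
  have hconstW'' : ∀ a : R, algebraMap K F (a : K) ∈ W'' := fun a => by
    have := W''.smul_mem (a : K) hone''
    rwa [Algebra.smul_def, mul_one] at this
  intro i
  induction i with
  | zero =>
    intro _ y₁ _ hy₁O _ _ _ _
    exact ⟨0, by simpa using (S.𝔠_zero y₁).2 hy₁O⟩
  | succ i ih =>
    intro hi y₁ hy₁W hy₁O y₂ hy₂W hy₂O hd
    have hiN : i < S.N := by omega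
    obtain ⟨a, ha⟩ := ih (by omega) y₁ hy₁W hy₁O y₂ hy₂W hy₂O (S.𝔠_anti i hd)
    have ha₂ : y₂ - algebraMap K F (a : K) ∈ S.𝔠 i := by
      have := (S.𝔠 i).sub_mem ha (S.𝔠_anti i hd)
      have e : y₁ - algebraMap K F (a : K) - (y₁ - y₂) = y₂ - algebraMap K F (a : K) := by ring
      rwa [e] at this
    have hsy : S.sy i (y₁ - algebraMap K F (a : K)) = S.sy i (y₂ - algebraMap K F (a : K)) := by
      have e : y₁ - algebraMap K F (a : K) = (y₂ - algebraMap K F (a : K)) + (y₁ - y₂) := by ring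
      rw [e, S.sy_add i ha₂ (S.𝔠_anti i hd), S.sy_eq_zero_of_mem_succ hiN hd, add_zero]
    have hm' : S.sy i (y₁ - algebraMap K F (a : K)) ∈ T' i :=
      hT' i hiN (S.sy_mem_symImage (W'.sub_mem hy₁W (hconstW' a)) ha)
    have hm'' : S.sy i (y₁ - algebraMap K F (a : K)) ∈ T'' i := by
      rw [hsy]
      exact hT'' i hiN (S.sy_mem_symImage (W''.sub_mem hy₂W (hconstW'' a)) ha₂)
    rcases Nat.eq_zero_or_pos i with rfl | hipos
    · obtain ⟨a', ha'⟩ := hconst _ hm' hm''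
      refine ⟨a + a', ?_⟩
      rw [S.mem_succ_iff 0 hiN]
      have hc : algebraMap K F (a' : K) ∈ S.𝔠 0 := (S.𝔠_zero _).2 (S.algebraMap_mem a')
      have e : y₁ - algebraMap K F ((a + a' : R) : K) =
          (y₁ - algebraMap K F (a : K)) - algebraMap K F (a' : K) := by
        have hcoe : ((a + a' : R) : K) = (a : K) + (a' : K) := rfl
        rw [hcoe, map_add]; ring
      rw [e]
      exact ⟨(S.𝔠 0).sub_mem ha hc, by rw [S.sy_sub 0 ha hc, ha', sub_self]⟩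
    · refine ⟨a, ?_⟩
      rw [S.mem_succ_iff i hiN]
      exact ⟨ha, hzero i hipos hiN _ hm' hm''⟩

/-- the `H⁰` principle modulo powers of `π` -/
theorem exists_const_sub_eq_pow_mul {W' W'' : Submodule K F} (hone' : (1 : F) ∈ W')
    (hone'' : (1 : F) ∈ W'') (T' T'' : ℕ → Submodule k 𝔽)
    (hT' : ∀ i < S.N, S.symImage i W' ≤ T' i) (hT'' : ∀ i < S.N, S.symImage i W'' ≤ T'' i)
    (hconst : ∀ φ, φ ∈ T' 0 → φ ∈ T'' 0 → ∃ a : R, φ = S.sy 0 (algebraMap K F (a : K)))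
    (hzero : ∀ i, 0 < i → i < S.N → ∀ φ, φ ∈ T' i → φ ∈ T'' i → φ = 0) :
    ∀ n : ℕ, ∀ y₁ ∈ W', y₁ ∈ S.O → ∀ y₂ ∈ W'', y₂ ∈ S.O →
      (∃ x ∈ S.O, y₁ - y₂ = algebraMap K F S.π ^ n * x) →
      ∃ a : R, ∃ x ∈ S.O, y₁ - algebraMap K F (a : K) = algebraMap K F S.π ^ n * x := by
  have hconstW' : ∀ a : R, algebraMap K F (a : K) ∈ W' := fun a => by
    have := W'.smul_mem (a : K) hone'
    rwa [Algebra.smul_def, mul_one] at this
  have hconstW'' : ∀ a : R, algebraMap K F (a : K) ∈ W'' := fun a => by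
    have := W''.smul_mem (a : K) hone''
    rwa [Algebra.smul_def, mul_one] at this
  have hπ0 : algebraMap K F S.π ≠ 0 := (map_ne_zero _).2 S.π_ne_zero
  intro n
  induction n with
  | zero =>
    intro y₁ _ hy₁O _ _ _ _
    exact ⟨0, y₁, hy₁O, by simp⟩
  | succ n ih =>
    intro y₁ hy₁W hy₁O y₂ hy₂W hy₂O ⟨x, hxO, hx⟩
    have hπx : algebraMap K F S.π * x ∈ S.O :=
      S.O.mul_mem (S.algebraMap_mem S.πR) hxO
    obtain ⟨a, x₁, hx₁O, hx₁⟩ := ih y₁ hy₁W hy₁O y₂ hy₂W hy₂O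
      ⟨algebraMap K F S.π * x, hπx, by rw [hx, pow_succ]; ring⟩
    -- `x₂ := (y₂ - a) / π^n`
    set x₂ := x₁ - algebraMap K F S.π * x with hx₂
    have hx₂O : x₂ ∈ S.O := S.O.sub_mem hx₁O hπx
    have hx₂eq : y₂ - algebraMap K F (a : K) = algebraMap K F S.π ^ n * x₂ := by
      have : y₂ - algebraMap K F (a : K) = (y₁ - algebraMap K F (a : K)) - (y₁ - y₂) := by ring
      rw [this, hx₁, hx, hx₂, pow_succ]; ring
    have hx₁W : x₁ ∈ W' := by
      have := W'.smul_mem ((S.π ^ n)⁻¹) (W'.sub_mem hy₁W (hconstW' a))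
      rwa [hx₁, Algebra.smul_def, map_inv₀, map_pow, ← mul_assoc,
        inv_mul_cancel₀ (pow_ne_zero n hπ0), one_mul] at this
    have hx₂W : x₂ ∈ W'' := by
      have := W''.smul_mem ((S.π ^ n)⁻¹) (W''.sub_mem hy₂W (hconstW'' a))
      rwa [hx₂eq, Algebra.smul_def, map_inv₀, map_pow, ← mul_assoc,
        inv_mul_cancel₀ (pow_ne_zero n hπ0), one_mul] at this
    have hd : x₁ - x₂ ∈ S.𝔠 S.N := by
      rw [S.𝔠_last]
      exact ⟨x, hxO, by rw [hx₂]; ring⟩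
    obtain ⟨a', ha'⟩ := S.exists_const_sub_mem hone' hone'' T' T'' hT' hT'' hconst hzero S.N le_rfl
      x₁ hx₁W hx₁O x₂ hx₂W hx₂O hd
    obtain ⟨x', hx'O, hx'⟩ := (S.𝔠_last _).1 ha'
    refine ⟨a + ⟨S.π ^ n, R.pow_mem S.π_mem n⟩ * a', x', hx'O, ?_⟩
    have : y₁ - algebraMap K F ((a + ⟨S.π ^ n, R.pow_mem S.π_mem n⟩ * a' : R) : K) =
        (y₁ - algebraMap K F (a : K)) - algebraMap K F S.π ^ n * algebraMap K F (a' : K) := by
      have hcoe : ((a + ⟨S.π ^ n, R.pow_mem S.π_mem n⟩ * a' : R) : K) =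
          (a : K) + S.π ^ n * (a' : K) := rfl
      rw [hcoe, map_add, map_mul, map_pow]; ring
    rw [this, hx₁, pow_succ]
    have : x₁ = algebraMap K F (a' : K) + algebraMap K F S.π * x' := by rw [← hx']; ring
    rw [this]; ring

end FiltSys

end Fermat.Agent.S36lib.Thick
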