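/-
S36lib / Thick / Chain  (helper6, WG-C)

The filtered unit ball of a thick datum as an abstract `FiltSys` (see `Thick/Filt.lean`):

  `O = I(0,0,0) ⊇ J = I(0,1,0) ⊇ 𝔟₁ = I(1,1,1) ⊇ 𝔟₂ = I(1,2,1) ⊇ … ⊇ 𝔟_e = I(1,e,1) = π O`

with symbols in `𝔽 = F₁ × F₂ × F₃`:
* level `0`      : `f ↦ (0, red₂ f, 0)`;
* level `1`      : `f ↦ (red₁(f/ϖ), 0, red₃(f/ϖ))`;
* level `j + 1`  : `f ↦ (0, red₂(f/ϖʲ), 0)`  (`1 ≤ j ≤ e - 1`).
-/
import Fermat.Agent.S36lib.Thick.Basic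
import Fermat.Agent.S36lib.Thick.Filt

set_option autoImplicit false

noncomputable section

namespace Fermat.Agent.S36lib.Thick

open AlgebraicCurve Module

variable {K : Type*} [Field K] {R : ValuationSubring K}
variable {F : Type*} [Field F] [Algebra K F]
variable {F₁ F₂ F₃ : Type*} [Field F₁] [Field F₂] [Field F₃]
variable [Algebra (IsLocalRing.ResidueField R) F₁] [Algebra (IsLocalRing.ResidueField R) F₂]
variable [Algebra (IsLocalRing.ResidueField R) F₃]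

local notation "k" => IsLocalRing.ResidueField R

namespace ThickCtx

variable {D : ThickDatum R F F₁ F₂ F₃} {g g₁ g₂ g₃ : ℕ} (C : ThickCtx D g g₁ g₂ g₃)

/-- the valuation ideal `I(α, β, γ)` as an additive subgroup -/
def Isub (α β γ : ℤ) : AddSubgroup F where
  carrier := {f | C.I α β γ f}
  zero_mem' := I.zero C α β γ
  add_mem' := fun h h' => h.add h'
  neg_mem' := fun h => h.neg

theorem mem_Isub {α β γ : ℤ} {f : F} : f ∈ C.Isub α β γ ↔ C.I α β γ f := Iff.rfl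

/-- the chain `O ⊇ J ⊇ 𝔟₁ ⊇ … ⊇ 𝔟_e` -/
def chain (i : ℕ) : AddSubgroup F :=
  if i = 0 then C.Isub 0 0 0 else if i = 1 then C.Isub 0 1 0 else C.Isub 1 ((i : ℤ) - 1) 1

theorem chain_zero : C.chain 0 = C.Isub 0 0 0 := by rw [chain, if_pos rfl]

theorem chain_one : C.chain 1 = C.Isub 0 1 0 := by
  rw [chain, if_neg one_ne_zero, if_pos rfl]

theorem chain_add_two (j : ℕ) : C.chain (j + 2) = C.Isub 1 ((j : ℤ) + 1) 1 := by
  rw [chain, if_neg (by omega), if_neg (by omega)]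
  congr 1
  push_cast; ring

/-- the symbol maps -/
def sy (i : ℕ) (f : F) : F₁ × F₂ × F₃ :=
  if i = 0 then (0, C.W₂.sym 0 f, 0)
  else if i = 1 then (C.W₁.redF (f * D.ϖ⁻¹), 0, C.W₃.redF (f * D.ϖ⁻¹))
  else (0, C.W₂.sym ((i : ℤ) - 1) f, 0)

theorem sy_zero (f : F) : C.sy 0 f = (0, D.red₂ f, 0) := by
  rw [sy, if_pos rfl, DVal.sym_zero_eq]; rfl

theorem sy_one (f : F) :
    C.sy 1 f = (D.V₁.redF (f * D.ϖ⁻¹), 0, D.V₃.redF (f * D.ϖ⁻¹)) := by
  rw [sy, if_neg one_ne_zero, if_pos rfl]; rfl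

theorem sy_add_two (j : ℕ) (f : F) : C.sy (j + 2) f = (0, C.W₂.sym ((j : ℤ) + 1) f, 0) := by
  rw [sy, if_neg (by omega), if_neg (by omega)]
  have : ((j + 2 : ℕ) : ℤ) - 1 = (j : ℤ) + 1 := by push_cast; ring
  rw [this]

theorem smul_triple (c : k) (x : F₁) (y : F₂) (z : F₃) :
    c • ((x, y, z) : F₁ × F₂ × F₃) = (algebraMap k F₁ c * x, algebraMap k F₂ c * y,
      algebraMap k F₃ c * z) := by
  rw [Prod.smul_mk, Prod.smul_mk, Algebra.smul_def, Algebra.smul_def, Algebra.smul_def]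

/-- the filtered system of a thick datum -/
def filtSys : FiltSys R F (F₁ × F₂ × F₃) where
  O := D.O
  algebraMap_mem := C.algebraMap_mem_O
  π := D.π
  π_mem := C.π_mem
  π_not_unit := C.π_not_unit
  exists_pow_mul_mem := C.exists_π_pow_mul_mem_O
  N := D.e + 1
  𝔠 := C.chain
  𝔠_zero := fun f => by rw [chain_zero, mem_Isub, I_zero_iff]
  𝔠_anti := by
    intro i f hf
    rcases i with _ | _ | j
    · rw [chain_zero, mem_Isub]
      rw [chain_one, mem_Isub] at hf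
      exact hf.mono le_rfl (by norm_num) le_rfl
    · rw [chain_one, mem_Isub]
      rw [show (0 + 1 + 1 : ℕ) = 0 + 2 from rfl, chain_add_two, mem_Isub] at hf
      exact hf.mono (by norm_num) (by norm_num) (by norm_num)
    · rw [show (j + 1 + 1 : ℕ) = j + 2 from rfl, chain_add_two, mem_Isub]
      rw [show (j + 1 + 1 + 1 : ℕ) = (j + 1) + 2 from rfl, chain_add_two, mem_Isub] at hf
      exact hf.mono le_rfl (by push_cast; omega) le_rfl
  𝔠_mul_mem := by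
    intro i g f hg hf
    rw [mul_comm]
    rcases i with _ | _ | j
    · rw [chain_zero, mem_Isub] at hf ⊢; exact hf.mul_mem_O hg
    · rw [chain_one, mem_Isub] at hf ⊢; exact hf.mul_mem_O hg
    · rw [show (j + 1 + 1 : ℕ) = j + 2 from rfl, chain_add_two, mem_Isub] at hf ⊢
      exact hf.mul_mem_O hg
  𝔠_last := by
    intro f
    obtain ⟨e', he'⟩ : ∃ e', D.e = e' + 1 := ⟨D.e - 1, by have := C.e_pos; omega⟩
    rw [he', show (e' + 1 + 1 : ℕ) = e' + 2 from rfl, chain_add_two, mem_Isub]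
    have key := C.I_mul_π_zpow_iff (α := 0) (β := 0) (γ := 0) (f := f * (algebraMap K F D.π)⁻¹) 1
    have e1 : f * (algebraMap K F D.π)⁻¹ * algebraMap K F D.π ^ (1 : ℤ) = f := by
      rw [zpow_one, mul_assoc, inv_mul_cancel₀ C.πF_ne_zero, mul_one]
    rw [e1, zero_add, zero_add, mul_one, he'] at key
    have e2 : ((e' + 1 : ℕ) : ℤ) = (e' : ℤ) + 1 := by push_cast; rfl
    rw [e2] at key
    rw [key, I_zero_iff]
    constructor
    · intro h
      exact ⟨_, h, by rw [mul_comm, mul_assoc, inv_mul_cancel₀ C.πF_ne_zero, mul_one]⟩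
    · rintro ⟨g', hg', rfl⟩
      rwa [mul_comm, ← mul_assoc, inv_mul_cancel₀ C.πF_ne_zero, one_mul]
  sy := C.sy
  sy_add := by
    intro i f f' hf hf'
    rcases i with _ | _ | j
    · rw [chain_zero, mem_Isub] at hf hf'
      rw [sy, if_pos rfl, sy, if_pos rfl, sy, if_pos rfl, DVal.sym_add hf.2.1 hf'.2.1]
      simp
    · rw [chain_one, mem_Isub] at hf hf'
      have h1 : f * D.ϖ⁻¹ ∈ D.V₁.O := D.V₁.O.mul_mem _ _ ((C.W₁.ge_zero_iff).1 hf.1) C.unif_inv_mem₁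
      have h1' : f' * D.ϖ⁻¹ ∈ D.V₁.O :=
        D.V₁.O.mul_mem _ _ ((C.W₁.ge_zero_iff).1 hf'.1) C.unif_inv_mem₁
      have h3 : f * D.ϖ⁻¹ ∈ D.V₃.O := D.V₃.O.mul_mem _ _ ((C.W₃.ge_zero_iff).1 hf.2.2) C.unif_inv_mem₃
      have h3' : f' * D.ϖ⁻¹ ∈ D.V₃.O :=
        D.V₃.O.mul_mem _ _ ((C.W₃.ge_zero_iff).1 hf'.2.2) C.unif_inv_mem₃
      rw [show (0 + 1 : ℕ) = 1 from rfl, sy_one, sy_one, sy_one, add_mul, D.V₁.redF_add h1 h1',
        D.V₃.redF_add h3 h3']
      simp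
    · rw [show (j + 1 + 1 : ℕ) = j + 2 from rfl, chain_add_two, mem_Isub] at hf hf'
      rw [show (j + 1 + 1 : ℕ) = j + 2 from rfl, sy_add_two, sy_add_two, sy_add_two,
        DVal.sym_add hf.2.1 hf'.2.1]
      simp
  sy_smul := by
    intro i a f hf
    have ha₂ : algebraMap K F (a : K) ∈ C.W₂.O := algebraMap_mem₂ a
    have hr₂ : C.W₂.redF (algebraMap K F (a : K)) = algebraMap k F₂ (IsLocalRing.residue R a) :=
      C.red₂_algebraMap a
    rcases i with _ | _ | j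
    · rw [chain_zero, mem_Isub] at hf
      rw [sy, if_pos rfl, sy, if_pos rfl, smul_triple, mul_zero, mul_zero, mul_comm,
        DVal.sym_mul_mem hf.2.1 ha₂, hr₂, mul_comm]
    · rw [chain_one, mem_Isub] at hf
      have h1 : f * D.ϖ⁻¹ ∈ D.V₁.O := D.V₁.O.mul_mem _ _ ((C.W₁.ge_zero_iff).1 hf.1) C.unif_inv_mem₁
      have h3 : f * D.ϖ⁻¹ ∈ D.V₃.O := D.V₃.O.mul_mem _ _ ((C.W₃.ge_zero_iff).1 hf.2.2) C.unif_inv_mem₃
      rw [show (0 + 1 : ℕ) = 1 from rfl, sy_one, sy_one, smul_triple, mul_zero, mul_assoc,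
        D.V₁.redF_mul (algebraMap_mem₁ a) h1, D.V₃.redF_mul (algebraMap_mem₃ a) h3,
        D.V₁.redF_algebraMap, D.V₃.redF_algebraMap]
    · rw [show (j + 1 + 1 : ℕ) = j + 2 from rfl, chain_add_two, mem_Isub] at hf
      rw [show (j + 1 + 1 : ℕ) = j + 2 from rfl, sy_add_two, sy_add_two, smul_triple, mul_zero,
        mul_zero, mul_comm, DVal.sym_mul_mem hf.2.1 ha₂, hr₂, mul_comm]
  mem_succ_iff := by
    intro i hi f
    rcases i with _ | _ | j
    · rw [show (0 + 1 : ℕ) = 1 from rfl, chain_one, chain_zero, mem_Isub, mem_Isub, sy, if_pos rfl]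
      have h := DVal.ge_succ_iff (V := C.W₂) (j := 0) (f := f)
      rw [zero_add] at h
      constructor
      · intro hf
        exact ⟨hf.mono le_rfl (by norm_num) le_rfl, by rw [(h.1 hf.2.1).2]; rfl⟩
      · rintro ⟨hf, hs⟩
        have hs' : C.W₂.sym 0 f = 0 := by
          have := congrArg (fun t : F₁ × F₂ × F₃ => t.2.1) hs
          simpa using this
        exact ⟨hf.1, h.2 ⟨hf.2.1, hs'⟩, hf.2.2⟩
    · rw [show (0 + 1 + 1 : ℕ) = 0 + 2 from rfl, chain_add_two, show (0 + 1 : ℕ) = 1 from rfl,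
        chain_one, mem_Isub, mem_Isub, sy_one]
      simp only [Nat.cast_zero, zero_add]
      -- `red₁(f/ϖ) = 0 ↔ v₁ f ≥ 1`
      have key₁ : C.W₁.Ge 0 f → (D.V₁.redF (f * D.ϖ⁻¹) = 0 ↔ C.W₁.Ge 1 f) := by
        intro h0
        have hm : f ∈ D.V₁.O := (C.W₁.ge_zero_iff).1 h0
        rw [D.V₁.redF_mul hm C.unif_inv_mem₁]
        have hne : D.V₁.redF D.ϖ⁻¹ ≠ 0 := by
          rw [← C.W₁_redF]
          exact C.W₁.redF_ne_zero_of_mem_of_inv_mem (inv_ne_zero C.ϖ_ne_zero) C.unif_inv_mem₁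
            (by rw [inv_inv]; exact C.unif_mem₁)
        rw [mul_eq_zero, or_iff_left hne]
        have h := DVal.ge_succ_iff (V := C.W₁) (j := 0) (f := f)
        rw [zero_add, DVal.sym_zero_eq] at h
        rw [h, ← C.W₁_redF]
        exact ⟨fun hh => ⟨h0, hh⟩, fun hh => hh.2⟩
      have key₃ : C.W₃.Ge 0 f → (D.V₃.redF (f * D.ϖ⁻¹) = 0 ↔ C.W₃.Ge 1 f) := by
        intro h0
        have hm : f ∈ D.V₃.O := (C.W₃.ge_zero_iff).1 h0
        rw [D.V₃.redF_mul hm C.unif_inv_mem₃]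
        have hne : D.V₃.redF D.ϖ⁻¹ ≠ 0 := by
          rw [← C.W₃_redF]
          exact C.W₃.redF_ne_zero_of_mem_of_inv_mem (inv_ne_zero C.ϖ_ne_zero) C.unif_inv_mem₃
            (by rw [inv_inv]; exact C.unif_mem₃)
        rw [mul_eq_zero, or_iff_left hne]
        have h := DVal.ge_succ_iff (V := C.W₃) (j := 0) (f := f)
        rw [zero_add, DVal.sym_zero_eq] at h
        rw [h, ← C.W₃_redF]
        exact ⟨fun hh => ⟨h0, hh⟩, fun hh => hh.2⟩
      constructor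
      · intro hf
        refine ⟨hf.mono (by norm_num) le_rfl (by norm_num), ?_⟩
        rw [(key₁ (hf.1.mono (by norm_num))).2 hf.1, (key₃ (hf.2.2.mono (by norm_num))).2 hf.2.2]
        rfl
      · rintro ⟨hf, hs⟩
        have hs₁ : D.V₁.redF (f * D.ϖ⁻¹) = 0 := by
          have := congrArg (fun t : F₁ × F₂ × F₃ => t.1) hs
          simpa using this
        have hs₃ : D.V₃.redF (f * D.ϖ⁻¹) = 0 := by
          have := congrArg (fun t : F₁ × F₂ × F₃ => t.2.2) hs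
          simpa using this
        exact ⟨(key₁ hf.1).1 hs₁, hf.2.1, (key₃ hf.2.2).1 hs₃⟩
    · rw [show (j + 1 + 1 + 1 : ℕ) = (j + 1) + 2 from rfl, chain_add_two,
        show (j + 1 + 1 : ℕ) = j + 2 from rfl, chain_add_two, mem_Isub, mem_Isub, sy_add_two]
      have h := DVal.ge_succ_iff (V := C.W₂) (j := (j : ℤ) + 1) (f := f)
      have e1 : (((j + 1 : ℕ) : ℤ) + 1) = (j : ℤ) + 1 + 1 := by push_cast; ring
      rw [e1]
      constructor
      · intro hf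
        exact ⟨⟨hf.1, (h.1 hf.2.1).1, hf.2.2⟩, by rw [(h.1 hf.2.1).2]; rfl⟩
      · rintro ⟨hf, hs⟩
        have hs' : C.W₂.sym ((j : ℤ) + 1) f = 0 := by
          have := congrArg (fun t : F₁ × F₂ × F₃ => t.2.1) hs
          simpa using this
        exact ⟨hf.1, h.2 ⟨hf.2.1, hs'⟩, hf.2.2⟩

@[simp] theorem filtSys_O : C.filtSys.O = D.O := rfl
@[simp] theorem filtSys_N : C.filtSys.N = D.e + 1 := rfl
@[simp] theorem filtSys_π : C.filtSys.π = D.π := rfl
theorem filtSys_𝔠 (i : ℕ) : C.filtSys.𝔠 i = C.chain i := rfl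
theorem filtSys_sy (i : ℕ) (f : F) : C.filtSys.sy i f = C.sy i f := rfl

end ThickCtx

end Fermat.Agent.S36lib.Thick
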