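/-
S36lib / Thick / Doubling  (helper6, WG-C)

The NEWTON / DOUBLING step of the thick Čech argument, generic in a pair of valuation ideals
`𝔞 = I(α, β, α) ⊇ 𝔞' = I(α', β', α') ⊇ 𝔞²`  (`1 ≤ α, β`).

`Good α β` : chart `n`-th roots `t₁ ∈ 𝓔 m 0`, `t₂ ∈ 𝓔 0 m` of `z⁻¹` (up to a constant) with the
reference reductions `(lam₀, 1, mu₀)` which agree modulo `I(α, β, α)`.

`doubling` : given the `H⁰`-principle of the base family modulo `𝔞` and the stabilisation of the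
Kummer family modulo `𝔞'`, `Good α β → Good α' β'`.
-/
import Fermat.Agent.S36lib.Thick.Chain
import Fermat.Agent.S18lib.Cech.Doubling

set_option autoImplicit false

noncomputable section

namespace Fermat.Agent.S36lib.Thick

open AlgebraicCurve Module
open Fermat.Agent.S18lib.Cech (one_sub_pow_expand)

/-! ### generic facts on a discrete valuation -/

namespace DVal

variable {F : Type*} [Field F] {Fk : Type*} [Field Fk] (V : DVal F Fk)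

theorem redF_eq_zero_of_ge {j : ℤ} (hj : 1 ≤ j) {x : F} (h : V.Ge j x) : V.redF x = 0 := by
  rw [← V.sym_zero_eq]
  exact V.sym_eq_zero_of_ge (j := 0) (by omega) h

theorem redF_add_of_ge {j : ℤ} (hj : 1 ≤ j) {t x : F} (ht : t ∈ V.O) (h : V.Ge j x) :
    V.redF (t + x) = V.redF t := by
  rw [V.redF_add ht (h.mem (by omega)), V.redF_eq_zero_of_ge hj h, add_zero]

theorem redF_sub_of_ge {j : ℤ} (hj : 1 ≤ j) {t x : F} (ht : t ∈ V.O) (h : V.Ge j x) :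
    V.redF (t - x) = V.redF t := by
  rw [V.redF_sub ht (h.mem (by omega)), V.redF_eq_zero_of_ge hj h, sub_zero]

/-- reduction of the geometric sum -/
theorem redF_geom_sum {t₁ t₂ : F} (h₁ : t₁ ∈ V.O) (h₂ : t₂ ∈ V.O) {r : Fk}
    (hr₁ : V.redF t₁ = r) (hr₂ : V.redF t₂ = r) (s : ℕ) :
    V.redF (∑ i ∈ Finset.range (s + 1), t₁ ^ i * t₂ ^ (s - i)) = ((s + 1 : ℕ) : Fk) * r ^ s := by
  rw [V.redF_sum _ _ fun i _ => V.O.mul_mem _ _ (V.O.pow_mem h₁ i) (V.O.pow_mem h₂ _)]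
  have : ∀ i ∈ Finset.range (s + 1), V.redF (t₁ ^ i * t₂ ^ (s - i)) = r ^ s := by
    intro i hi
    have hi' : i ≤ s := Nat.lt_succ_iff.1 (Finset.mem_range.1 hi)
    rw [V.redF_mul (V.O.pow_mem h₁ i) (V.O.pow_mem h₂ _), V.redF_pow h₁, V.redF_pow h₂, hr₁, hr₂,
      ← pow_add, Nat.add_sub_cancel' hi']
  rw [Finset.sum_congr rfl this, Finset.sum_const, Finset.card_range, nsmul_eq_mul]

end DVal

/-- the Newton identity -/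
theorem newton_step {A : Type*} [CommRing A] (a₀ w d p s : A) (h : s * a₀ * d = 1) :
    (a₀ + w) * (1 - s * (d * w) + (d * w) ^ 2 * p) =
      a₀ + w ^ 2 * (-(s * d) + (a₀ + w) * d ^ 2 * p) := by
  linear_combination (-w) * h

variable {K : Type*} [Field K] {R : ValuationSubring K}
variable {F : Type*} [Field F] [Algebra K F]
variable {F₁ F₂ F₃ : Type*} [Field F₁] [Field F₂] [Field F₃]
variable [Algebra (IsLocalRing.ResidueField R) F₁] [Algebra (IsLocalRing.ResidueField R) F₂]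
variable [Algebra (IsLocalRing.ResidueField R) F₃]

local notation "k" => IsLocalRing.ResidueField R

/-- `t ∈ O` has the reference reductions `(lam₀, 1, mu₀)` -/
def IsRef (D : ThickDatum R F F₁ F₂ F₃) (lam₀ mu₀ : k) (t : F) : Prop :=
  t ∈ D.O ∧ D.V₁.redF t = algebraMap k F₁ lam₀ ∧ D.red₂ t = 1 ∧
    D.V₃.redF t = algebraMap k F₃ mu₀

namespace ThickCtx

variable {D : ThickDatum R F F₁ F₂ F₃} {g g₁ g₂ g₃ : ℕ} (C : ThickCtx D g g₁ g₂ g₃)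

/-- the data of the doubling argument -/
def Good {n : ℕ} {z : F} (E : KummerFamily D g n z) (lam₀ mu₀ : k) (m : ℕ) (α β : ℤ) : Prop :=
  ∃ t₁ ∈ E.𝓔 m 0, ∃ t₂ ∈ E.𝓔 0 m, IsRef D lam₀ mu₀ t₁ ∧ IsRef D lam₀ mu₀ t₂ ∧
    C.I α β α (t₁ - t₂)

include C

theorem isRef_add {lam₀ mu₀ : k} {α β γ : ℤ} (hα : 1 ≤ α) (hβ : 1 ≤ β) (hγ : 1 ≤ γ) {t x : F}
    (ht : IsRef D lam₀ mu₀ t) (hx : C.I α β γ x) : IsRef D lam₀ mu₀ (t + x) := by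
  obtain ⟨htO, h1, h2, h3⟩ := ht
  have hxO : x ∈ D.O := hx.mem_O (by omega) (by omega) (by omega)
  have htO' := ThickDatum.mem_O.1 htO
  refine ⟨D.O.add_mem htO hxO, ?_, ?_, ?_⟩
  · rw [← h1]; exact C.W₁.redF_add_of_ge hα htO'.1 hx.1
  · rw [← h2]; exact C.W₂.redF_add_of_ge hβ htO'.2.1 hx.2.1
  · rw [← h3]; exact C.W₃.redF_add_of_ge hγ htO'.2.2 hx.2.2

theorem isRef_sub {lam₀ mu₀ : k} {α β γ : ℤ} (hα : 1 ≤ α) (hβ : 1 ≤ β) (hγ : 1 ≤ γ) {t x : F}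
    (ht : IsRef D lam₀ mu₀ t) (hx : C.I α β γ x) : IsRef D lam₀ mu₀ (t - x) := by
  rw [sub_eq_add_neg]; exact C.isRef_add hα hβ hγ ht hx.neg

/-- an element of `O` all of whose reductions are nonzero is a unit of `O` -/
theorem inv_mem_O {y : F} (h₁ : D.V₁.redF y ≠ 0) (h₂ : D.red₂ y ≠ 0) (h₃ : D.V₃.redF y ≠ 0) :
    y⁻¹ ∈ D.O :=
  ThickDatum.mem_O.2 ⟨C.W₁.inv_mem_of_redF_ne_zero h₁, C.W₂.inv_mem_of_redF_ne_zero h₂,
    C.W₃.inv_mem_of_redF_ne_zero h₃⟩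

omit C in
theorem IsTriUnit.mem_O {z : F} {b₁ b₂ b₃ : k} (hz : IsTriUnit D z b₁ b₂ b₃) : z ∈ D.O := by
  refine ThickDatum.mem_O.2 ⟨D.V₁.mem_of_redF_ne_zero ?_, ?_, D.V₃.mem_of_redF_ne_zero ?_⟩
  · rw [hz.red₁]; exact (map_ne_zero _).2 hz.b₁_ne
  · by_contra h
    have : D.red₂ z = 0 := by rw [ThickDatum.red₂, dif_neg h]
    rw [hz.red₂] at this
    exact hz.b₂_ne ((map_eq_zero _).1 this)
  · rw [hz.red₃]; exact (map_ne_zero _).2 hz.b₃_ne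

/-- `z · Σ t₁^i t₂^(s-i)` is a unit of `O` for reference units `t₁ t₂` -/
theorem mul_geom_sum_inv_mem {z : F} {b₁ b₂ b₃ : k} (hz : IsTriUnit D z b₁ b₂ b₃) {lam₀ mu₀ : k}
    (hlam : lam₀ ≠ 0) (hmu : mu₀ ≠ 0) {t₁ t₂ : F} (h₁ : IsRef D lam₀ mu₀ t₁)
    (h₂ : IsRef D lam₀ mu₀ t₂) (s : ℕ) (hs : ((s + 1 : ℕ) : k) ≠ 0) :
    (z * ∑ i ∈ Finset.range (s + 1), t₁ ^ i * t₂ ^ (s - i))⁻¹ ∈ D.O := by
  have hzO := ThickDatum.mem_O.1 (IsTriUnit.mem_O hz)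
  have h₁O := ThickDatum.mem_O.1 h₁.1
  have h₂O := ThickDatum.mem_O.1 h₂.1
  have hσ₁ : (∑ i ∈ Finset.range (s + 1), t₁ ^ i * t₂ ^ (s - i)) ∈ D.V₁.O :=
    D.V₁.O.sum_mem fun i _ => D.V₁.O.mul_mem _ _ (D.V₁.O.pow_mem h₁O.1 i) (D.V₁.O.pow_mem h₂O.1 _)
  have hσ₂ : (∑ i ∈ Finset.range (s + 1), t₁ ^ i * t₂ ^ (s - i)) ∈ D.V₂.O :=
    D.V₂.O.sum_mem fun i _ =>
      D.V₂.O.mul_mem _ _ (D.V₂.O.pow_mem h₁O.2.1 i) (D.V₂.O.pow_mem h₂O.2.1 _)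
  have hσ₃ : (∑ i ∈ Finset.range (s + 1), t₁ ^ i * t₂ ^ (s - i)) ∈ D.V₃.O :=
    D.V₃.O.sum_mem fun i _ =>
      D.V₃.O.mul_mem _ _ (D.V₃.O.pow_mem h₁O.2.2 i) (D.V₃.O.pow_mem h₂O.2.2 _)
  have cast₁ : ((s + 1 : ℕ) : F₁) = algebraMap k F₁ ((s + 1 : ℕ) : k) := by simp
  have cast₂ : ((s + 1 : ℕ) : F₂) = algebraMap k F₂ ((s + 1 : ℕ) : k) := by simp
  have cast₃ : ((s + 1 : ℕ) : F₃) = algebraMap k F₃ ((s + 1 : ℕ) : k) := by simp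
  refine C.inv_mem_O ?_ ?_ ?_
  · have e : D.V₁.redF (z * ∑ i ∈ Finset.range (s + 1), t₁ ^ i * t₂ ^ (s - i)) =
        algebraMap k F₁ b₁ * (((s + 1 : ℕ) : F₁) * algebraMap k F₁ lam₀ ^ s) := by
      rw [← hz.red₁]
      have := C.W₁.redF_geom_sum h₁O.1 h₂O.1 h₁.2.1 h₂.2.1 s
      rw [← this]
      exact C.W₁.redF_mul hzO.1 hσ₁
    rw [e, cast₁]
    exact mul_ne_zero ((map_ne_zero _).2 hz.b₁_ne)
      (mul_ne_zero ((map_ne_zero _).2 hs) (pow_ne_zero _ ((map_ne_zero _).2 hlam)))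
  · have e : D.red₂ (z * ∑ i ∈ Finset.range (s + 1), t₁ ^ i * t₂ ^ (s - i)) =
        algebraMap k F₂ b₂ * (((s + 1 : ℕ) : F₂) * 1 ^ s) := by
      rw [← hz.red₂]
      have := C.W₂.redF_geom_sum h₁O.2.1 h₂O.2.1 h₁.2.2.1 h₂.2.2.1 s
      rw [← this]
      exact C.W₂.redF_mul hzO.2.1 hσ₂
    rw [e, cast₂, one_pow, mul_one]
    exact mul_ne_zero ((map_ne_zero _).2 hz.b₂_ne) ((map_ne_zero _).2 hs)
  · have e : D.V₃.redF (z * ∑ i ∈ Finset.range (s + 1), t₁ ^ i * t₂ ^ (s - i)) =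
        algebraMap k F₃ b₃ * (((s + 1 : ℕ) : F₃) * algebraMap k F₃ mu₀ ^ s) := by
      rw [← hz.red₃]
      have := C.W₃.redF_geom_sum h₁O.2.2 h₂O.2.2 h₁.2.2.2 h₂.2.2.2 s
      rw [← this]
      exact C.W₃.redF_mul hzO.2.2 hσ₃
    rw [e, cast₃]
    exact mul_ne_zero ((map_ne_zero _).2 hz.b₃_ne)
      (mul_ne_zero ((map_ne_zero _).2 hs) (pow_ne_zero _ ((map_ne_zero _).2 hmu)))

omit C in
theorem isUnit_of_residue_ne_zero' {a : R} (h : IsLocalRing.residue R a ≠ 0) : IsUnit a := by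
  by_contra hu
  exact h ((IsLocalRing.residue_eq_zero_iff a).mpr ((IsLocalRing.mem_maximalIdeal a).mpr hu))

/-- **The doubling step.** -/
theorem doubling {n : ℕ} (hn : (n : k) ≠ 0) {z : F} (E : KummerFamily D g n z) {b₁ b₂ b₃ : k}
    (hz : IsTriUnit D z b₁ b₂ b₃) {lam₀ mu₀ : k} (hlam : lam₀ ≠ 0) (hmu : mu₀ ≠ 0)
    {α β α' β' : ℤ} (hα : 1 ≤ α) (hβ : 1 ≤ β) (hαα' : α ≤ α') (hββ' : β ≤ β')
    (hα' : α' ≤ 2 * α) (hβ' : β' ≤ 2 * β) (m : ℕ)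
    (H0 : ∀ j : ℕ, ∀ y₁ ∈ D.𝓛 j 0, y₁ ∈ D.O → ∀ y₂ ∈ D.𝓛 0 j, y₂ ∈ D.O → C.I α β α (y₁ - y₂) →
      ∃ a : R, C.I α β α (y₁ - algebraMap K F (a : K)))
    (STAB : ∀ M : ℕ, m ≤ M → ∀ x ∈ E.𝓔 M M, C.I α' β' α' x →
      ∃ y₁ ∈ E.𝓔 M 0, C.I α' β' α' y₁ ∧ ∃ y₂ ∈ E.𝓔 0 M, C.I α' β' α' y₂ ∧
        ∃ x' ∈ E.𝓔 m m, C.I α' β' α' x' ∧ x = y₁ + y₂ + x')
    (hG : C.Good E lam₀ mu₀ m α β) : C.Good E lam₀ mu₀ m α' β' := by
  classical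
  obtain ⟨t₁, ht₁E, t₂, ht₂E, hr₁, hr₂, hdiff⟩ := hG
  obtain ⟨s, rfl⟩ : ∃ s, n = s + 1 := by
    rcases n with _ | s
    · exact absurd (by simp) hn
    · exact ⟨s, rfl⟩
  have hzO : z ∈ D.O := IsTriUnit.mem_O hz
  have ht₁O : t₁ ∈ D.O := hr₁.1
  have ht₂O : t₂ ∈ D.O := hr₂.1
  set j : ℕ := m + s * m with hj
  -- the functions `β_i = t_i^n z`
  have hβ₁𝓛 : t₁ ^ (s + 1) * z ∈ D.𝓛 j 0 := by
    have h := E.mixed_mem ht₁E ht₁E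
    rwa [Nat.add_sub_cancel, ← pow_succ', Nat.mul_zero, Nat.add_zero] at h
  have hβ₂𝓛 : t₂ ^ (s + 1) * z ∈ D.𝓛 0 j := by
    have h := E.mixed_mem ht₂E ht₂E
    rwa [Nat.add_sub_cancel, ← pow_succ', Nat.mul_zero, Nat.add_zero] at h
  set β₁ := t₁ ^ (s + 1) * z with hβ₁
  set β₂ := t₂ ^ (s + 1) * z with hβ₂
  have hβ₁O : β₁ ∈ D.O := D.O.mul_mem (D.O.pow_mem ht₁O _) hzO
  have hβ₂O : β₂ ∈ D.O := D.O.mul_mem (D.O.pow_mem ht₂O _) hzO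
  -- `β₁ - β₂ ∈ 𝔞`
  set σ₀ := ∑ i ∈ Finset.range (s + 1), t₁ ^ i * t₂ ^ (s - i) with hσ₀
  have hσ₀O : σ₀ ∈ D.O :=
    D.O.sum_mem fun i _ => D.O.mul_mem (D.O.pow_mem ht₁O i) (D.O.pow_mem ht₂O _)
  have hgeom : σ₀ * (t₁ - t₂) = t₁ ^ (s + 1) - t₂ ^ (s + 1) := by
    have := (Commute.all t₁ t₂).geom_sum₂_mul (s + 1)
    simpa using this
  have hββ : C.I α β α (β₁ - β₂) := by
    have e : β₁ - β₂ = (t₁ - t₂) * (σ₀ * z) := by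
      rw [hβ₁, hβ₂, ← sub_mul, ← hgeom]; ring
    rw [e]
    exact hdiff.mul_mem_O (D.O.mul_mem hσ₀O hzO)
  -- the constant
  obtain ⟨a₀, hw₁⟩ := H0 j β₁ hβ₁𝓛 hβ₁O β₂ hβ₂𝓛 hβ₂O hββ
  set a₀F := algebraMap K F (a₀ : K) with ha₀F
  set w₁ := β₁ - a₀F with hw₁def
  set w₂ := β₂ - a₀F with hw₂def
  have hw₂ : C.I α β α w₂ := by
    have e : w₂ = w₁ - (β₁ - β₂) := by rw [hw₁def, hw₂def]; ring
    rw [e]; exact hw₁.sub hββ
  have hw₁O : w₁ ∈ D.O := hw₁.mem_O (by omega) (by omega) (by omega)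
  have hw₂O : w₂ ∈ D.O := hw₂.mem_O (by omega) (by omega) (by omega)
  have ha₀O : a₀F ∈ D.O := C.algebraMap_mem_O a₀
  -- `a₀` is a unit
  have hres : IsLocalRing.residue R a₀ = b₂ := by
    have h1 : D.red₂ β₁ = algebraMap k F₂ b₂ := by
      have hz2 := (ThickDatum.mem_O.1 hzO).2.1
      have ht2 := (ThickDatum.mem_O.1 ht₁O).2.1
      rw [hβ₁, ← C.W₂_redF, C.W₂.redF_mul (D.V₂.O.pow_mem ht2 _) hz2, C.W₂.redF_pow ht2,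
        C.W₂_redF, C.W₂_redF, hr₁.2.2.1, hz.red₂, one_pow, one_mul]
    have h2 : D.red₂ β₁ = algebraMap k F₂ (IsLocalRing.residue R a₀) := by
      have e : β₁ = a₀F + w₁ := by rw [hw₁def]; ring
      rw [e, ← C.W₂_redF, C.W₂.redF_add_of_ge hβ (ThickDatum.mem_O.1 ha₀O).2.1 hw₁.2.1,
        C.W₂_redF, C.red₂_algebraMap]
    rw [h1] at h2
    exact ((algebraMap k F₂).injective h2).symm
  have ha₀unit : IsUnit a₀ := isUnit_of_residue_ne_zero' (by rw [hres]; exact hz.b₂_ne)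
  have hsunit : IsUnit (((s + 1 : ℕ) : R)) := isUnit_of_residue_ne_zero' (by
    rw [map_natCast]; exact hn)
  obtain ⟨u, hu⟩ := hsunit.mul ha₀unit
  set d : R := ((u⁻¹ : Rˣ) : R) with hd
  set dF := algebraMap K F (d : K) with hdF
  have hdO : dF ∈ D.O := C.algebraMap_mem_O d
  have hsad : ((s + 1 : ℕ) : F) * a₀F * dF = 1 := by
    have h1 : (u : R) * d = 1 := by rw [hd]; simp
    have h2 := congrArg (fun x : R => algebraMap K F (x : K)) h1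
    simp only [MulMemClass.coe_mul, OneMemClass.coe_one, map_mul, map_one] at h2
    rw [← h2, hu]
    simp [ha₀F, hdF]
  -- the Newton step on both charts
  have one𝓛 : ∀ a b : ℕ, (1 : F) ∈ D.𝓛 a b := fun a b =>
    C.mono (Nat.zero_le a) (Nat.zero_le b) C.one_mem
  have const𝓛 : ∀ (a b : ℕ) (c : K), algebraMap K F c ∈ D.𝓛 a b := fun a b c => by
    have := (D.𝓛 a b).smul_mem c (one𝓛 a b)
    rwa [Algebra.smul_def, mul_one] at this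
  have smul𝓛 : ∀ (a b : ℕ) (c : K) (f : F), f ∈ D.𝓛 a b → algebraMap K F c * f ∈ D.𝓛 a b :=
    fun a b c f hf => by
      have := (D.𝓛 a b).smul_mem c hf
      rwa [Algebra.smul_def] at this
  have hw₁𝓛 : w₁ ∈ D.𝓛 j 0 := (D.𝓛 j 0).sub_mem hβ₁𝓛 (const𝓛 _ _ _)
  have hw₂𝓛 : w₂ ∈ D.𝓛 0 j := (D.𝓛 0 j).sub_mem hβ₂𝓛 (const𝓛 _ _ _)
  have hone₁ : 1 - dF * w₁ ∈ D.𝓛 j 0 := (D.𝓛 j 0).sub_mem (one𝓛 _ _) (smul𝓛 _ _ _ _ hw₁𝓛)
  have hone₂ : 1 - dF * w₂ ∈ D.𝓛 0 j := (D.𝓛 0 j).sub_mem (one𝓛 _ _) (smul𝓛 _ _ _ _ hw₂𝓛)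
  set t₁' := t₁ * (1 - dF * w₁) with ht₁'
  set t₂' := t₂ * (1 - dF * w₂) with ht₂'
  have ht₁'E : t₁' ∈ E.𝓔 (j + m) 0 := by
    have := E.mul_mem hone₁ ht₁E
    rwa [mul_comm, Nat.add_zero 0] at this
  have ht₂'E : t₂' ∈ E.𝓔 0 (j + m) := by
    have := E.mul_mem hone₂ ht₂E
    rwa [mul_comm, Nat.zero_add 0] at this
  have hr₁' : IsRef D lam₀ mu₀ t₁' := by
    have e : t₁' = t₁ - w₁ * (t₁ * dF) := by rw [ht₁']; ring
    rw [e]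
    exact C.isRef_sub hα hβ hα hr₁ (hw₁.mul_mem_O (D.O.mul_mem ht₁O hdO))
  have hr₂' : IsRef D lam₀ mu₀ t₂' := by
    have e : t₂' = t₂ - w₂ * (t₂ * dF) := by rw [ht₂']; ring
    rw [e]
    exact C.isRef_sub hα hβ hα hr₂ (hw₂.mul_mem_O (D.O.mul_mem ht₂O hdO))
  have ht₁'O : t₁' ∈ D.O := hr₁'.1
  have ht₂'O : t₂' ∈ D.O := hr₂'.1
  -- `t_i'^n z = a₀ + w_i² ρ_i`
  have newton : ∀ (t w : F), w ∈ D.O → t ^ (s + 1) * z = a₀F + w →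
      ∃ ρ ∈ D.O, (t * (1 - dF * w)) ^ (s + 1) * z = a₀F + w ^ 2 * ρ := by
    intro t w hwO htw
    obtain ⟨p, hp⟩ := one_sub_pow_expand (s + 1) (⟨dF * w, D.O.mul_mem hdO hwO⟩ : D.O)
    have hp' : (1 - dF * w) ^ (s + 1) =
        1 - ((s + 1 : ℕ) : F) * (dF * w) + (dF * w) ^ 2 * (p : F) := by
      have := congrArg (D.O.subtype) hp
      simpa using this
    refine ⟨-(((s + 1 : ℕ) : F) * dF) + (a₀F + w) * dF ^ 2 * (p : F), ?_, ?_⟩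
    · refine D.O.add_mem (D.O.neg_mem (D.O.mul_mem (natCast_mem D.O _) hdO)) ?_
      exact D.O.mul_mem (D.O.mul_mem (D.O.add_mem ha₀O hwO) (D.O.pow_mem hdO 2)) p.2
    · rw [mul_pow, mul_right_comm, htw, hp']
      exact newton_step a₀F w dF (p : F) ((s + 1 : ℕ) : F) hsad
  obtain ⟨ρ₁, hρ₁O, hρ₁⟩ := newton t₁ w₁ hw₁O (by rw [hw₁def]; ring)
  obtain ⟨ρ₂, hρ₂O, hρ₂⟩ := newton t₂ w₂ hw₂O (by rw [hw₂def]; ring)
  -- `t₁' - t₂' ∈ 𝔞'`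
  set σ := ∑ i ∈ Finset.range (s + 1), t₁' ^ i * t₂' ^ (s - i) with hσ
  have hgeom' : σ * (t₁' - t₂') = t₁' ^ (s + 1) - t₂' ^ (s + 1) := by
    have := (Commute.all t₁' t₂').geom_sum₂_mul (s + 1)
    simpa using this
  have hinv : (z * σ)⁻¹ ∈ D.O := C.mul_geom_sum_inv_mem hz hlam hmu hr₁' hr₂' s hn
  have hzσ0 : z * σ ≠ 0 := by
    intro h
    have h1 : D.red₂ (z * σ) = 0 := by
      rw [h, ← C.W₂_redF]
      exact C.W₂.redF_eq_zero_of_ge le_rfl (DVal.Ge.zero _ _)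
    have hσO : σ ∈ D.O :=
      D.O.sum_mem fun i _ => D.O.mul_mem (D.O.pow_mem ht₁'O i) (D.O.pow_mem ht₂'O _)
    have h2 : D.red₂ (z * σ) = algebraMap k F₂ b₂ * (((s + 1 : ℕ) : F₂) * 1 ^ s) := by
      rw [← hz.red₂]
      have := C.W₂.redF_geom_sum (ThickDatum.mem_O.1 ht₁'O).2.1 (ThickDatum.mem_O.1 ht₂'O).2.1
        hr₁'.2.2.1 hr₂'.2.2.1 s
      rw [← this]
      exact C.W₂.redF_mul (ThickDatum.mem_O.1 hzO).2.1 (ThickDatum.mem_O.1 hσO).2.1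
    rw [h1, one_pow, mul_one] at h2
    have cast₂ : ((s + 1 : ℕ) : F₂) = algebraMap k F₂ ((s + 1 : ℕ) : k) := by simp
    rw [cast₂] at h2
    exact mul_ne_zero ((map_ne_zero (algebraMap k F₂)).2 hz.b₂_ne)
      ((map_ne_zero (algebraMap k F₂)).2 hn) h2.symm
  set x' := t₁' - t₂' with hx'
  have hx'I : C.I α' β' α' x' := by
    have h1 : (z * σ) * x' = w₁ ^ 2 * ρ₁ - w₂ ^ 2 * ρ₂ := by
      rw [hx', mul_assoc, hgeom', mul_sub, mul_comm z, mul_comm z, hρ₁, hρ₂]; ring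
    have h2 : x' = (w₁ ^ 2 * ρ₁ - w₂ ^ 2 * ρ₂) * (z * σ)⁻¹ := by
      rw [← h1, mul_comm (z * σ) x', mul_assoc, mul_inv_cancel₀ hzσ0, mul_one]
    rw [h2]
    have hsq₁ : C.I α' β' α' (w₁ ^ 2 * ρ₁) := by
      have := ((hw₁.mul hw₁).mul_mem_O hρ₁O).mono (α' := α') (β' := β') (γ' := α')
        (by omega) (by omega) (by omega)
      rwa [← pow_two] at this
    have hsq₂ : C.I α' β' α' (w₂ ^ 2 * ρ₂) := by
      have := ((hw₂.mul hw₂).mul_mem_O hρ₂O).mono (α' := α') (β' := β') (γ' := α')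
        (by omega) (by omega) (by omega)
      rwa [← pow_two] at this
    exact (hsq₁.sub hsq₂).mul_mem_O hinv
  -- stabilisation
  set M := j + m with hM
  have hmM : m ≤ M := Nat.le_add_left m j
  have hx'E : x' ∈ E.𝓔 M M :=
    (E.𝓔 M M).sub_mem (E.mono le_rfl (Nat.zero_le _) ht₁'E) (E.mono (Nat.zero_le _) le_rfl ht₂'E)
  obtain ⟨y₁, hy₁E, hy₁I, y₂, hy₂E, hy₂I, x'', hx''E, hx''I, hsum⟩ := STAB M hmM x' hx'E hx'I
  set t₁'' := t₁' - y₁ with ht₁''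
  set t₂'' := t₂' + y₂ with ht₂''
  have hdiff'' : t₁'' - t₂'' = x'' := by
    have : x'' = x' - y₁ - y₂ := by rw [hsum]; ring
    rw [this, ht₁'', ht₂'', hx']; ring
  have ht₁''big : t₁'' ∈ E.𝓔 M 0 := (E.𝓔 M 0).sub_mem ht₁'E hy₁E
  have ht₂''big : t₂'' ∈ E.𝓔 0 M := (E.𝓔 0 M).add_mem ht₂'E hy₂E
  have ht₁''E : t₁'' ∈ E.𝓔 m 0 := by
    have h1 : t₁'' = t₂'' + x'' := by rw [← hdiff'']; ring
    have h2 : t₁'' ∈ E.𝓔 m M := by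
      rw [h1]
      exact (E.𝓔 m M).add_mem (E.mono (Nat.zero_le _) le_rfl ht₂''big) (E.mono le_rfl hmM hx''E)
    have := E.inter M 0 m M ⟨ht₁''big, h2⟩
    rwa [min_eq_right hmM, min_eq_left (Nat.zero_le M)] at this
  have ht₂''E : t₂'' ∈ E.𝓔 0 m := by
    have h1 : t₂'' = t₁'' - x'' := by rw [← hdiff'']; ring
    have h2 : t₂'' ∈ E.𝓔 M m := by
      rw [h1]
      exact (E.𝓔 M m).sub_mem (E.mono le_rfl (Nat.zero_le _) ht₁''big) (E.mono hmM le_rfl hx''E)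
    have := E.inter 0 M M m ⟨ht₂''big, h2⟩
    rwa [min_eq_left (Nat.zero_le M), min_eq_right hmM] at this
  have h1α' : 1 ≤ α' := by omega
  have h1β' : 1 ≤ β' := by omega
  refine ⟨t₁'', ht₁''E, t₂'', ht₂''E, C.isRef_sub h1α' h1β' h1α' hr₁' hy₁I,
    C.isRef_add h1α' h1β' h1α' hr₂' hy₂I, ?_⟩
  rw [hdiff'']; exact hx''I

end ThickCtx

end Fermat.Agent.S36lib.Thick
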