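/-
S36lib / Thick / Torsion  (helper5)

**Bounded torsion of `H¹`** for a two chart cover, as a pure lattice statement (port of
`LSb.NodalCtx.exists_torsion_bound`): for `K`-subspaces `W₁ W₂ ⊆ F` such that the lattice
`(W₁ ⊔ W₂) ∩ O` has an `R`-basis (N1), there is `N₀` with

  `x ∈ O`, `x = u₁ - u₂` (`u_i ∈ W_i`)  ⟹  `π^N₀ x = m₁ - m₂` with `m_i ∈ W_i ∩ O`.

* `FiltSys.exists_torsion_bound`  : for an abstract filtered unit ball (`Thick/Filt.lean`);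
* `ThickCtx.exists_torsion_bound` : for a thick datum, from `C.hD : D.HasLatticeBases`.
-/
import Fermat.Agent.S36lib.Thick.Chain

set_option autoImplicit false

noncomputable section

namespace Fermat.Agent.S36lib.Thick

open Module

namespace FiltSys

variable {K : Type*} [Field K] {R : ValuationSubring K} {F : Type*} [Field F] [Algebra K F]
variable {𝔽 : Type*} [AddCommGroup 𝔽] [Module (IsLocalRing.ResidueField R) 𝔽]
variable (S : FiltSys R F 𝔽)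

theorem πF_mem_O : algebraMap K F S.π ∈ S.O := S.algebraMap_mem ⟨S.π, S.π_mem⟩

/-- a common `π`-power denominator for a finite family -/
theorem exists_common_pow_mul_mem {ι : Type*} [Fintype ι] (u : ι → F) :
    ∃ N : ℕ, ∀ i, algebraMap K F S.π ^ N * u i ∈ S.O := by
  classical
  choose m hm using fun i => S.exists_pow_mul_mem (u i)
  refine ⟨∑ i, m i, fun i => ?_⟩
  have hle : m i ≤ ∑ j, m j := Finset.single_le_sum (fun _ _ => Nat.zero_le _) (Finset.mem_univ i)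
  obtain ⟨r, hr⟩ := Nat.exists_eq_add_of_le hle
  rw [hr, pow_add, mul_comm (algebraMap K F S.π ^ m i), mul_assoc]
  exact S.O.mul_mem (S.O.pow_mem S.πF_mem_O r) (hm i)

/-- **bounded torsion**: if the lattice `(W₁ ⊔ W₂) ∩ O` has a basis, every `x ∈ O` which is a
difference `u₁ - u₂` (`u_i ∈ W_i`) becomes a difference of LATTICE elements after multiplication
by a fixed power of `π`. -/
theorem exists_torsion_bound (W₁ W₂ : Submodule K F) (hB : S.HasBasis (W₁ ⊔ W₂)) :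
    ∃ N₀ : ℕ, ∀ x ∈ S.O, ∀ u₁ ∈ W₁, ∀ u₂ ∈ W₂, x = u₁ - u₂ →
      ∃ m₁ ∈ S.lat W₁, ∃ m₂ ∈ S.lat W₂, algebraMap K F S.π ^ N₀ * x = m₁ - m₂ := by
  classical
  obtain ⟨ε, hεW, -, hε⟩ := hB
  have hdec : ∀ l, ∃ p ∈ W₁, ∃ q ∈ W₂, p + q = ε l := fun l => Submodule.mem_sup.mp (hεW l)
  choose p hp q hq hpq using hdec
  obtain ⟨N₀, hN₀⟩ := S.exists_common_pow_mul_mem (Sum.elim p q)
  refine ⟨N₀, ?_⟩
  intro x hxO u₁ hu₁ u₂ hu₂ hxu
  have hxW : x ∈ W₁ ⊔ W₂ := by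
    rw [hxu]
    exact Submodule.sub_mem _ (Submodule.mem_sup_left hu₁) (Submodule.mem_sup_right hu₂)
  obtain ⟨α, hα⟩ := hε x hxW hxO
  have hpL : ∀ l, algebraMap K F S.π ^ N₀ * p l ∈ S.lat W₁ := fun l => by
    refine ⟨?_, hN₀ (Sum.inl l)⟩
    have := Submodule.smul_mem W₁ (S.π ^ N₀) (hp l)
    rwa [Algebra.smul_def, map_pow] at this
  have hqL : ∀ l, algebraMap K F S.π ^ N₀ * q l ∈ S.lat W₂ := fun l => by
    refine ⟨?_, hN₀ (Sum.inr l)⟩
    have := Submodule.smul_mem W₂ (S.π ^ N₀) (hq l)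
    rwa [Algebra.smul_def, map_pow] at this
  refine ⟨∑ l, α l • (algebraMap K F S.π ^ N₀ * p l),
    Submodule.sum_mem _ fun l _ => Submodule.smul_mem _ _ (hpL l),
    -∑ l, α l • (algebraMap K F S.π ^ N₀ * q l),
    Submodule.neg_mem _ (Submodule.sum_mem _ fun l _ => Submodule.smul_mem _ _ (hqL l)), ?_⟩
  rw [hα, sub_neg_eq_add, ← Finset.sum_add_distrib, Finset.mul_sum]
  refine Finset.sum_congr rfl fun l _ => ?_
  rw [smul_eq, smul_eq, ← hpq l]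
  ring

end FiltSys

variable {K : Type*} [Field K] {R : ValuationSubring K}
variable {F : Type*} [Field F] [Algebra K F]
variable {F₁ F₂ F₃ : Type*} [Field F₁] [Field F₂] [Field F₃]
variable [Algebra (IsLocalRing.ResidueField R) F₁] [Algebra (IsLocalRing.ResidueField R) F₂]
variable [Algebra (IsLocalRing.ResidueField R) F₃]

namespace ThickCtx

variable {D : ThickDatum R F F₁ F₂ F₃} {g g₁ g₂ g₃ : ℕ} (C : ThickCtx D g g₁ g₂ g₃)

include C

/-- (N1) in the form of `Thick/Filt.lean` -/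
theorem hasBasis (W : Submodule K F) [FiniteDimensional K W] : C.filtSys.HasBasis W :=
  C.hD W inferInstance

/-- **bounded torsion for a thick datum** -/
theorem exists_torsion_bound (W₁ W₂ : Submodule K F) [FiniteDimensional K W₁]
    [FiniteDimensional K W₂] :
    ∃ N₀ : ℕ, ∀ x ∈ D.O, ∀ u₁ ∈ W₁, ∀ u₂ ∈ W₂, x = u₁ - u₂ →
      ∃ m₁ ∈ W₁, ∃ m₂ ∈ W₂, m₁ ∈ D.O ∧ m₂ ∈ D.O ∧
        algebraMap K F D.π ^ N₀ * x = m₁ - m₂ := by
  have : FiniteDimensional K (W₁ ⊔ W₂ : Submodule K F) := Submodule.finiteDimensional_sup W₁ W₂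
  obtain ⟨N₀, h⟩ := C.filtSys.exists_torsion_bound W₁ W₂ (C.hasBasis (W₁ ⊔ W₂))
  refine ⟨N₀, fun x hx u₁ hu₁ u₂ hu₂ hxu => ?_⟩
  obtain ⟨m₁, ⟨hm₁, hm₁O⟩, m₂, ⟨hm₂, hm₂O⟩, e⟩ := h x hx u₁ hu₁ u₂ hu₂ hxu
  exact ⟨m₁, hm₁, m₂, hm₂, hm₁O, hm₂O, e⟩

end ThickCtx

end Fermat.Agent.S36lib.Thick
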