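/-
S36lib / Thick / Count  (helper6, WG-C)

The COUNT step of the thick core: for a family `W a b` of finite dimensional `K`-subspaces
satisfying Riemann's inequality whose symbol images lie in the targets `T ν i a b`, the symbol
images are EQUAL to the targets in the stable range; consequences:
* `exists_red₂_eq_one` : nondegeneracy (some `h ∈ W a b ∩ O` has `red₂ h = 1`);
* `exists_lift`        : lifting of target elements at every level.
-/
import Fermat.Agent.S36lib.Thick.TgtDim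
import Fermat.Agent.S36lib.Thick.Torsion

set_option autoImplicit false

noncomputable section

namespace Fermat.Agent.S36lib.Thick

open AlgebraicCurve Module
open Fermat.Agent.LSb.Core (lin2 nodalSpace lin2_nonneg)
open Fermat.Agent.S18lib.Cech (one_mem_rr)

variable {K : Type*} [Field K] {R : ValuationSubring K}
variable {F : Type*} [Field F] [Algebra K F]
variable {F₁ F₂ F₃ : Type*} [Field F₁] [Field F₂] [Field F₃]
variable [Algebra (IsLocalRing.ResidueField R) F₁] [Algebra (IsLocalRing.ResidueField R) F₂]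
variable [Algebra (IsLocalRing.ResidueField R) F₃]

local notation "k" => IsLocalRing.ResidueField R

namespace ThickCtx

variable {D : ThickDatum R F F₁ F₂ F₃} {g g₁ g₂ g₃ : ℕ} (C : ThickCtx D g g₁ g₂ g₃)

include C

/-- **the COUNT step**: equality of the symbol images with the targets in the stable range -/
theorem symImage_eq_T {W : Submodule K F} [FiniteDimensional K W] {ν : Fin D.s → k} {a b : ℕ}
    (hst : C.Stable a b)
    (hriem : (a : ℤ) * D.d₁ + b * D.d₂ + 1 - g ≤ (finrank K W : ℤ))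
    (hle : ∀ i < D.e + 1, C.filtSys.symImage i W ≤ C.T ν i a b) :
    ∀ i < D.e + 1, C.filtSys.symImage i W = C.T ν i a b := by
  refine C.filtSys.symImage_eq_of_sum_le (C.hasBasis W) (fun i => C.T ν i a b)
    (fun i _ => C.finiteDimensional_T ν i a b) hle ?_
  have h1 := C.sum_finrank_T_le ν hst
  rw [filtSys_N]
  exact_mod_cast h1.trans hriem

/-- lifting of target elements -/
theorem exists_lift {W : Submodule K F} [FiniteDimensional K W] {ν : Fin D.s → k} {a b : ℕ}
    (hst : C.Stable a b)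
    (hriem : (a : ℤ) * D.d₁ + b * D.d₂ + 1 - g ≤ (finrank K W : ℤ))
    (hle : ∀ i < D.e + 1, C.filtSys.symImage i W ≤ C.T ν i a b) {i : ℕ} (hi : i < D.e + 1)
    {φ : F₁ × F₂ × F₃} (hφ : φ ∈ C.T ν i a b) : ∃ f ∈ W, f ∈ C.chain i ∧ C.sy i f = φ := by
  rw [← C.symImage_eq_T hst hriem hle i hi] at hφ
  exact hφ

omit C in
theorem chartDiv₂_nonneg' (hQ₁ : 0 ≤ D.Q₁₂) (hQ₂ : 0 ≤ D.Q₂₂) (a b : ℕ) (v : Place k F₂) :
    0 ≤ D.chartDiv₂ a b v :=
  lin2_nonneg hQ₁ hQ₂ (Int.natCast_nonneg a) (Int.natCast_nonneg b) v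

/-- **nondegeneracy**: some `h ∈ W ∩ O` has `red₂ h = 1` -/
theorem exists_red₂_eq_one {W : Submodule K F} [FiniteDimensional K W] {ν : Fin D.s → k}
    {a b : ℕ} (hst : C.Stable a b)
    (hriem : (a : ℤ) * D.d₁ + b * D.d₂ + 1 - g ≤ (finrank K W : ℤ))
    (hle : ∀ i < D.e + 1, C.filtSys.symImage i W ≤ C.T ν i a b) :
    ∃ h ∈ W, h ∈ D.O ∧ D.red₂ h = 1 := by
  have h1 : ((0, 1, 0) : F₁ × F₂ × F₃) ∈ C.T ν 0 a b := by
    rw [C.T_zero, mk_mem_Tmid, zero_add]
    exact one_mem_rr (chartDiv₂_nonneg' C.Q₁₂_nonneg C.Q₂₂_nonneg a b)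
  obtain ⟨h, hW, hc, hsy⟩ := C.exists_lift hst hriem hle (Nat.succ_pos _) h1
  rw [chain_zero, mem_Isub, I_zero_iff] at hc
  rw [sy_zero] at hsy
  refine ⟨h, hW, hc, ?_⟩
  simpa using congrArg (fun t : F₁ × F₂ × F₃ => t.2.1) hsy

/-- **Export 2 of the thick core** from the twisted inclusions of the Kummer families -/
theorem nondegStatement_of_incl
    (hincl : ∀ (n : ℕ), (n : k) ≠ 0 → ∀ (z : F) (E : KummerFamily D g n z) (b₁ b₂ b₃ : k),
      IsTriUnit D z b₁ b₂ b₃ → ∀ a b : ℕ, ∃ ν : Fin D.s → k,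
        ∀ i < D.e + 1, C.filtSys.symImage i (E.𝓔 a b) ≤ C.T ν i a b) :
    NondegStatement D g := by
  intro n hn z E b₁ b₂ b₃ hz
  obtain ⟨m₀, hm₀⟩ := C.exists_stable
  refine ⟨m₀, fun a b hab => ?_⟩
  obtain ⟨ν, hle⟩ := hincl n hn z E b₁ b₂ b₃ hz a b
  have := E.finiteDimensional a b
  exact C.exists_red₂_eq_one (hm₀ a b hab) (E.riemann a b) hle

end ThickCtx

end Fermat.Agent.S36lib.Thick
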