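/-
S36lib / Thick / DivTools  (helper6, WG-C)

Divisor tools on a curve all of whose places are rational (`v.deg = 1`):
* `divOf hP z`     : the divisor of a function;
* `offPts x E`, `onPts x E` : the parts of a divisor off / on finitely many points `x c`;
* `floorDiv j e E` : the divisor `⌊j E / e⌋`, with `e · deg ⌊jE/e⌋ ≤ j · deg E` and
                     `2 Σ_{0<j<e} deg ⌊jE/e⌋ ≤ (e - 1) deg E`.
-/
import Mathlib
import Fermat.Agent.S18lib.Cech.CurveBasics

set_option autoImplicit false

noncomputable section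

namespace Fermat.Agent.S36lib.Thick

open AlgebraicCurve Fermat.Agent.S18lib.Cech

variable {k F : Type*} [Field k] [Field F] [Algebra k F]

/-! ### degree on a curve with rational places -/

theorem degree_eq_sum_of_subset (hdeg : ∀ v : Place k F, v.deg = 1) (E : Divisor k F)
    {S : Finset (Place k F)} (hS : E.support ⊆ S) : Divisor.degree E = ∑ v ∈ S, E v := by
  rw [degree_eq_sum', ← Finset.sum_subset hS]
  · refine Finset.sum_congr rfl fun v _ => ?_
    rw [hdeg v]; simp
  · intro v _ hv
    rw [Finsupp.notMem_support_iff.1 hv]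

/-! ### the divisor of a function -/

/-- the divisor of a function (`0` for the zero function) -/
def divOf (hP : HasPrincipalDivisors k F) (z : F) : Divisor k F :=
  letI := Classical.propDecidable
  if hz : z ≠ 0 then (hP.exists_divisor z hz).choose else 0

theorem divOf_apply (hP : HasPrincipalDivisors k F) {z : F} (hz : z ≠ 0) (v : Place k F) :
    divOf hP z v = v.ord z := by
  classical
  rw [divOf, dif_pos hz]
  exact (hP.exists_divisor z hz).choose_spec.1 v

theorem degree_divOf (hP : HasPrincipalDivisors k F) (z : F) :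
    Divisor.degree (divOf hP z) = 0 := by
  classical
  by_cases hz : z ≠ 0
  · rw [divOf, dif_pos hz]
    exact (hP.exists_divisor z hz).choose_spec.2
  · rw [divOf, dif_neg hz, map_zero]

/-! ### the parts of a divisor off / on finitely many points -/

section Pts

variable {s : ℕ} (x : Fin s → Place k F)

/-- the part of `E` off the points `x c` -/
def offPts (E : Divisor k F) : Divisor k F :=
  letI := Classical.decPred fun v : Place k F => ∀ c, x c ≠ v
  E.filter fun v => ∀ c, x c ≠ v

theorem offPts_apply_self (E : Divisor k F) (c : Fin s) : offPts x E (x c) = 0 := by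
  classical
  rw [offPts, Finsupp.filter_apply, if_neg]
  push Not
  exact ⟨c, rfl⟩

theorem offPts_apply_of_ne (E : Divisor k F) {v : Place k F} (hv : ∀ c, x c ≠ v) :
    offPts x E v = E v := by
  classical
  rw [offPts, Finsupp.filter_apply, if_pos hv]

/-- the part of `E` on the points `x c` -/
def onPts (E : Divisor k F) : Divisor k F := E - offPts x E

theorem onPts_apply_self (E : Divisor k F) (c : Fin s) : onPts x E (x c) = E (x c) := by
  rw [onPts, Finsupp.sub_apply, offPts_apply_self, sub_zero]

theorem onPts_apply_of_ne (E : Divisor k F) {v : Place k F} (hv : ∀ c, x c ≠ v) :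
    onPts x E v = 0 := by
  rw [onPts, Finsupp.sub_apply, offPts_apply_of_ne x E hv, sub_self]

theorem offPts_add_onPts (E : Divisor k F) : offPts x E + onPts x E = E := by
  rw [onPts]; abel

variable {x}

theorem onPts_eq_sum (hx : Function.Injective x) (E : Divisor k F) :
    onPts x E = ∑ c, Finsupp.single (x c) (E (x c)) := by
  classical
  ext v
  rw [Finsupp.finsetSum_apply]
  by_cases hv : ∃ c, x c = v
  · obtain ⟨c, rfl⟩ := hv
    rw [onPts_apply_self, Finset.sum_eq_single c]
    · rw [Finsupp.single_apply, if_pos rfl]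
    · intro c' _ hc'
      rw [Finsupp.single_apply, if_neg fun h => hc' (hx h)]
    · intro h; exact absurd (Finset.mem_univ c) h
  · push Not at hv
    rw [onPts_apply_of_ne x E hv]
    symm
    refine Finset.sum_eq_zero fun c _ => ?_
    rw [Finsupp.single_apply, if_neg (hv c)]

theorem degree_onPts (hdeg : ∀ v : Place k F, v.deg = 1) (hx : Function.Injective x)
    (E : Divisor k F) : Divisor.degree (onPts x E) = ∑ c, E (x c) := by
  rw [onPts_eq_sum hx, map_sum]
  refine Finset.sum_congr rfl fun c _ => ?_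
  rw [Divisor.degree_single, hdeg]; simp

theorem degree_offPts (hdeg : ∀ v : Place k F, v.deg = 1) (hx : Function.Injective x)
    (E : Divisor k F) : Divisor.degree (offPts x E) = Divisor.degree E - ∑ c, E (x c) := by
  have h := congrArg Divisor.degree (offPts_add_onPts x E)
  rw [map_add, degree_onPts hdeg hx] at h
  linarith

end Pts

/-! ### the floor divisor -/

/-- the divisor `⌊j E / e⌋` -/
def floorDiv (j e : ℕ) (E : Divisor k F) : Divisor k F :=
  E.mapRange (fun a => ((j : ℤ) * a) / (e : ℤ)) (by simp)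

theorem floorDiv_apply (j e : ℕ) (E : Divisor k F) (v : Place k F) :
    floorDiv j e E v = ((j : ℤ) * E v) / (e : ℤ) := by
  rw [floorDiv, Finsupp.mapRange_apply]

theorem support_floorDiv_subset (j e : ℕ) (E : Divisor k F) :
    (floorDiv j e E).support ⊆ E.support := Finsupp.support_mapRange

/-- `e ⌊x/e⌋ ≤ x` sharpened: `x ≥ -y/e` from `e x ≥ -y` -/
theorem neg_ediv_le_of_le_mul {e : ℕ} (he : 0 < e) {x y : ℤ} (h : -y ≤ (e : ℤ) * x) :
    -(y / (e : ℤ)) ≤ x := by
  have he' : (0 : ℤ) < e := by exact_mod_cast he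
  by_contra hlt
  push Not at hlt
  have h1 : x + 1 ≤ -(y / (e : ℤ)) := hlt
  have h2 : y < (y / (e : ℤ) + 1) * e := Int.lt_ediv_add_one_mul_self y he'
  nlinarith

theorem mul_degree_floorDiv_le (hdeg : ∀ v : Place k F, v.deg = 1) {e : ℕ} (he : 0 < e) (j : ℕ)
    (E : Divisor k F) :
    (e : ℤ) * Divisor.degree (floorDiv j e E) ≤ j * Divisor.degree E := by
  have he' : (e : ℤ) ≠ 0 := by exact_mod_cast he.ne'
  rw [degree_eq_sum_of_subset hdeg _ (support_floorDiv_subset j e E),
    degree_eq_sum_of_subset hdeg E (Finset.Subset.refl _), Finset.mul_sum, Finset.mul_sum]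
  refine Finset.sum_le_sum fun v _ => ?_
  rw [floorDiv_apply, mul_comm]
  exact Int.ediv_mul_le _ he'

/-- `⌊ja/e⌋ + ⌊(e-j)a/e⌋ ≤ a` -/
theorem ediv_add_ediv_le {e : ℕ} (he : 0 < e) {j : ℕ} (hj : j ≤ e) (a : ℤ) :
    ((j : ℤ) * a) / (e : ℤ) + (((e - j : ℕ) : ℤ) * a) / (e : ℤ) ≤ a := by
  have he' : (0 : ℤ) < e := by exact_mod_cast he
  have h1 := Int.ediv_mul_le ((j : ℤ) * a) he'.ne'
  have h2 := Int.ediv_mul_le (((e - j : ℕ) : ℤ) * a) he'.ne'
  have h3 : ((e - j : ℕ) : ℤ) = (e : ℤ) - j := by push_cast [hj]; ring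
  rw [h3] at h2 ⊢
  have : (((j : ℤ) * a) / (e : ℤ) + (((e : ℤ) - j) * a) / (e : ℤ)) * e ≤ a * e := by nlinarith
  exact le_of_mul_le_mul_right this he'

theorem two_mul_sum_degree_floorDiv_le (hdeg : ∀ v : Place k F, v.deg = 1) {e : ℕ} (he : 0 < e)
    (E : Divisor k F) :
    2 * ∑ i ∈ Finset.range (e - 1), Divisor.degree (floorDiv (i + 1) e E) ≤
      ((e : ℤ) - 1) * Divisor.degree E := by
  have hdegfl : ∀ j, Divisor.degree (floorDiv j e E) = ∑ v ∈ E.support, ((j : ℤ) * E v) / (e : ℤ) := by
    intro j
    rw [degree_eq_sum_of_subset hdeg _ (support_floorDiv_subset j e E)]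
    exact Finset.sum_congr rfl fun v _ => floorDiv_apply j e E v
  have hrefl : ∑ i ∈ Finset.range (e - 1), Divisor.degree (floorDiv (i + 1) e E) =
      ∑ i ∈ Finset.range (e - 1), Divisor.degree (floorDiv (e - (i + 1)) e E) := by
    rw [← Finset.sum_range_reflect]
    refine Finset.sum_congr rfl fun i hi => ?_
    have hi' := Finset.mem_range.1 hi
    congr 2
    omega
  have hpair : ∀ i ∈ Finset.range (e - 1),
      Divisor.degree (floorDiv (i + 1) e E) + Divisor.degree (floorDiv (e - (i + 1)) e E) ≤
        Divisor.degree E := by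
    intro i hi
    have hi' := Finset.mem_range.1 hi
    rw [hdegfl, hdegfl, degree_eq_sum_of_subset hdeg E (Finset.Subset.refl _),
      ← Finset.sum_add_distrib]
    exact Finset.sum_le_sum fun v _ => ediv_add_ediv_le he (by omega) (E v)
  calc 2 * ∑ i ∈ Finset.range (e - 1), Divisor.degree (floorDiv (i + 1) e E)
      = ∑ i ∈ Finset.range (e - 1), (Divisor.degree (floorDiv (i + 1) e E) +
          Divisor.degree (floorDiv (e - (i + 1)) e E)) := by
        rw [Finset.sum_add_distrib, ← hrefl]; ring
    _ ≤ ∑ _i ∈ Finset.range (e - 1), Divisor.degree E := Finset.sum_le_sum hpair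
    _ = ((e : ℤ) - 1) * Divisor.degree E := by
        rw [Finset.sum_const, Finset.card_range, nsmul_eq_mul]
        congr 1
        have : 1 ≤ e := he
        push_cast [this]; ring

end Fermat.Agent.S36lib.Thick
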