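/-
S36lib / Thick / TargetDefs  (helper6, WG-C)

The divisors on the special fibre which describe the symbol targets of a thick datum:
* `C.B₁`, `C.B₃` : `div(redᵢ ϖ)` off the triple points (on `Z₁`, `Z₃`);
* `C.Om`         : `div κ` off the triple points (on `Z₂`), `κ = red₂(ϖ^e / π)`;
* `C.Mx`         : `div κ` on the triple points;
* `C.Wd j`       : `⌊j · Om / e⌋ + Mx`  (pole bound of the `j`-th nilpotent layer).
-/
import Fermat.Agent.S36lib.Thick.Chain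
import Fermat.Agent.S36lib.Thick.DivTools

set_option autoImplicit false

noncomputable section

namespace Fermat.Agent.S36lib.Thick

open AlgebraicCurve Module
open Fermat.Agent.LSb.Core (lin2 lin2_apply lin2_apply_of_not_mem)

variable {K : Type*} [Field K] {R : ValuationSubring K}
variable {F : Type*} [Field F] [Algebra K F]
variable {F₁ F₂ F₃ : Type*} [Field F₁] [Field F₂] [Field F₃]
variable [Algebra (IsLocalRing.ResidueField R) F₁] [Algebra (IsLocalRing.ResidueField R) F₂]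
variable [Algebra (IsLocalRing.ResidueField R) F₃]

local notation "k" => IsLocalRing.ResidueField R

/-- the reduction of `ϖ` on the first component -/
def ThickDatum.ϖb₁ (D : ThickDatum R F F₁ F₂ F₃) : F₁ := D.V₁.redF D.ϖ

/-- the reduction of `ϖ` on the third component -/
def ThickDatum.ϖb₃ (D : ThickDatum R F F₁ F₂ F₃) : F₃ := D.V₃.redF D.ϖ

namespace ThickCtx

variable {D : ThickDatum R F F₁ F₂ F₃} {g g₁ g₂ g₃ : ℕ} (C : ThickCtx D g g₁ g₂ g₃)

include C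

theorem ϖb₁_ne_zero : D.ϖb₁ ≠ 0 := C.redF₁_ϖ_ne_zero

theorem ϖb₃_ne_zero : D.ϖb₃ ≠ 0 := C.redF₃_ϖ_ne_zero

/-- `div(red₁ ϖ)` off the triple points -/
def B₁ : Divisor k F₁ := offPts D.x₁ (divOf C.hF₁.hasPrincipalDivisors D.ϖb₁)

/-- `div(red₃ ϖ)` off the triple points -/
def B₃ : Divisor k F₃ := offPts D.x₃ (divOf C.hF₃.hasPrincipalDivisors D.ϖb₃)

/-- `div κ` off the triple points -/
def Om : Divisor k F₂ := offPts D.x₂ (divOf C.hF₂.hasPrincipalDivisors C.κ)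

/-- `div κ` on the triple points -/
def Mx : Divisor k F₂ := onPts D.x₂ (divOf C.hF₂.hasPrincipalDivisors C.κ)

/-- the pole bound of the `j`-th nilpotent layer -/
def Wd (j : ℕ) : Divisor k F₂ := floorDiv j D.e C.Om + C.Mx

theorem B₁_apply_self (c : Fin D.s) : C.B₁ (D.x₁ c) = 0 := offPts_apply_self _ _ c

theorem B₃_apply_self (c : Fin D.s) : C.B₃ (D.x₃ c) = 0 := offPts_apply_self _ _ c

theorem B₁_apply_of_ne {v : Place k F₁} (hv : ∀ c, D.x₁ c ≠ v) : C.B₁ v = v.ord D.ϖb₁ := by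
  rw [B₁, offPts_apply_of_ne _ _ hv, divOf_apply _ C.ϖb₁_ne_zero]

theorem B₃_apply_of_ne {v : Place k F₃} (hv : ∀ c, D.x₃ c ≠ v) : C.B₃ v = v.ord D.ϖb₃ := by
  rw [B₃, offPts_apply_of_ne _ _ hv, divOf_apply _ C.ϖb₃_ne_zero]

theorem Wd_apply_self (j : ℕ) (c : Fin D.s) : C.Wd j (D.x₂ c) = (D.x₂ c).ord C.κ := by
  rw [Wd, Finsupp.add_apply, floorDiv_apply, Om, offPts_apply_self, mul_zero, Int.zero_ediv,
    zero_add, Mx, onPts_apply_self, divOf_apply _ C.κ_ne_zero]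

theorem Wd_apply_of_ne (j : ℕ) {v : Place k F₂} (hv : ∀ c, D.x₂ c ≠ v) :
    C.Wd j v = ((j : ℤ) * v.ord C.κ) / (D.e : ℤ) := by
  rw [Wd, Finsupp.add_apply, floorDiv_apply, Om, offPts_apply_of_ne _ _ hv, Mx,
    onPts_apply_of_ne _ _ hv, add_zero, divOf_apply _ C.κ_ne_zero]

/-! ### the reduced charts at the triple points -/

theorem chartDiv₁_x₁ (a b : ℕ) (c : Fin D.s) : D.chartDiv₁ a b (D.x₁ c) = 0 :=
  lin2_apply_of_not_mem (C.x₁_not_mem c).1 (C.x₁_not_mem c).2 a b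

theorem chartDiv₂_x₂ (a b : ℕ) (c : Fin D.s) : D.chartDiv₂ a b (D.x₂ c) = 0 :=
  lin2_apply_of_not_mem (C.x₂_not_mem c).1 (C.x₂_not_mem c).2 a b

theorem chartDiv₃_x₃ (a b : ℕ) (c : Fin D.s) : D.chartDiv₃ a b (D.x₃ c) = 0 :=
  lin2_apply_of_not_mem (C.x₃_not_mem c).1 (C.x₃_not_mem c).2 a b

end ThickCtx

end Fermat.Agent.S36lib.Thick
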