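/-
S36lib / Thick / Incl  (helper6, WG-C)

The UNTWISTED symbol inclusions of a thick datum, all derived from (CHART), (GLUE), (REG) by
power tricks:
* consequences of (REG): the functions `U c = f₁ f₃ ϖ^e / π` (value `≠ 0` at the triple point `c`
  on all three components) and `G c = U c / ϖ`; `ord_{x₂ c} κ ≤ -2`; `redᵢ ϖ` vanishes at the
  triple points;
* `outer_mem`  : for `f ∈ 𝓛 a b` with `v₂ f ≥ β` (and `v₁, v₃ ≥ 0`), the pair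
  `(red₁(f/ϖ^β), red₃(f/ϖ^β))` lies in the untwisted nodal space of `(β B₁ + D̄₁, β B₃ + D̄₃)`;
* `mid_bounds` : for `f ∈ 𝓛 a b ∩ I(α, β, α)`, `β ≤ e α`, the symbol `ψ = red₂(f/ϖ^β)` satisfies
  `e (ord ψ + D̄₂) + β ord κ ≥ 0` everywhere and `ord_{x₂ c} ψ ≥ α · (-ord_{x₂ c} κ)`.
-/
import Fermat.Agent.S36lib.Thick.TargetDefs

set_option autoImplicit false

noncomputable section

namespace Fermat.Agent.S36lib.Thick

open AlgebraicCurve Module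
open Fermat.Agent.LSb (HasValueAt hasValueAt_zero_iff hasValueAt_const hasValueAt_zero
  exists_hasValueAt_of_mem_rr)
open Fermat.Agent.LSb.Core (lin2 lin2_apply nodalSpace GluedAt VanishAt)
open Fermat.Agent.S18lib.Cech (mem_rr_iff mem_rr_of_ne rr_mono ord_pow)

variable {K : Type*} [Field K] {R : ValuationSubring K}
variable {F : Type*} [Field F] [Algebra K F]
variable {F₁ F₂ F₃ : Type*} [Field F₁] [Field F₂] [Field F₃]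
variable [Algebra (IsLocalRing.ResidueField R) F₁] [Algebra (IsLocalRing.ResidueField R) F₂]
variable [Algebra (IsLocalRing.ResidueField R) F₃]

local notation "k" => IsLocalRing.ResidueField R

namespace ThickCtx

variable {D : ThickDatum R F F₁ F₂ F₃} {g g₁ g₂ g₃ : ℕ} (C : ThickCtx D g g₁ g₂ g₃)

include C

/-! ### the chart spaces -/

theorem smul_mem_𝓛 {a b : ℕ} (c : K) {f : F} (hf : f ∈ D.𝓛 a b) :
    algebraMap K F c * f ∈ D.𝓛 a b := by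
  rw [← Algebra.smul_def]; exact (D.𝓛 a b).smul_mem c hf

theorem mul_algebraMap_mem_𝓛 {a b : ℕ} (c : K) {f : F} (hf : f ∈ D.𝓛 a b) :
    f * algebraMap K F c ∈ D.𝓛 a b := by
  rw [mul_comm]; exact C.smul_mem_𝓛 c hf

theorem one_mem_𝓛 (a b : ℕ) : (1 : F) ∈ D.𝓛 a b :=
  C.mono (Nat.zero_le a) (Nat.zero_le b) C.one_mem

theorem pow_mem_𝓛 {a b : ℕ} {f : F} (hf : f ∈ D.𝓛 a b) (n : ℕ) : f ^ n ∈ D.𝓛 (n * a) (n * b) := by
  induction n with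
  | zero => simpa using C.one_mem
  | succ n ih =>
    rw [pow_succ]
    have := C.mul_mem ih hf
    convert this using 2 <;> ring

/-- chart exponents of `ϖ` -/
def aϖ : ℕ := C.unif_mem_chart.choose

/-- chart exponents of `ϖ` -/
def bϖ : ℕ := C.unif_mem_chart.choose_spec.choose

theorem ϖ_mem_𝓛 : D.ϖ ∈ D.𝓛 C.aϖ C.bϖ := C.unif_mem_chart.choose_spec.choose_spec

theorem ϖ_mem_O : D.ϖ ∈ D.O :=
  ThickDatum.mem_O.2 ⟨C.unif_mem₁, D.V₂.unif_mem, C.unif_mem₃⟩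

theorem ϖ_pow_mem_𝓛 (n : ℕ) : D.ϖ ^ n ∈ D.𝓛 (n * C.aϖ) (n * C.bϖ) := C.pow_mem_𝓛 C.ϖ_mem_𝓛 n

/-! ### regularity and values at the triple points -/

theorem red₁_regular {a b : ℕ} {f : F} (hf : f ∈ D.𝓛 a b) (hO : f ∈ D.O) (c : Fin D.s) :
    D.V₁.redF f ∈ (D.x₁ c).toValuationSubring :=
  Fermat.Agent.LSb.Core.mem_of_mem_rr (C.chartDiv₁_x₁ a b c).le (C.chart₁ a b f hf hO)

theorem red₂_regular {a b : ℕ} {f : F} (hf : f ∈ D.𝓛 a b) (hO : f ∈ D.O) (c : Fin D.s) :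
    D.red₂ f ∈ (D.x₂ c).toValuationSubring :=
  Fermat.Agent.LSb.Core.mem_of_mem_rr (C.chartDiv₂_x₂ a b c).le (C.chart₂ a b f hf hO)

theorem red₃_regular {a b : ℕ} {f : F} (hf : f ∈ D.𝓛 a b) (hO : f ∈ D.O) (c : Fin D.s) :
    D.V₃.redF f ∈ (D.x₃ c).toValuationSubring :=
  Fermat.Agent.LSb.Core.mem_of_mem_rr (C.chartDiv₃_x₃ a b c).le (C.chart₃ a b f hf hO)

/-- `red₁ ϖ` vanishes at the triple points -/
theorem ϖb₁_hasValueAt_zero (c : Fin D.s) : HasValueAt (D.x₁ c) D.ϖb₁ 0 := by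
  obtain ⟨α, h1, h2, _⟩ := C.glue _ _ D.ϖ C.ϖ_mem_𝓛 C.ϖ_mem_O c
  have h0 : D.red₂ D.ϖ = 0 := by rw [← C.W₂_redF]; exact C.W₂.redF_unif
  rw [h0] at h2
  rw [h2.eq_zero_of_eq_zero] at h1
  exact h1

/-- `red₃ ϖ` vanishes at the triple points -/
theorem ϖb₃_hasValueAt_zero (c : Fin D.s) : HasValueAt (D.x₃ c) D.ϖb₃ 0 := by
  obtain ⟨α, _, h2, h3⟩ := C.glue _ _ D.ϖ C.ϖ_mem_𝓛 C.ϖ_mem_O c
  have h0 : D.red₂ D.ϖ = 0 := by rw [← C.W₂_redF]; exact C.W₂.redF_unif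
  rw [h0] at h2
  rw [h2.eq_zero_of_eq_zero] at h3
  exact h3

theorem one_le_ord_ϖb₁ (c : Fin D.s) : 1 ≤ (D.x₁ c).ord D.ϖb₁ := by
  rcases hasValueAt_zero_iff.1 (C.ϖb₁_hasValueAt_zero c) with h | h
  · exact absurd h C.ϖb₁_ne_zero
  · omega

theorem one_le_ord_ϖb₃ (c : Fin D.s) : 1 ≤ (D.x₃ c).ord D.ϖb₃ := by
  rcases hasValueAt_zero_iff.1 (C.ϖb₃_hasValueAt_zero c) with h | h
  · exact absurd h C.ϖb₃_ne_zero
  · omega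

/-! ### consequences of (REG) -/

/-- chart exponents of the local equations -/
def aR : ℕ := C.reg.choose

/-- chart exponents of the local equations -/
def bR : ℕ := C.reg.choose_spec.choose

theorem reg_spec : ∀ c, ∃ f₁ f₃ : F, f₁ ∈ D.𝓛 C.aR C.bR ∧ f₃ ∈ D.𝓛 C.aR C.bR ∧ f₁ ∈ D.O ∧
    f₃ ∈ D.O ∧ f₁ * (algebraMap K F D.π)⁻¹ ∈ D.V₁.O ∧ f₃ * (algebraMap K F D.π)⁻¹ ∈ D.V₃.O ∧
    ∃ α : k, α ≠ 0 ∧
      HasValueAt (D.x₂ c) (D.red₂ (f₁ * f₃ * D.ϖ ^ D.e * (algebraMap K F D.π)⁻¹)) α :=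
  C.reg.choose_spec.choose_spec

/-- the local equation of `Z₁` at the triple point `c` -/
def f₁ (c : Fin D.s) : F := (C.reg_spec c).choose

/-- the local equation of `Z₃` at the triple point `c` -/
def f₃ (c : Fin D.s) : F := (C.reg_spec c).choose_spec.choose

theorem f_spec (c : Fin D.s) : C.f₁ c ∈ D.𝓛 C.aR C.bR ∧ C.f₃ c ∈ D.𝓛 C.aR C.bR ∧ C.f₁ c ∈ D.O ∧
    C.f₃ c ∈ D.O ∧ C.f₁ c * (algebraMap K F D.π)⁻¹ ∈ D.V₁.O ∧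
    C.f₃ c * (algebraMap K F D.π)⁻¹ ∈ D.V₃.O ∧ ∃ α : k, α ≠ 0 ∧
      HasValueAt (D.x₂ c) (D.red₂ (C.f₁ c * C.f₃ c * D.ϖ ^ D.e * (algebraMap K F D.π)⁻¹)) α :=
  (C.reg_spec c).choose_spec.choose_spec

/-- `U c = f₁ f₃ ϖ^e / π` -/
def U (c : Fin D.s) : F := C.f₁ c * C.f₃ c * D.ϖ ^ D.e * (algebraMap K F D.π)⁻¹

/-- `G c = f₁ f₃ ϖ^(e-1) / π = U c / ϖ` -/
def G (c : Fin D.s) : F := C.f₁ c * C.f₃ c * D.ϖ ^ (D.e - 1) * (algebraMap K F D.π)⁻¹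

/-- the value of `U c` at the triple point -/
def αU (c : Fin D.s) : k := (C.f_spec c).2.2.2.2.2.2.choose

theorem αU_ne_zero (c : Fin D.s) : C.αU c ≠ 0 := (C.f_spec c).2.2.2.2.2.2.choose_spec.1

theorem U_hasValueAt₂ (c : Fin D.s) : HasValueAt (D.x₂ c) (D.red₂ (C.U c)) (C.αU c) :=
  (C.f_spec c).2.2.2.2.2.2.choose_spec.2

theorem U_eq_G_mul (c : Fin D.s) : C.U c = C.G c * D.ϖ := by
  have he : D.e = (D.e - 1) + 1 := by have := C.e_pos; omega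
  rw [U, G]
  conv_lhs => rw [he, pow_succ]
  ring

/-- chart exponents of `U c` -/
def aU : ℕ := C.aR + C.aR + D.e * C.aϖ

/-- chart exponents of `U c` -/
def bU : ℕ := C.bR + C.bR + D.e * C.bϖ

theorem U_mem_𝓛 (c : Fin D.s) : C.U c ∈ D.𝓛 C.aU C.bU := by
  have h1 := C.mul_mem (C.f_spec c).1 (C.f_spec c).2.1
  have h2 := C.mul_mem h1 (C.ϖ_pow_mem_𝓛 D.e)
  exact C.mul_algebraMap_mem_𝓛 (D.π⁻¹) h2 |> fun h => by rwa [map_inv₀] at h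

theorem G_mem_𝓛 (c : Fin D.s) : C.G c ∈ D.𝓛 C.aU C.bU := by
  have h1 := C.mul_mem (C.f_spec c).1 (C.f_spec c).2.1
  have h2 := C.mul_mem h1 (C.ϖ_pow_mem_𝓛 (D.e - 1))
  have h3 : C.G c ∈ D.𝓛 (C.aR + C.aR + (D.e - 1) * C.aϖ) (C.bR + C.bR + (D.e - 1) * C.bϖ) := by
    have := C.mul_algebraMap_mem_𝓛 (D.π⁻¹) h2
    rwa [map_inv₀] at this
  refine C.mono ?_ ?_ h3
  · exact Nat.add_le_add_left (Nat.mul_le_mul_right _ (Nat.sub_le _ _)) _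
  · exact Nat.add_le_add_left (Nat.mul_le_mul_right _ (Nat.sub_le _ _)) _

theorem f₁_mem₁ (c : Fin D.s) : C.f₁ c ∈ D.V₁.O := (ThickDatum.mem_O.1 (C.f_spec c).2.2.1).1
theorem f₁_mem₂ (c : Fin D.s) : C.f₁ c ∈ D.V₂.O := (ThickDatum.mem_O.1 (C.f_spec c).2.2.1).2.1
theorem f₁_mem₃ (c : Fin D.s) : C.f₁ c ∈ D.V₃.O := (ThickDatum.mem_O.1 (C.f_spec c).2.2.1).2.2
theorem f₃_mem₁ (c : Fin D.s) : C.f₃ c ∈ D.V₁.O := (ThickDatum.mem_O.1 (C.f_spec c).2.2.2.1).1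
theorem f₃_mem₂ (c : Fin D.s) : C.f₃ c ∈ D.V₂.O := (ThickDatum.mem_O.1 (C.f_spec c).2.2.2.1).2.1
theorem f₃_mem₃ (c : Fin D.s) : C.f₃ c ∈ D.V₃.O := (ThickDatum.mem_O.1 (C.f_spec c).2.2.2.1).2.2

/-- `G c ∈ O₁` -/
theorem G_mem₁ (c : Fin D.s) : C.G c ∈ D.V₁.O := by
  have e1 : C.G c = (C.f₁ c * (algebraMap K F D.π)⁻¹) * C.f₃ c * D.ϖ ^ (D.e - 1) := by
    rw [G]; ring
  rw [e1]
  exact D.V₁.O.mul_mem _ _ (D.V₁.O.mul_mem _ _ (C.f_spec c).2.2.2.2.1 (C.f₃_mem₁ c))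
    (D.V₁.O.pow_mem C.unif_mem₁ _)

/-- `G c ∈ O₃` -/
theorem G_mem₃ (c : Fin D.s) : C.G c ∈ D.V₃.O := by
  have e1 : C.G c = C.f₁ c * (C.f₃ c * (algebraMap K F D.π)⁻¹) * D.ϖ ^ (D.e - 1) := by
    rw [G]; ring
  rw [e1]
  exact D.V₃.O.mul_mem _ _ (D.V₃.O.mul_mem _ _ (C.f₁_mem₃ c) (C.f_spec c).2.2.2.2.2.1)
    (D.V₃.O.pow_mem C.unif_mem₃ _)

/-- `ϖ^e / π` is the unit `unitκ` of `O₂` -/
theorem ϖ_pow_div_π : D.ϖ ^ D.e * (algebraMap K F D.π)⁻¹ = ((C.unitκ : D.V₂.O) : F) := by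
  rw [C.unitκ_spec, mul_comm, ← mul_assoc, inv_mul_cancel₀ C.πF_ne_zero, one_mul]

theorem U_eq₂ (c : Fin D.s) : C.U c = C.f₁ c * C.f₃ c * ((C.unitκ : D.V₂.O) : F) := by
  rw [U, mul_assoc, C.ϖ_pow_div_π]

theorem U_mem_O (c : Fin D.s) : C.U c ∈ D.O := by
  refine ThickDatum.mem_O.2 ⟨?_, ?_, ?_⟩
  · rw [C.U_eq_G_mul]; exact D.V₁.O.mul_mem _ _ (C.G_mem₁ c) C.unif_mem₁
  · rw [C.U_eq₂]
    exact D.V₂.O.mul_mem _ _ (D.V₂.O.mul_mem _ _ (C.f₁_mem₂ c) (C.f₃_mem₂ c)) (C.unitκ : D.V₂.O).2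
  · rw [C.U_eq_G_mul]; exact D.V₃.O.mul_mem _ _ (C.G_mem₃ c) C.unif_mem₃

/-- the three reductions of `U c` have the value `αU c ≠ 0` at the triple point `c` -/
theorem U_hasValueAt (c : Fin D.s) :
    HasValueAt (D.x₁ c) (D.V₁.redF (C.U c)) (C.αU c) ∧
      HasValueAt (D.x₃ c) (D.V₃.redF (C.U c)) (C.αU c) := by
  obtain ⟨α, h1, h2, h3⟩ := C.glue _ _ (C.U c) (C.U_mem_𝓛 c) (C.U_mem_O c) c
  have : α = C.αU c := h2.unique (C.U_hasValueAt₂ c)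
  subst this
  exact ⟨h1, h3⟩

theorem red₂_U (c : Fin D.s) : D.red₂ (C.U c) = D.red₂ (C.f₁ c) * D.red₂ (C.f₃ c) * C.κ := by
  rw [C.U_eq₂, ← C.W₂_redF, C.W₂.redF_mul (D.V₂.O.mul_mem _ _ (C.f₁_mem₂ c) (C.f₃_mem₂ c))
    (C.unitκ : D.V₂.O).2, C.W₂.redF_mul (C.f₁_mem₂ c) (C.f₃_mem₂ c),
    C.W₂.redF_of_mem (C.unitκ : D.V₂.O).2]
  rfl

/-- `red₁ f₁ = 0` -/
theorem redF₁_f₁ (c : Fin D.s) : D.V₁.redF (C.f₁ c) = 0 := by
  have h : C.W₁.Ge 1 (C.f₁ c) := by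
    rw [DVal.Ge, C.W₁_unif, zpow_neg, zpow_one]
    exact (C.f_spec c).2.2.2.2.1
  have := (DVal.ge_succ_iff (V := C.W₁) (j := 0) (f := C.f₁ c)).1 (by simpa using h)
  rw [← C.W₁_redF, ← DVal.sym_zero_eq]
  exact this.2

/-- `red₃ f₃ = 0` -/
theorem redF₃_f₃ (c : Fin D.s) : D.V₃.redF (C.f₃ c) = 0 := by
  have h : C.W₃.Ge 1 (C.f₃ c) := by
    rw [DVal.Ge, C.W₃_unif, zpow_neg, zpow_one]
    exact (C.f_spec c).2.2.2.2.2.1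
  have := (DVal.ge_succ_iff (V := C.W₃) (j := 0) (f := C.f₃ c)).1 (by simpa using h)
  rw [← C.W₃_redF, ← DVal.sym_zero_eq]
  exact this.2

/-- **`ord_{x₂ c} κ ≤ -2`**: the nilpotent layers vanish doubly at the triple points -/
theorem ord_κ_le (c : Fin D.s) : (D.x₂ c).ord C.κ ≤ -2 := by
  have hU := C.U_hasValueAt₂ c
  have hU0 : D.red₂ (C.U c) ≠ 0 := hU.ne_zero (C.αU_ne_zero c)
  have hord : (D.x₂ c).ord (D.red₂ (C.U c)) = 0 := hU.ord_eq_zero (C.αU_ne_zero c)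
  rw [C.red₂_U] at hU0 hord
  have hf₁0 : D.red₂ (C.f₁ c) ≠ 0 := fun h => hU0 (by rw [h, zero_mul, zero_mul])
  have hf₃0 : D.red₂ (C.f₃ c) ≠ 0 := fun h => hU0 (by rw [h, mul_zero, zero_mul])
  -- `red₂ f₁` vanishes at `x₂ c`
  have hv₁ : 1 ≤ (D.x₂ c).ord (D.red₂ (C.f₁ c)) := by
    obtain ⟨α, h1, h2, _⟩ := C.glue _ _ (C.f₁ c) (C.f_spec c).1 (C.f_spec c).2.2.1 c
    rw [C.redF₁_f₁] at h1
    rw [h1.eq_zero_of_eq_zero] at h2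
    rcases hasValueAt_zero_iff.1 h2 with h | h
    · exact absurd h hf₁0
    · omega
  have hv₃ : 1 ≤ (D.x₂ c).ord (D.red₂ (C.f₃ c)) := by
    obtain ⟨α, _, h2, h3⟩ := C.glue _ _ (C.f₃ c) (C.f_spec c).2.1 (C.f_spec c).2.2.2.1 c
    rw [C.redF₃_f₃] at h3
    rw [h3.eq_zero_of_eq_zero] at h2
    rcases hasValueAt_zero_iff.1 h2 with h | h
    · exact absurd h hf₃0
    · omega
  rw [(D.x₂ c).ord_mul (mul_ne_zero hf₁0 hf₃0) C.κ_ne_zero, (D.x₂ c).ord_mul hf₁0 hf₃0] at hord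
  omega

/-! ### the outer components: `(red₁(f/ϖ^β), red₃(f/ϖ^β))` -/

theorem redF₁_ϖ_zpow (j : ℤ) : D.V₁.redF (D.ϖ ^ j) = D.ϖb₁ ^ j := by
  rcases le_total 0 j with hj | hj
  · obtain ⟨n, rfl⟩ := Int.eq_ofNat_of_zero_le hj
    rw [zpow_natCast, zpow_natCast, D.V₁.redF_pow C.unif_mem₁]; rfl
  · obtain ⟨n, hn⟩ := Int.eq_ofNat_of_zero_le (neg_nonneg.2 hj)
    have e1 : ∀ x : F, x ^ j = (x⁻¹) ^ n := fun x => by
      rw [← zpow_natCast, ← hn, inv_zpow', neg_neg]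
    have e2 : ∀ x : F₁, x ^ j = (x⁻¹) ^ n := fun x => by
      rw [← zpow_natCast, ← hn, inv_zpow', neg_neg]
    rw [e1, e2, D.V₁.redF_pow C.unif_inv_mem₁, D.V₁.redF_inv C.redF₁_ϖ_ne_zero]; rfl

theorem redF₃_ϖ_zpow (j : ℤ) : D.V₃.redF (D.ϖ ^ j) = D.ϖb₃ ^ j := by
  rcases le_total 0 j with hj | hj
  · obtain ⟨n, rfl⟩ := Int.eq_ofNat_of_zero_le hj
    rw [zpow_natCast, zpow_natCast, D.V₃.redF_pow C.unif_mem₃]; rfl
  · obtain ⟨n, hn⟩ := Int.eq_ofNat_of_zero_le (neg_nonneg.2 hj)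
    have e1 : ∀ x : F, x ^ j = (x⁻¹) ^ n := fun x => by
      rw [← zpow_natCast, ← hn, inv_zpow', neg_neg]
    have e2 : ∀ x : F₃, x ^ j = (x⁻¹) ^ n := fun x => by
      rw [← zpow_natCast, ← hn, inv_zpow', neg_neg]
    rw [e1, e2, D.V₃.redF_pow C.unif_inv_mem₃, D.V₃.redF_inv C.redF₃_ϖ_ne_zero]; rfl

section Outer

variable {a b β : ℕ} {f : F} (hf : f ∈ D.𝓛 a b) (hI : C.I 0 β 0 f)
include hf hI

/-- the auxiliary function `g' = (f/ϖ^β) · U^β = f · G^β` -/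
theorem outer_aux (c : Fin D.s) :
    f * D.ϖ ^ (-(β : ℤ)) * C.U c ^ β = f * C.G c ^ β ∧
      f * C.G c ^ β ∈ D.𝓛 (a + β * C.aU) (b + β * C.bU) ∧ f * C.G c ^ β ∈ D.O := by
  have e1 : f * D.ϖ ^ (-(β : ℤ)) * C.U c ^ β = f * C.G c ^ β := by
    rw [C.U_eq_G_mul, mul_pow, zpow_neg, zpow_natCast]
    have : D.ϖ ^ β ≠ 0 := pow_ne_zero _ C.ϖ_ne_zero
    field_simp
  refine ⟨e1, C.mul_mem hf (C.pow_mem_𝓛 (C.G_mem_𝓛 c) β), ?_⟩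
  rw [← e1]
  have hU := ThickDatum.mem_O.1 (C.U_mem_O c)
  refine ThickDatum.mem_O.2 ⟨?_, ?_, ?_⟩
  · exact D.V₁.O.mul_mem _ _ (D.V₁.O.mul_mem _ _ ((C.W₁.ge_zero_iff).1 hI.1) (C.ϖ_zpow_mem₁ _))
      (D.V₁.O.pow_mem hU.1 β)
  · exact D.V₂.O.mul_mem _ _ hI.2.1 (D.V₂.O.pow_mem hU.2.1 β)
  · exact D.V₃.O.mul_mem _ _ (D.V₃.O.mul_mem _ _ ((C.W₃.ge_zero_iff).1 hI.2.2) (C.ϖ_zpow_mem₃ _))
      (D.V₃.O.pow_mem hU.2.2 β)

/-- the two outer symbols have a common value at every triple point -/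
theorem outer_hasValueAt (c : Fin D.s) : ∃ γ : k,
    HasValueAt (D.x₁ c) (D.V₁.redF (f * D.ϖ ^ (-(β : ℤ)))) γ ∧
      HasValueAt (D.x₃ c) (D.V₃.redF (f * D.ϖ ^ (-(β : ℤ)))) γ := by
  obtain ⟨e1, hg𝓛, hgO⟩ := C.outer_aux hf hI c
  obtain ⟨γ, h1, _, h3⟩ := C.glue _ _ _ hg𝓛 hgO c
  obtain ⟨hU₁, hU₃⟩ := C.U_hasValueAt c
  have hα := C.αU_ne_zero c
  have hUO := ThickDatum.mem_O.1 (C.U_mem_O c)
  have hy₁ : f * D.ϖ ^ (-(β : ℤ)) ∈ D.V₁.O :=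
    D.V₁.O.mul_mem _ _ ((C.W₁.ge_zero_iff).1 hI.1) (C.ϖ_zpow_mem₁ _)
  have hy₃ : f * D.ϖ ^ (-(β : ℤ)) ∈ D.V₃.O :=
    D.V₃.O.mul_mem _ _ ((C.W₃.ge_zero_iff).1 hI.2.2) (C.ϖ_zpow_mem₃ _)
  refine ⟨γ * (C.αU c ^ β)⁻¹, ?_, ?_⟩
  · rw [← e1, D.V₁.redF_mul hy₁ (D.V₁.O.pow_mem hUO.1 β), D.V₁.redF_pow hUO.1] at h1
    have h2 := h1.mul ((hU₁.pow β).inv (pow_ne_zero β hα))
    have hne : D.V₁.redF (C.U c) ^ β ≠ 0 := pow_ne_zero β (hU₁.ne_zero hα)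
    rwa [mul_assoc, mul_inv_cancel₀ hne, mul_one] at h2
  · rw [← e1, D.V₃.redF_mul hy₃ (D.V₃.O.pow_mem hUO.2.2 β), D.V₃.redF_pow hUO.2.2] at h3
    have h2 := h3.mul ((hU₃.pow β).inv (pow_ne_zero β hα))
    have hne : D.V₃.redF (C.U c) ^ β ≠ 0 := pow_ne_zero β (hU₃.ne_zero hα)
    rwa [mul_assoc, mul_inv_cancel₀ hne, mul_one] at h2

/-- pole bound of the first outer symbol -/
theorem outer_mem_rr₁ :
    D.V₁.redF (f * D.ϖ ^ (-(β : ℤ))) ∈ riemannRochSpace (β • C.B₁ + D.chartDiv₁ a b) := by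
  have hfO : f ∈ D.O := hI.mem_O le_rfl (Int.natCast_nonneg β) le_rfl
  have hf₁ : f ∈ D.V₁.O := (ThickDatum.mem_O.1 hfO).1
  have hch := C.chart₁ a b f hf hfO
  rw [D.V₁.redF_mul hf₁ (C.ϖ_zpow_mem₁ _), C.redF₁_ϖ_zpow]
  rcases eq_or_ne (D.V₁.redF f) 0 with h0 | h0
  · rw [h0, zero_mul]; exact Submodule.zero_mem _
  have hz : D.ϖb₁ ^ (-(β : ℤ)) ≠ 0 := zpow_ne_zero _ C.ϖb₁_ne_zero
  rw [mem_rr_of_ne (mul_ne_zero h0 hz)]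
  intro v
  rw [Finsupp.add_apply, Finsupp.smul_apply, nsmul_eq_mul]
  by_cases hv : ∃ c, D.x₁ c = v
  · obtain ⟨c, rfl⟩ := hv
    rw [C.B₁_apply_self, C.chartDiv₁_x₁, mul_zero, add_zero, neg_zero]
    obtain ⟨γ, h1, _⟩ := C.outer_hasValueAt hf hI c
    rw [D.V₁.redF_mul hf₁ (C.ϖ_zpow_mem₁ _), C.redF₁_ϖ_zpow] at h1
    exact h1.ord_nonneg
  · push Not at hv
    rw [C.B₁_apply_of_ne hv, v.ord_mul h0 hz, v.ord_zpow]
    have := (mem_rr_of_ne h0).1 hch v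
    linarith

/-- pole bound of the second outer symbol -/
theorem outer_mem_rr₃ :
    D.V₃.redF (f * D.ϖ ^ (-(β : ℤ))) ∈ riemannRochSpace (β • C.B₃ + D.chartDiv₃ a b) := by
  have hfO : f ∈ D.O := hI.mem_O le_rfl (Int.natCast_nonneg β) le_rfl
  have hf₃ : f ∈ D.V₃.O := (ThickDatum.mem_O.1 hfO).2.2
  have hch := C.chart₃ a b f hf hfO
  rw [D.V₃.redF_mul hf₃ (C.ϖ_zpow_mem₃ _), C.redF₃_ϖ_zpow]
  rcases eq_or_ne (D.V₃.redF f) 0 with h0 | h0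
  · rw [h0, zero_mul]; exact Submodule.zero_mem _
  have hz : D.ϖb₃ ^ (-(β : ℤ)) ≠ 0 := zpow_ne_zero _ C.ϖb₃_ne_zero
  rw [mem_rr_of_ne (mul_ne_zero h0 hz)]
  intro v
  rw [Finsupp.add_apply, Finsupp.smul_apply, nsmul_eq_mul]
  by_cases hv : ∃ c, D.x₃ c = v
  · obtain ⟨c, rfl⟩ := hv
    rw [C.B₃_apply_self, C.chartDiv₃_x₃, mul_zero, add_zero, neg_zero]
    obtain ⟨γ, _, h3⟩ := C.outer_hasValueAt hf hI c
    rw [D.V₃.redF_mul hf₃ (C.ϖ_zpow_mem₃ _), C.redF₃_ϖ_zpow] at h3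
    exact h3.ord_nonneg
  · push Not at hv
    rw [C.B₃_apply_of_ne hv, v.ord_mul h0 hz, v.ord_zpow]
    have := (mem_rr_of_ne h0).1 hch v
    linarith

/-- **the outer inclusion**: `(red₁(f/ϖ^β), red₃(f/ϖ^β))` lies in the untwisted nodal space -/
theorem outer_mem :
    (D.V₁.redF (f * D.ϖ ^ (-(β : ℤ))), D.V₃.redF (f * D.ϖ ^ (-(β : ℤ)))) ∈
      nodalSpace D.x₁ D.x₃ 1 (β • C.B₁ + D.chartDiv₁ a b) (β • C.B₃ + D.chartDiv₃ a b) := by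
  refine ⟨C.outer_mem_rr₁ hf hI, C.outer_mem_rr₃ hf hI, fun c => ?_⟩
  obtain ⟨γ, h1, h3⟩ := C.outer_hasValueAt hf hI c
  exact ⟨γ, h1, by rw [Pi.one_apply, one_mul]; exact h3⟩

end Outer

/-! ### the middle component: the symbols `red₂(f/ϖ^β)` -/

theorem chartDiv₂_mul (n a b : ℕ) (v : Place k F₂) :
    D.chartDiv₂ (n * a) (n * b) v = (n : ℤ) * D.chartDiv₂ a b v := by
  rw [ThickDatum.chartDiv₂, ThickDatum.chartDiv₂, lin2_apply, lin2_apply]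
  push_cast; ring

theorem chartDiv₁_mul (n a b : ℕ) (v : Place k F₁) :
    D.chartDiv₁ (n * a) (n * b) v = (n : ℤ) * D.chartDiv₁ a b v := by
  rw [ThickDatum.chartDiv₁, ThickDatum.chartDiv₁, lin2_apply, lin2_apply]
  push_cast; ring

theorem chartDiv₃_mul (n a b : ℕ) (v : Place k F₃) :
    D.chartDiv₃ (n * a) (n * b) v = (n : ℤ) * D.chartDiv₃ a b v := by
  rw [ThickDatum.chartDiv₃, ThickDatum.chartDiv₃, lin2_apply, lin2_apply]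
  push_cast; ring

/-- the symbol of `π⁻ᵐ` on the middle component -/
theorem sym₂_π_inv_pow (m : ℕ) :
    C.W₂.Ge (-((D.e : ℤ) * m)) ((algebraMap K F D.π)⁻¹ ^ m) ∧
      C.W₂.sym (-((D.e : ℤ) * m)) ((algebraMap K F D.π)⁻¹ ^ m) = C.κ ^ m := by
  have h1 := (C.ge₂_π_inv).pow m
  have h2 := DVal.sym_pow (C.ge₂_π_inv) m
  have e : (m : ℤ) * -(D.e : ℤ) = -((D.e : ℤ) * m) := by ring
  rw [e] at h1 h2
  exact ⟨h1, by rw [h2, C.sym₂_π_inv]⟩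

section Mid

variable {a b α β : ℕ} (hβ : β ≤ D.e * α) {f : F} (hf : f ∈ D.𝓛 a b) (hI : C.I α β α f)
include hβ hf hI

/-- **pole bound** of the middle symbol: `ψ^e κ^β ∈ L(e D̄₂)` -/
theorem mid_pow_mem_rr :
    C.W₂.sym β f ^ D.e * C.κ ^ β ∈ riemannRochSpace (D.chartDiv₂ (D.e * a) (D.e * b)) := by
  set y := f ^ D.e * (algebraMap K F D.π)⁻¹ ^ β with hy
  have hy𝓛 : y ∈ D.𝓛 (D.e * a) (D.e * b) := by
    have := C.mul_algebraMap_mem_𝓛 ((D.π⁻¹) ^ β) (C.pow_mem_𝓛 hf D.e)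
    rwa [map_pow, map_inv₀] at this
  have hπI : C.I (-(β : ℤ)) (-((D.e : ℤ) * β)) (-(β : ℤ)) ((algebraMap K F D.π)⁻¹ ^ β) := by
    have := C.I_π_zpow (-(β : ℤ))
    rw [zpow_neg, zpow_natCast, ← inv_pow] at this
    convert this using 1
    ring
  have hyI := (hI.pow D.e).mul hπI
  have hyO : y ∈ D.O := by
    refine hyI.mem_O ?_ ?_ ?_
    · have : (β : ℤ) ≤ D.e * α := by exact_mod_cast hβ
      linarith
    · linarith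
    · have : (β : ℤ) ≤ D.e * α := by exact_mod_cast hβ
      linarith
  have hch := C.chart₂ _ _ y hy𝓛 hyO
  have hred : D.red₂ y = C.W₂.sym β f ^ D.e * C.κ ^ β := by
    rw [← C.W₂_redF, ← DVal.sym_zero_eq]
    have h1 := DVal.sym_mul ((hI.2.1).pow D.e) (C.sym₂_π_inv_pow β).1
    rw [DVal.sym_pow hI.2.1, (C.sym₂_π_inv_pow β).2] at h1
    have e0 : (D.e : ℤ) * β + -((D.e : ℤ) * β) = 0 := by ring
    rw [e0] at h1
    exact h1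
  rwa [hred] at hch

/-- **vanishing at the triple points** of the middle symbol: `ψ κ^α` is regular at `x₂ c` -/
theorem mid_mul_regular (c : Fin D.s) :
    C.W₂.sym β f * C.κ ^ α ∈ (D.x₂ c).toValuationSubring := by
  obtain ⟨m, hm⟩ : ∃ m : ℕ, D.e * α = β + m := ⟨D.e * α - β, by omega⟩
  set y := f * D.ϖ ^ m * (algebraMap K F D.π)⁻¹ ^ α with hy
  have hy𝓛 : y ∈ D.𝓛 (a + m * C.aϖ) (b + m * C.bϖ) := by
    have := C.mul_algebraMap_mem_𝓛 ((D.π⁻¹) ^ α) (C.mul_mem hf (C.ϖ_pow_mem_𝓛 m))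
    rwa [map_pow, map_inv₀] at this
  have hπI : C.I (-(α : ℤ)) (-((D.e : ℤ) * α)) (-(α : ℤ)) ((algebraMap K F D.π)⁻¹ ^ α) := by
    have := C.I_π_zpow (-(α : ℤ))
    rw [zpow_neg, zpow_natCast, ← inv_pow] at this
    convert this using 1
    ring
  have hϖI : C.I 0 m 0 (D.ϖ ^ m) := by
    have := C.I_ϖ_zpow (m : ℤ)
    rwa [zpow_natCast] at this
  have hyI := (hI.mul hϖI).mul hπI
  have hm' : (D.e : ℤ) * α = β + m := by exact_mod_cast hm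
  have hyO : y ∈ D.O := hyI.mem_O (by linarith) (by linarith) (by linarith)
  have hreg := C.red₂_regular hy𝓛 hyO c
  have hred : D.red₂ y = C.W₂.sym β f * C.κ ^ α := by
    rw [← C.W₂_redF, ← DVal.sym_zero_eq]
    have hϖ2 : C.W₂.Ge (m : ℤ) (D.ϖ ^ m) := hϖI.2.1
    have h1 := DVal.sym_mul (hI.2.1.mul hϖ2) (C.sym₂_π_inv_pow α).1
    have hs : C.W₂.sym (m : ℤ) (D.ϖ ^ m) = 1 := by
      have := DVal.sym_unif_zpow (V := C.W₂) (m : ℤ)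
      rwa [C.W₂_unif, zpow_natCast] at this
    rw [DVal.sym_mul hI.2.1 hϖ2, hs, mul_one, (C.sym₂_π_inv_pow α).2] at h1
    have e0 : (β : ℤ) + m + -((D.e : ℤ) * α) = 0 := by linarith
    rw [e0] at h1
    exact h1
  rwa [hred] at hreg

/-- **the bounds on the middle symbol** -/
theorem mid_bounds (hψ : C.W₂.sym β f ≠ 0) :
    (∀ v : Place k F₂, 0 ≤ (D.e : ℤ) * (v.ord (C.W₂.sym β f) + D.chartDiv₂ a b v) +
        β * v.ord C.κ) ∧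
      ∀ c, (α : ℤ) * (-(D.x₂ c).ord C.κ) ≤ (D.x₂ c).ord (C.W₂.sym β f) := by
  refine ⟨fun v => ?_, fun c => ?_⟩
  · have h := C.mid_pow_mem_rr hβ hf hI
    have hne : C.W₂.sym β f ^ D.e * C.κ ^ β ≠ 0 :=
      mul_ne_zero (pow_ne_zero _ hψ) (pow_ne_zero _ C.κ_ne_zero)
    have := (mem_rr_of_ne hne).1 h v
    rw [v.ord_mul (pow_ne_zero _ hψ) (pow_ne_zero _ C.κ_ne_zero), ord_pow, ord_pow,
      C.chartDiv₂_mul] at this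
    linarith
  · have h := C.mid_mul_regular hβ hf hI c
    have hne : C.W₂.sym β f * C.κ ^ α ≠ 0 := mul_ne_zero hψ (pow_ne_zero _ C.κ_ne_zero)
    have := Fermat.Agent.ProgramR.FF.ord_nonneg_of_mem (D.x₂ c) h
    rw [(D.x₂ c).ord_mul hψ (pow_ne_zero _ C.κ_ne_zero), ord_pow] at this
    linarith

end Mid

/-- **the middle inclusion**: for `f ∈ 𝓛 a b ∩ 𝔟_j` (`0 < j < e`) the symbol `red₂(f/ϖʲ)` lies in
`L(W_j + D̄₂)` -/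
theorem mid_mem {a b j : ℕ} (hj : 0 < j) (hje : j < D.e) {f : F} (hf : f ∈ D.𝓛 a b)
    (hI : C.I 1 j 1 f) : C.W₂.sym j f ∈ riemannRochSpace (C.Wd j + D.chartDiv₂ a b) := by
  rcases eq_or_ne (C.W₂.sym j f) 0 with h0 | h0
  · rw [h0]; exact Submodule.zero_mem _
  have hβ : j ≤ D.e * 1 := by omega
  have hI' : C.I ((1 : ℕ) : ℤ) j ((1 : ℕ) : ℤ) f := by simpa using hI
  obtain ⟨h1, h2⟩ := C.mid_bounds hβ hf hI' h0
  rw [mem_rr_of_ne h0]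
  intro v
  rw [Finsupp.add_apply]
  by_cases hv : ∃ c, D.x₂ c = v
  · obtain ⟨c, rfl⟩ := hv
    rw [C.Wd_apply_self, C.chartDiv₂_x₂, add_zero]
    have := h2 c
    simp only [Nat.cast_one, one_mul] at this
    exact this
  · push Not at hv
    rw [C.Wd_apply_of_ne j hv]
    have h3 := h1 v
    have h4 : -((j : ℤ) * v.ord C.κ) ≤
        (D.e : ℤ) * (v.ord (C.W₂.sym j f) + D.chartDiv₂ a b v) := by linarith
    have := neg_ediv_le_of_le_mul C.e_pos h4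
    linarith

end ThickCtx

end Fermat.Agent.S36lib.Thick
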