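/-
S36lib / Thick / RRFam  (helper8, WG-C brick C2 "targets")

Riemann–Roch bookkeeping on the components of the special fibre, over a field `k` only (no
valuations): the two-parameter families

* `rrFam A Q₁ Q₂ a b = L(A + a Q₁ + b Q₂)` on one curve (`A` an ARBITRARY fixed divisor, `Q₁ Q₂ ≥ 0`
  with disjoint supports), and
* `nodFam x₁ x₃ ν A₁ A₃ Q₁₁ Q₂₁ Q₁₃ Q₂₃ a b = nodalSpace x₁ x₃ ν (A₁ + a Q₁₁ + b Q₂₁)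
  (A₃ + a Q₁₃ + b Q₂₃)` on a pair of curves glued at `s` points with an arbitrary twist `ν`,

with monotonicity, intersections (`min`), sums (`max`, in the stable range), dimensions (stable
range), finite dimensionality and vanishing in negative degree.  This is `LSb/Core/CechChart`'s
`finrank_nodal / mem_nodal_min / nodal_mono / nodal_sup_eq` made standalone, with the extra fixed
divisors `A`, `A₁`, `A₃`.
-/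
import Mathlib
import Fermat.Agent.LSb.Core.CechChart

set_option autoImplicit false

noncomputable section

namespace Fermat.Agent.S36lib.Thick

open AlgebraicCurve Module
open Fermat.Agent.S18lib Fermat.Agent.S18lib.Cech
open Fermat.Agent.LSb.Core

/-! ### degrees and pointwise bounds of `A + a Q₁ + b Q₂` -/

section Basic

variable {k F : Type*} [Field k] [Field F] [Algebra k F]

theorem degree_add_lin2 (A Q₁ Q₂ : Divisor k F) (a b : ℕ) :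
    Divisor.degree (A + lin2 Q₁ Q₂ a b) =
      Divisor.degree A + a * Divisor.degree Q₁ + b * Divisor.degree Q₂ := by
  rw [map_add, degree_lin2]
  ring

theorem add_lin2_mono (A : Divisor k F) {Q₁ Q₂ : Divisor k F} (hQ₁ : 0 ≤ Q₁) (hQ₂ : 0 ≤ Q₂)
    {a b a' b' : ℕ} (ha : a ≤ a') (hb : b ≤ b') (v : Place k F) :
    (A + lin2 Q₁ Q₂ a b) v ≤ (A + lin2 Q₁ Q₂ a' b') v := by
  rw [Finsupp.add_apply, Finsupp.add_apply]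
  have := lin2_mono hQ₁ hQ₂ (Int.ofNat_le.2 ha) (Int.ofNat_le.2 hb) v
  linarith

theorem add_lin2_min (A : Divisor k F) {Q₁ Q₂ : Divisor k F}
    (hd : Disjoint Q₁.support Q₂.support) (a b a' b' : ℕ) (v : Place k F) :
    (A + lin2 Q₁ Q₂ a b) v ≤ (A + lin2 Q₁ Q₂ (min a a' : ℕ) (min b b' : ℕ)) v ∨
      (A + lin2 Q₁ Q₂ a' b') v ≤ (A + lin2 Q₁ Q₂ (min a a' : ℕ) (min b b' : ℕ)) v := by
  rw [Finsupp.add_apply, Finsupp.add_apply, Finsupp.add_apply, Nat.cast_min, Nat.cast_min]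
  rcases lin2_min hd (a : ℤ) b a' b' v with h | h
  · left; linarith
  · right; linarith

theorem degree_nonneg_of_le {Q : Divisor k F} (hQ : 0 ≤ Q) : 0 ≤ Divisor.degree Q :=
  degree_nonneg_of_nonneg fun v => by simpa using Finsupp.le_def.1 hQ v

/-- the degree of `A + a Q₁ + b Q₂` is monotone in `(a, b)` -/
theorem degree_add_lin2_mono (A : Divisor k F) {Q₁ Q₂ : Divisor k F} (hQ₁ : 0 ≤ Q₁) (hQ₂ : 0 ≤ Q₂)
    {a b a' b' : ℕ} (ha : a ≤ a') (hb : b ≤ b') :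
    Divisor.degree (A + lin2 Q₁ Q₂ a b) ≤ Divisor.degree (A + lin2 Q₁ Q₂ a' b') := by
  rw [degree_add_lin2, degree_add_lin2]
  have h1 := degree_nonneg_of_le hQ₁
  have h2 := degree_nonneg_of_le hQ₂
  have ha' : (a : ℤ) ≤ a' := Int.ofNat_le.2 ha
  have hb' : (b : ℤ) ≤ b' := Int.ofNat_le.2 hb
  nlinarith

/-- `A + a Q₁ + b Q₂` vanishes where `A`, `Q₁`, `Q₂` do -/
theorem add_lin2_apply_eq_zero {A Q₁ Q₂ : Divisor k F} {v : Place k F} (hA : A v = 0)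
    (h₁ : v ∉ Q₁.support) (h₂ : v ∉ Q₂.support) (a b : ℕ) : (A + lin2 Q₁ Q₂ a b) v = 0 := by
  rw [Finsupp.add_apply, hA, lin2_apply_of_not_mem h₁ h₂, add_zero]

end Basic

/-! ### one curve: the family `L(A + a Q₁ + b Q₂)` -/

section OneCurve

variable {k F : Type*} [Field k] [Field F] [Algebra k F]

/-- the family `L(A + a Q₁ + b Q₂)` -/
def rrFam (A Q₁ Q₂ : Divisor k F) (a b : ℕ) : Submodule k F :=
  riemannRochSpace (A + lin2 Q₁ Q₂ a b)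

theorem mem_rrFam {A Q₁ Q₂ : Divisor k F} {a b : ℕ} {f : F} :
    f ∈ rrFam A Q₁ Q₂ a b ↔ f ∈ riemannRochSpace (A + lin2 Q₁ Q₂ a b) := Iff.rfl

variable {A Q₁ Q₂ : Divisor k F}

theorem rrFam_mono (hQ₁ : 0 ≤ Q₁) (hQ₂ : 0 ≤ Q₂) {a b a' b' : ℕ} (ha : a ≤ a') (hb : b ≤ b') :
    rrFam A Q₁ Q₂ a b ≤ rrFam A Q₁ Q₂ a' b' :=
  rr_mono fun v => add_lin2_mono A hQ₁ hQ₂ ha hb v

theorem rrFam_inf_le (hd : Disjoint Q₁.support Q₂.support) (a b a' b' : ℕ) :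
    rrFam A Q₁ Q₂ a b ⊓ rrFam A Q₁ Q₂ a' b' ≤ rrFam A Q₁ Q₂ (min a a') (min b b') :=
  fun _ hf => mem_rr_of_mem_of_mem hf.1 hf.2 fun v => add_lin2_min A hd a b a' b' v

variable {g : ℕ}

theorem finiteDimensional_rrFam (hF : IsCurveOfGenus k F g) (A Q₁ Q₂ : Divisor k F) (a b : ℕ) :
    FiniteDimensional k (rrFam A Q₁ Q₂ a b) :=
  hF.finiteDimensional _

theorem finrank_rrFam (hF : IsCurveOfGenus k F g) {a b : ℕ}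
    (hst : 2 * (g : ℤ) - 2 < Divisor.degree (A + lin2 Q₁ Q₂ a b)) :
    (finrank k (rrFam A Q₁ Q₂ a b) : ℤ) =
      Divisor.degree A + a * Divisor.degree Q₁ + b * Divisor.degree Q₂ + 1 - g := by
  rw [rrFam, hF.riemann_eq _ hst, degree_add_lin2]

theorem rrFam_eq_bot (hF : IsCurveOfGenus k F g) {a b : ℕ}
    (h : Divisor.degree (A + lin2 Q₁ Q₂ a b) < 0) : rrFam A Q₁ Q₂ a b = ⊥ :=
  (Submodule.eq_bot_iff _).2 fun _ hf => eq_zero_of_mem_rr_of_degree_neg hF h hf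

theorem rrFam_zero_zero (hF : IsCurveOfGenus k F g) (Q₁ Q₂ : Divisor k F) {f : F}
    (hf : f ∈ rrFam 0 Q₁ Q₂ 0 0) : ∃ α : k, f = algebraMap k F α := by
  have e : (0 : Divisor k F) + lin2 Q₁ Q₂ ((0 : ℕ) : ℤ) ((0 : ℕ) : ℤ) = 0 := by
    rw [Nat.cast_zero, lin2_zero_zero, add_zero]
  rw [rrFam, e, hF.riemannRochSpace_zero] at hf
  obtain ⟨α, hα⟩ := Algebra.mem_bot.mp hf
  exact ⟨α, hα.symm⟩

/-- sums of members of the family in the stable range -/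
theorem rrFam_sup_eq (hF : IsCurveOfGenus k F g) (hQ₁ : 0 ≤ Q₁) (hQ₂ : 0 ≤ Q₂)
    (hd : Disjoint Q₁.support Q₂.support) {a b a' b' : ℕ}
    (hst : 2 * (g : ℤ) - 2 < Divisor.degree (A + lin2 Q₁ Q₂ (min a a' : ℕ) (min b b' : ℕ))) :
    rrFam A Q₁ Q₂ a b ⊔ rrFam A Q₁ Q₂ a' b' = rrFam A Q₁ Q₂ (max a a') (max b b') := by
  have f1 := finiteDimensional_rrFam hF A Q₁ Q₂ a b
  have f2 := finiteDimensional_rrFam hF A Q₁ Q₂ a' b'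
  have f3 := finiteDimensional_rrFam hF A Q₁ Q₂ (max a a') (max b b')
  have f4 := finiteDimensional_rrFam hF A Q₁ Q₂ (min a a') (min b b')
  have hle : rrFam A Q₁ Q₂ a b ⊔ rrFam A Q₁ Q₂ a' b' ≤ rrFam A Q₁ Q₂ (max a a') (max b b') :=
    sup_le (rrFam_mono hQ₁ hQ₂ (le_max_left _ _) (le_max_left _ _))
      (rrFam_mono hQ₁ hQ₂ (le_max_right _ _) (le_max_right _ _))
  refine Submodule.eq_of_le_of_finrank_le hle ?_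
  have h1 := Submodule.finrank_sup_add_finrank_inf_eq (rrFam A Q₁ Q₂ a b) (rrFam A Q₁ Q₂ a' b')
  have h2 := Submodule.finrank_mono (rrFam_inf_le (A := A) hd a b a' b')
  have s1 : 2 * (g : ℤ) - 2 < Divisor.degree (A + lin2 Q₁ Q₂ a b) :=
    lt_of_lt_of_le hst (degree_add_lin2_mono A hQ₁ hQ₂ (min_le_left _ _) (min_le_left _ _))
  have s2 : 2 * (g : ℤ) - 2 < Divisor.degree (A + lin2 Q₁ Q₂ a' b') :=
    lt_of_lt_of_le hst (degree_add_lin2_mono A hQ₁ hQ₂ (min_le_right _ _) (min_le_right _ _))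
  have s3 : 2 * (g : ℤ) - 2 <
      Divisor.degree (A + lin2 Q₁ Q₂ (max a a' : ℕ) (max b b' : ℕ)) :=
    lt_of_lt_of_le s1 (degree_add_lin2_mono A hQ₁ hQ₂ (le_max_left _ _) (le_max_left _ _))
  have r1 := finrank_rrFam hF s1
  have r2 := finrank_rrFam hF s2
  have r3 := finrank_rrFam hF s3
  have r4 := finrank_rrFam hF hst
  have ea : ((min a a' : ℕ) : ℤ) + ((max a a' : ℕ) : ℤ) = a + a' := by
    exact_mod_cast min_add_max a a'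
  have eb : ((min b b' : ℕ) : ℤ) + ((max b b' : ℕ) : ℤ) = b + b' := by
    exact_mod_cast min_add_max b b'
  have h1' : (finrank k ↥(rrFam A Q₁ Q₂ a b ⊔ rrFam A Q₁ Q₂ a' b') : ℤ) +
      finrank k ↥(rrFam A Q₁ Q₂ a b ⊓ rrFam A Q₁ Q₂ a' b') =
      finrank k (rrFam A Q₁ Q₂ a b) + finrank k (rrFam A Q₁ Q₂ a' b') := by exact_mod_cast h1
  have h2' : (finrank k ↥(rrFam A Q₁ Q₂ a b ⊓ rrFam A Q₁ Q₂ a' b') : ℤ) ≤
      finrank k (rrFam A Q₁ Q₂ (min a a') (min b b')) := by exact_mod_cast h2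
  have : (finrank k (rrFam A Q₁ Q₂ (max a a') (max b b')) : ℤ) ≤
      finrank k ↥(rrFam A Q₁ Q₂ a b ⊔ rrFam A Q₁ Q₂ a' b') := by
    have e1 : ((max a a' : ℕ) : ℤ) = a + a' - (min a a' : ℕ) := by linarith
    have e2 : ((max b b' : ℕ) : ℤ) = b + b' - (min b b' : ℕ) := by linarith
    rw [r3, e1, e2]
    rw [r1, r2] at h1'
    rw [r4] at h2'
    nlinarith
  exact_mod_cast this

/-- the STABLE range on one curve: `deg (A + a Q₁ + b Q₂) > 2 g - 2`.  (With `a b : ℕ`; note that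
`RRStable g A Q₁ Q₂ (min a a') (min b b')` is the hypothesis of `rrFam_sup_eq`, the minimum being
taken in `ℕ`.) -/
def RRStable (g : ℕ) (A Q₁ Q₂ : Divisor k F) (a b : ℕ) : Prop :=
  2 * (g : ℤ) - 2 < Divisor.degree (A + lin2 Q₁ Q₂ a b)

theorem RRStable.mono (hQ₁ : 0 ≤ Q₁) (hQ₂ : 0 ≤ Q₂) {a b a' b' : ℕ} (ha : a ≤ a') (hb : b ≤ b')
    (h : RRStable g A Q₁ Q₂ a b) : RRStable g A Q₁ Q₂ a' b' :=
  lt_of_lt_of_le h (degree_add_lin2_mono A hQ₁ hQ₂ ha hb)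

/-- if both `Q₁` and `Q₂` have positive degree, all indices with one large coordinate are stable -/
theorem exists_rrStable (g : ℕ) (A : Divisor k F)
    (h₁ : 0 < Divisor.degree Q₁) (h₂ : 0 < Divisor.degree Q₂) :
    ∃ m₀ : ℕ, ∀ a b : ℕ, m₀ ≤ a ∨ m₀ ≤ b → RRStable g A Q₁ Q₂ a b := by
  refine ⟨(2 * (g : ℤ) - 1 - Divisor.degree A).toNat, fun a b hab => ?_⟩
  rw [RRStable, degree_add_lin2]
  have ha0 : (0 : ℤ) ≤ a := Int.natCast_nonneg a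
  have hb0 : (0 : ℤ) ≤ b := Int.natCast_nonneg b
  have hm := Int.self_le_toNat (2 * (g : ℤ) - 1 - Divisor.degree A)
  rcases hab with h | h
  · have h' : ((2 * (g : ℤ) - 1 - Divisor.degree A).toNat : ℤ) ≤ a := Int.ofNat_le.2 h
    nlinarith
  · have h' : ((2 * (g : ℤ) - 1 - Divisor.degree A).toNat : ℤ) ≤ b := Int.ofNat_le.2 h
    nlinarith

end OneCurve

/-! ### a pair of curves glued at `s` points: the family of twisted nodal spaces -/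

section Nodal

variable {k F₁ F₃ : Type*} [Field k] [Field F₁] [Field F₃] [Algebra k F₁] [Algebra k F₃]
variable {s : ℕ} (x₁ : Fin s → Place k F₁) (x₃ : Fin s → Place k F₃)

/-- the family of twisted nodal spaces
`nodalSpace x₁ x₃ ν (A₁ + a Q₁₁ + b Q₂₁) (A₃ + a Q₁₃ + b Q₂₃)` -/
def nodFam (ν : Fin s → k) (A₁ : Divisor k F₁) (A₃ : Divisor k F₃) (Q₁₁ Q₂₁ : Divisor k F₁)
    (Q₁₃ Q₂₃ : Divisor k F₃) (a b : ℕ) : Submodule k (F₁ × F₃) :=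
  nodalSpace x₁ x₃ ν (A₁ + lin2 Q₁₁ Q₂₁ a b) (A₃ + lin2 Q₁₃ Q₂₃ a b)

variable {x₁ x₃}
variable {ν : Fin s → k} {A₁ : Divisor k F₁} {A₃ : Divisor k F₃} {Q₁₁ Q₂₁ : Divisor k F₁}
variable {Q₁₃ Q₂₃ : Divisor k F₃}

theorem mem_nodFam {a b : ℕ} {φ : F₁ × F₃} :
    φ ∈ nodFam x₁ x₃ ν A₁ A₃ Q₁₁ Q₂₁ Q₁₃ Q₂₃ a b ↔
      φ.1 ∈ rrFam A₁ Q₁₁ Q₂₁ a b ∧ φ.2 ∈ rrFam A₃ Q₁₃ Q₂₃ a b ∧
        ∀ c, GluedAt x₁ x₃ c (ν c) φ := Iff.rfl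

theorem nodFam_mono (hQ₁₁ : 0 ≤ Q₁₁) (hQ₂₁ : 0 ≤ Q₂₁) (hQ₁₃ : 0 ≤ Q₁₃) (hQ₂₃ : 0 ≤ Q₂₃)
    {a b a' b' : ℕ} (ha : a ≤ a') (hb : b ≤ b') :
    nodFam x₁ x₃ ν A₁ A₃ Q₁₁ Q₂₁ Q₁₃ Q₂₃ a b ≤ nodFam x₁ x₃ ν A₁ A₃ Q₁₁ Q₂₁ Q₁₃ Q₂₃ a' b' :=
  nodalSpace_mono (fun v => add_lin2_mono A₁ hQ₁₁ hQ₂₁ ha hb v)
    (fun v => add_lin2_mono A₃ hQ₁₃ hQ₂₃ ha hb v)

theorem nodFam_inf_le (hd₁ : Disjoint Q₁₁.support Q₂₁.support)
    (hd₃ : Disjoint Q₁₃.support Q₂₃.support) (a b a' b' : ℕ) :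
    nodFam x₁ x₃ ν A₁ A₃ Q₁₁ Q₂₁ Q₁₃ Q₂₃ a b ⊓ nodFam x₁ x₃ ν A₁ A₃ Q₁₁ Q₂₁ Q₁₃ Q₂₃ a' b' ≤
      nodFam x₁ x₃ ν A₁ A₃ Q₁₁ Q₂₁ Q₁₃ Q₂₃ (min a a') (min b b') :=
  fun _ hφ => mem_nodalSpace_of_mem_of_mem hφ.1 hφ.2
    (fun v => add_lin2_min A₁ hd₁ a b a' b' v) (fun v => add_lin2_min A₃ hd₃ a b a' b' v)

variable {g₁ g₃ : ℕ}

theorem finiteDimensional_nodFam (hF₁ : IsCurveOfGenus k F₁ g₁) (hF₃ : IsCurveOfGenus k F₃ g₃)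
    (ν : Fin s → k) (A₁ : Divisor k F₁) (A₃ : Divisor k F₃) (Q₁₁ Q₂₁ : Divisor k F₁)
    (Q₁₃ Q₂₃ : Divisor k F₃) (a b : ℕ) :
    FiniteDimensional k (nodFam x₁ x₃ ν A₁ A₃ Q₁₁ Q₂₁ Q₁₃ Q₂₃ a b) :=
  finiteDimensional_nodalSpace hF₁ hF₃ ν _ _

/-- the STABLE range of the nodal family: both degrees exceed `2 gᵢ - 2 + s` -/
def NodStable (g₁ g₃ s : ℕ) (A₁ : Divisor k F₁) (A₃ : Divisor k F₃) (Q₁₁ Q₂₁ : Divisor k F₁)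
    (Q₁₃ Q₂₃ : Divisor k F₃) (a b : ℕ) : Prop :=
  2 * (g₁ : ℤ) - 2 + s < Divisor.degree (A₁ + lin2 Q₁₁ Q₂₁ a b) ∧
    2 * (g₃ : ℤ) - 2 + s < Divisor.degree (A₃ + lin2 Q₁₃ Q₂₃ a b)

theorem NodStable.mono (hQ₁₁ : 0 ≤ Q₁₁) (hQ₂₁ : 0 ≤ Q₂₁) (hQ₁₃ : 0 ≤ Q₁₃) (hQ₂₃ : 0 ≤ Q₂₃)
    {a b a' b' : ℕ} (ha : a ≤ a') (hb : b ≤ b')
    (h : NodStable g₁ g₃ s A₁ A₃ Q₁₁ Q₂₁ Q₁₃ Q₂₃ a b) :
    NodStable g₁ g₃ s A₁ A₃ Q₁₁ Q₂₁ Q₁₃ Q₂₃ a' b' :=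
  ⟨lt_of_lt_of_le h.1 (degree_add_lin2_mono A₁ hQ₁₁ hQ₂₁ ha hb),
    lt_of_lt_of_le h.2 (degree_add_lin2_mono A₃ hQ₁₃ hQ₂₃ ha hb)⟩

/-- **dimension of the nodal family in the stable range** -/
theorem finrank_nodFam (hF₁ : IsCurveOfGenus k F₁ g₁) (hF₃ : IsCurveOfGenus k F₃ g₃)
    (hx₃ : Function.Injective x₃) (ν : Fin s → k)
    (hA₁ : ∀ c, A₁ (x₁ c) = 0) (hA₃ : ∀ c, A₃ (x₃ c) = 0)
    (hx₁Q : ∀ c, x₁ c ∉ Q₁₁.support ∧ x₁ c ∉ Q₂₁.support)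
    (hx₃Q : ∀ c, x₃ c ∉ Q₁₃.support ∧ x₃ c ∉ Q₂₃.support) {a b : ℕ}
    (hst : NodStable g₁ g₃ s A₁ A₃ Q₁₁ Q₂₁ Q₁₃ Q₂₃ a b) :
    (finrank k (nodFam x₁ x₃ ν A₁ A₃ Q₁₁ Q₂₁ Q₁₃ Q₂₃ a b) : ℤ) =
      (Divisor.degree A₁ + a * Divisor.degree Q₁₁ + b * Divisor.degree Q₂₁) +
        (Divisor.degree A₃ + a * Divisor.degree Q₁₃ + b * Divisor.degree Q₂₃) + 2 - g₁ - g₃ - s := by
  have h1 : (2 : ℤ) * g₁ - 2 < Divisor.degree (A₁ + lin2 Q₁₁ Q₂₁ a b) := by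
    have := hst.1
    have hs : (0 : ℤ) ≤ s := Int.natCast_nonneg s
    linarith
  rw [nodFam, finrank_nodalSpace hF₁ hF₃ hx₃ ν _ _
    (fun c => add_lin2_apply_eq_zero (hA₁ c) (hx₁Q c).1 (hx₁Q c).2 a b)
    (fun c => add_lin2_apply_eq_zero (hA₃ c) (hx₃Q c).1 (hx₃Q c).2 a b) h1 hst.2,
    degree_add_lin2, degree_add_lin2]

/-- the nodal family vanishes when BOTH degrees are negative -/
theorem nodFam_eq_bot (hF₁ : IsCurveOfGenus k F₁ g₁) (hF₃ : IsCurveOfGenus k F₃ g₃) {a b : ℕ}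
    (h₁ : Divisor.degree (A₁ + lin2 Q₁₁ Q₂₁ a b) < 0)
    (h₃ : Divisor.degree (A₃ + lin2 Q₁₃ Q₂₃ a b) < 0) :
    nodFam x₁ x₃ ν A₁ A₃ Q₁₁ Q₂₁ Q₁₃ Q₂₃ a b = ⊥ :=
  (Submodule.eq_bot_iff _).2 fun _ hφ =>
    Prod.ext (eq_zero_of_mem_rr_of_degree_neg hF₁ h₁ hφ.1)
      (eq_zero_of_mem_rr_of_degree_neg hF₃ h₃ hφ.2.1)

/-- sums of members of the nodal family in the stable range -/
theorem nodFam_sup_eq (hF₁ : IsCurveOfGenus k F₁ g₁) (hF₃ : IsCurveOfGenus k F₃ g₃)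
    (hx₃ : Function.Injective x₃) (ν : Fin s → k)
    (hA₁ : ∀ c, A₁ (x₁ c) = 0) (hA₃ : ∀ c, A₃ (x₃ c) = 0)
    (hx₁Q : ∀ c, x₁ c ∉ Q₁₁.support ∧ x₁ c ∉ Q₂₁.support)
    (hx₃Q : ∀ c, x₃ c ∉ Q₁₃.support ∧ x₃ c ∉ Q₂₃.support)
    (hQ₁₁ : 0 ≤ Q₁₁) (hQ₂₁ : 0 ≤ Q₂₁) (hQ₁₃ : 0 ≤ Q₁₃) (hQ₂₃ : 0 ≤ Q₂₃)
    (hd₁ : Disjoint Q₁₁.support Q₂₁.support) (hd₃ : Disjoint Q₁₃.support Q₂₃.support)
    {a b a' b' : ℕ}
    (hst : NodStable g₁ g₃ s A₁ A₃ Q₁₁ Q₂₁ Q₁₃ Q₂₃ (min a a') (min b b')) :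
    nodFam x₁ x₃ ν A₁ A₃ Q₁₁ Q₂₁ Q₁₃ Q₂₃ a b ⊔ nodFam x₁ x₃ ν A₁ A₃ Q₁₁ Q₂₁ Q₁₃ Q₂₃ a' b' =
      nodFam x₁ x₃ ν A₁ A₃ Q₁₁ Q₂₁ Q₁₃ Q₂₃ (max a a') (max b b') := by
  set N : ℕ → ℕ → Submodule k (F₁ × F₃) := nodFam x₁ x₃ ν A₁ A₃ Q₁₁ Q₂₁ Q₁₃ Q₂₃ with hN
  have f1 := finiteDimensional_nodFam (x₁ := x₁) (x₃ := x₃) hF₁ hF₃ ν A₁ A₃ Q₁₁ Q₂₁ Q₁₃ Q₂₃ a b
  have f2 := finiteDimensional_nodFam (x₁ := x₁) (x₃ := x₃) hF₁ hF₃ ν A₁ A₃ Q₁₁ Q₂₁ Q₁₃ Q₂₃ a' b'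
  have f3 := finiteDimensional_nodFam (x₁ := x₁) (x₃ := x₃) hF₁ hF₃ ν A₁ A₃ Q₁₁ Q₂₁ Q₁₃ Q₂₃
    (max a a') (max b b')
  have f4 := finiteDimensional_nodFam (x₁ := x₁) (x₃ := x₃) hF₁ hF₃ ν A₁ A₃ Q₁₁ Q₂₁ Q₁₃ Q₂₃
    (min a a') (min b b')
  have hle : N a b ⊔ N a' b' ≤ N (max a a') (max b b') :=
    sup_le (nodFam_mono hQ₁₁ hQ₂₁ hQ₁₃ hQ₂₃ (le_max_left _ _) (le_max_left _ _))
      (nodFam_mono hQ₁₁ hQ₂₁ hQ₁₃ hQ₂₃ (le_max_right _ _) (le_max_right _ _))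
  refine Submodule.eq_of_le_of_finrank_le hle ?_
  have h1 := Submodule.finrank_sup_add_finrank_inf_eq (N a b) (N a' b')
  have h2 := Submodule.finrank_mono
    (nodFam_inf_le (x₁ := x₁) (x₃ := x₃) (ν := ν) (A₁ := A₁) (A₃ := A₃) hd₁ hd₃ a b a' b')
  have s1 := hst.mono hQ₁₁ hQ₂₁ hQ₁₃ hQ₂₃ (min_le_left a a') (min_le_left b b')
  have s2 := hst.mono hQ₁₁ hQ₂₁ hQ₁₃ hQ₂₃ (min_le_right a a') (min_le_right b b')
  have s3 := s1.mono hQ₁₁ hQ₂₁ hQ₁₃ hQ₂₃ (le_max_left a a') (le_max_left b b')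
  have r1 := finrank_nodFam hF₁ hF₃ hx₃ ν hA₁ hA₃ hx₁Q hx₃Q s1
  have r2 := finrank_nodFam hF₁ hF₃ hx₃ ν hA₁ hA₃ hx₁Q hx₃Q s2
  have r3 := finrank_nodFam hF₁ hF₃ hx₃ ν hA₁ hA₃ hx₁Q hx₃Q s3
  have r4 := finrank_nodFam hF₁ hF₃ hx₃ ν hA₁ hA₃ hx₁Q hx₃Q hst
  have ea : ((min a a' : ℕ) : ℤ) + ((max a a' : ℕ) : ℤ) = a + a' := by
    exact_mod_cast min_add_max a a'
  have eb : ((min b b' : ℕ) : ℤ) + ((max b b' : ℕ) : ℤ) = b + b' := by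
    exact_mod_cast min_add_max b b'
  have h1' : (finrank k ↥(N a b ⊔ N a' b') : ℤ) + finrank k ↥(N a b ⊓ N a' b') =
      finrank k (N a b) + finrank k (N a' b') := by exact_mod_cast h1
  have h2' : (finrank k ↥(N a b ⊓ N a' b') : ℤ) ≤ finrank k (N (min a a') (min b b')) := by
    exact_mod_cast h2
  have : (finrank k (N (max a a') (max b b')) : ℤ) ≤ finrank k ↥(N a b ⊔ N a' b') := by
    have e1 : ((max a a' : ℕ) : ℤ) = a + a' - (min a a' : ℕ) := by linarith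
    have e2 : ((max b b' : ℕ) : ℤ) = b + b' - (min b b' : ℕ) := by linarith
    rw [r3, e1, e2]
    rw [r1, r2] at h1'
    rw [r4] at h2'
    nlinarith
  exact_mod_cast this

/-- if the four chart divisors have positive degree, all indices with one large coordinate are
stable for the nodal family -/
theorem exists_nodStable (g₁ g₃ s : ℕ) (A₁ : Divisor k F₁) (A₃ : Divisor k F₃)
    (h₁₁ : 0 < Divisor.degree Q₁₁) (h₂₁ : 0 < Divisor.degree Q₂₁)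
    (h₁₃ : 0 < Divisor.degree Q₁₃) (h₂₃ : 0 < Divisor.degree Q₂₃) :
    ∃ m₀ : ℕ, ∀ a b : ℕ, m₀ ≤ a ∨ m₀ ≤ b → NodStable g₁ g₃ s A₁ A₃ Q₁₁ Q₂₁ Q₁₃ Q₂₃ a b := by
  obtain ⟨m₁, hm₁⟩ := exists_rrStable (g₁ + s) A₁ h₁₁ h₂₁
  obtain ⟨m₃, hm₃⟩ := exists_rrStable (g₃ + s) A₃ h₁₃ h₂₃
  refine ⟨max m₁ m₃, fun a b hab => ⟨?_, ?_⟩⟩
  · have := hm₁ a b (hab.imp (le_trans (le_max_left _ _)) (le_trans (le_max_left _ _)))
    rw [RRStable] at this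
    have hs : (0 : ℤ) ≤ s := Int.natCast_nonneg s
    push_cast at this
    linarith
  · have := hm₃ a b (hab.imp (le_trans (le_max_right _ _)) (le_trans (le_max_right _ _)))
    rw [RRStable] at this
    have hs : (0 : ℤ) ≤ s := Int.natCast_nonneg s
    push_cast at this
    linarith

end Nodal

end Fermat.Agent.S36lib.Thick
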