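/-
S36lib / Thick / Tgt  (helper6, WG-C)

The SYMBOL TARGETS of a thick datum, as `k`-subspaces of `𝔽 = F₁ × F₂ × F₃` (one for every level
`i` of the chain of `Thick/Chain.lean` and every chart `(a, b)`), for an arbitrary twist `ν` of the
outer pair:

* level `0`     : `(0, L(D̄₂), 0)`;
* level `1`     : `{(ψ₁, 0, ψ₃) | (ψ₁, ψ₃) ∈ nodalSpace x₁ x₃ ν (B₁ + D̄₁) (B₃ + D̄₃)}`;
* level `j + 1` : `(0, L(W_j + D̄₂), 0)`  (`1 ≤ j ≤ e - 1`).

`symImage_𝓛_le` : the symbol images of the base family `𝓛 a b` lie in the targets with `ν = 1`.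
-/
import Fermat.Agent.S36lib.Thick.Incl
import Fermat.Agent.S36lib.Thick.RRFam

set_option autoImplicit false

noncomputable section

namespace Fermat.Agent.S36lib.Thick

open AlgebraicCurve Module
open Fermat.Agent.LSb.Core (lin2 nodalSpace)

section Emb

variable (k F₁ F₂ F₃ : Type*) [Field k] [Field F₁] [Field F₂] [Field F₃]
variable [Algebra k F₁] [Algebra k F₂] [Algebra k F₃]

/-- the embedding `y ↦ (0, y, 0)` of the middle component -/
def midEmb : F₂ →ₗ[k] F₁ × F₂ × F₃ where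
  toFun y := (0, y, 0)
  map_add' x y := by simp
  map_smul' c x := by simp

/-- the embedding `(ψ₁, ψ₃) ↦ (ψ₁, 0, ψ₃)` of the outer pair -/
def outEmb : F₁ × F₃ →ₗ[k] F₁ × F₂ × F₃ where
  toFun p := (p.1, 0, p.2)
  map_add' x y := by simp
  map_smul' c x := by simp

@[simp] theorem midEmb_apply (y : F₂) : midEmb k F₁ F₂ F₃ y = (0, y, 0) := rfl

@[simp] theorem outEmb_apply (p : F₁ × F₃) : outEmb k F₁ F₂ F₃ p = (p.1, 0, p.2) := rfl

theorem midEmb_injective : Function.Injective (midEmb k F₁ F₂ F₃) := by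
  intro x y h
  have := congrArg (fun t : F₁ × F₂ × F₃ => t.2.1) h
  simpa using this

theorem outEmb_injective : Function.Injective (outEmb k F₁ F₂ F₃) := by
  intro x y h
  have h1 := congrArg (fun t : F₁ × F₂ × F₃ => t.1) h
  have h2 := congrArg (fun t : F₁ × F₂ × F₃ => t.2.2) h
  exact Prod.ext (by simpa using h1) (by simpa using h2)

end Emb

variable {K : Type*} [Field K] {R : ValuationSubring K}
variable {F : Type*} [Field F] [Algebra K F]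
variable {F₁ F₂ F₃ : Type*} [Field F₁] [Field F₂] [Field F₃]
variable [Algebra (IsLocalRing.ResidueField R) F₁] [Algebra (IsLocalRing.ResidueField R) F₂]
variable [Algebra (IsLocalRing.ResidueField R) F₃]

local notation "k" => IsLocalRing.ResidueField R

/-- the middle targets `L(A + D̄₂(a,b))` -/
def ThickDatum.Tmid (D : ThickDatum R F F₁ F₂ F₃) (A : Divisor k F₂) (a b : ℕ) :
    Submodule k (F₁ × F₂ × F₃) :=
  (rrFam A D.Q₁₂ D.Q₂₂ a b).map (midEmb k F₁ F₂ F₃)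

namespace ThickCtx

variable {D : ThickDatum R F F₁ F₂ F₃} {g g₁ g₂ g₃ : ℕ} (C : ThickCtx D g g₁ g₂ g₃)

include C

/-- the outer target: the `ν`-twisted nodal space of `(B₁ + D̄₁, B₃ + D̄₃)` -/
def Tout (ν : Fin D.s → k) (a b : ℕ) : Submodule k (F₁ × F₂ × F₃) :=
  (nodFam D.x₁ D.x₃ ν C.B₁ C.B₃ D.Q₁₁ D.Q₂₁ D.Q₁₃ D.Q₂₃ a b).map (outEmb k F₁ F₂ F₃)

/-- **the symbol targets** -/
def T (ν : Fin D.s → k) (i a b : ℕ) : Submodule k (F₁ × F₂ × F₃) :=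
  if i = 0 then D.Tmid 0 a b else if i = 1 then C.Tout ν a b else D.Tmid (C.Wd (i - 1)) a b

theorem T_zero (ν : Fin D.s → k) (a b : ℕ) : C.T ν 0 a b = D.Tmid 0 a b := by
  rw [T, if_pos rfl]

theorem T_one (ν : Fin D.s → k) (a b : ℕ) : C.T ν 1 a b = C.Tout ν a b := by
  rw [T, if_neg one_ne_zero, if_pos rfl]

theorem T_add_two (ν : Fin D.s → k) (j a b : ℕ) :
    C.T ν (j + 2) a b = D.Tmid (C.Wd (j + 1)) a b := by
  rw [T, if_neg (by omega), if_neg (by omega)]; rfl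

omit C in
theorem mem_Tmid {A : Divisor k F₂} {a b : ℕ} {φ : F₁ × F₂ × F₃} :
    φ ∈ D.Tmid A a b ↔ ∃ y ∈ riemannRochSpace (A + D.chartDiv₂ a b), φ = (0, y, 0) := by
  rw [ThickDatum.Tmid, Submodule.mem_map]
  constructor
  · rintro ⟨y, hy, rfl⟩; exact ⟨y, hy, rfl⟩
  · rintro ⟨y, hy, rfl⟩; exact ⟨y, hy, rfl⟩

theorem mem_Tout {ν : Fin D.s → k} {a b : ℕ} {φ : F₁ × F₂ × F₃} :
    φ ∈ C.Tout ν a b ↔ ∃ ψ ∈ nodalSpace D.x₁ D.x₃ ν (C.B₁ + D.chartDiv₁ a b)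
      (C.B₃ + D.chartDiv₃ a b), φ = (ψ.1, 0, ψ.2) := by
  rw [Tout, Submodule.mem_map]
  constructor
  · rintro ⟨y, hy, rfl⟩; exact ⟨y, hy, rfl⟩
  · rintro ⟨y, hy, rfl⟩; exact ⟨y, hy, rfl⟩

omit C in
theorem mk_mem_Tmid {A : Divisor k F₂} {a b : ℕ} {y : F₂} :
    ((0, y, 0) : F₁ × F₂ × F₃) ∈ D.Tmid A a b ↔ y ∈ riemannRochSpace (A + D.chartDiv₂ a b) := by
  rw [mem_Tmid]
  constructor
  · rintro ⟨y', hy', h⟩
    have : y = y' := by simpa using congrArg (fun t : F₁ × F₂ × F₃ => t.2.1) h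
    rwa [this]
  · intro h; exact ⟨y, h, rfl⟩

theorem mk_mem_Tout {ν : Fin D.s → k} {a b : ℕ} {ψ₁ : F₁} {ψ₃ : F₃} :
    ((ψ₁, 0, ψ₃) : F₁ × F₂ × F₃) ∈ C.Tout ν a b ↔
      (ψ₁, ψ₃) ∈ nodalSpace D.x₁ D.x₃ ν (C.B₁ + D.chartDiv₁ a b) (C.B₃ + D.chartDiv₃ a b) := by
  rw [C.mem_Tout]
  constructor
  · rintro ⟨ψ, hψ, h⟩
    have h1 : ψ₁ = ψ.1 := by simpa using congrArg (fun t : F₁ × F₂ × F₃ => t.1) h
    have h2 : ψ₃ = ψ.2 := by simpa using congrArg (fun t : F₁ × F₂ × F₃ => t.2.2) h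
    rw [h1, h2]; exact hψ
  · intro h; exact ⟨(ψ₁, ψ₃), h, rfl⟩

/-- **the symbol images of the base family lie in the untwisted targets** -/
theorem symImage_𝓛_le {i : ℕ} (hi : i < D.e + 1) (a b : ℕ) :
    C.filtSys.symImage i (D.𝓛 a b) ≤ C.T 1 i a b := by
  rintro φ ⟨f, hf, hc, rfl⟩
  rw [filtSys_𝔠] at hc
  rw [filtSys_sy]
  rcases i with _ | _ | j
  · rw [chain_zero, mem_Isub, I_zero_iff] at hc
    rw [C.T_zero, sy_zero, mk_mem_Tmid, zero_add]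
    exact C.chart₂ a b f hf hc
  · rw [chain_one, mem_Isub] at hc
    rw [C.T_one, sy_one, C.mk_mem_Tout]
    have hI : C.I 0 ((1 : ℕ) : ℤ) 0 f := by simpa using hc
    have := C.outer_mem hf hI
    simpa using this
  · rw [show (j + 1 + 1 : ℕ) = j + 2 from rfl] at hc ⊢
    rw [chain_add_two, mem_Isub] at hc
    rw [C.T_add_two, sy_add_two, mk_mem_Tmid]
    have hI : C.I 1 ((j + 1 : ℕ) : ℤ) 1 f := by
      have e : ((j + 1 : ℕ) : ℤ) = (j : ℤ) + 1 := by push_cast; rfl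
      rw [e]; exact hc
    have := C.mid_mem (j := j + 1) (by omega) (by omega) hf hI
    have e : ((j + 1 : ℕ) : ℤ) = (j : ℤ) + 1 := by push_cast; rfl
    rwa [e] at this

end ThickCtx

end Fermat.Agent.S36lib.Thick
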