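/-
S36lib / Thick / TgtDim  (helper8, WG-C brick C2 "targets", part 2)

Riemann–Roch bookkeeping for the symbol targets `C.T ν i a b` of `Thick/Tgt.lean`:

* `finiteDimensional_T`;
* `Stable a b` (all the targets are in the range of Riemann's THEOREM), `Stable.mono`,
  `exists_stable`;
* `deg_B₁_le`, `deg_B₃_le`, `deg_Mx_le`, `deg_Om_eq`, `two_mul_sum_deg_Wd_le`, `deg_Wd_neg`;
* **`sum_finrank_T_le`** : in the stable range `Σ_{i ≤ e} dim T ν i a b ≤ a d₁ + b d₂ + 1 - g`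
  (this is where (COUNT) enters);
* `T_mono`, `T_inf_le`, `T_sup_eq`;
* `T_zero_zero_zero`, `T_pos_zero_zero`.
-/
import Fermat.Agent.S36lib.Thick.Tgt

set_option autoImplicit false

noncomputable section

namespace Fermat.Agent.S36lib.Thick

open AlgebraicCurve Module
open Fermat.Agent.S18lib
open Fermat.Agent.LSb.Core (lin2 nodalSpace degree_lin2 lin2_zero_zero)

variable {K : Type*} [Field K] {R : ValuationSubring K}
variable {F : Type*} [Field F] [Algebra K F]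
variable {F₁ F₂ F₃ : Type*} [Field F₁] [Field F₂] [Field F₃]
variable [Algebra (IsLocalRing.ResidueField R) F₁] [Algebra (IsLocalRing.ResidueField R) F₂]
variable [Algebra (IsLocalRing.ResidueField R) F₃]

local notation "k" => IsLocalRing.ResidueField R

namespace ThickCtx

variable {D : ThickDatum R F F₁ F₂ F₃} {g g₁ g₂ g₃ : ℕ} (C : ThickCtx D g g₁ g₂ g₃)

include C

/-! ### finite dimensionality -/

theorem finiteDimensional_Tmid (A : Divisor k F₂) (a b : ℕ) :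
    FiniteDimensional k (D.Tmid A a b) := by
  have := finiteDimensional_rrFam C.hF₂ A D.Q₁₂ D.Q₂₂ a b
  rw [ThickDatum.Tmid]
  infer_instance

theorem finiteDimensional_Tout (ν : Fin D.s → k) (a b : ℕ) :
    FiniteDimensional k (C.Tout ν a b) := by
  have := finiteDimensional_nodFam (x₁ := D.x₁) (x₃ := D.x₃) C.hF₁ C.hF₃ ν C.B₁ C.B₃
    D.Q₁₁ D.Q₂₁ D.Q₁₃ D.Q₂₃ a b
  rw [Tout]
  infer_instance

theorem finiteDimensional_T (ν : Fin D.s → k) (i a b : ℕ) :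
    FiniteDimensional k (C.T ν i a b) := by
  rcases i with _ | _ | j
  · rw [C.T_zero]; exact C.finiteDimensional_Tmid 0 a b
  · rw [C.T_one]; exact C.finiteDimensional_Tout ν a b
  · rw [show (j + 1 + 1 : ℕ) = j + 2 from rfl, C.T_add_two]
    exact C.finiteDimensional_Tmid _ a b

/-! ### dimensions through the embeddings -/

omit C in
theorem finrank_Tmid (A : Divisor k F₂) (a b : ℕ) :
    finrank k (D.Tmid A a b) = finrank k (rrFam A D.Q₁₂ D.Q₂₂ a b) :=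
  (Submodule.equivMapOfInjective (midEmb k F₁ F₂ F₃) (midEmb_injective k F₁ F₂ F₃)
    (rrFam A D.Q₁₂ D.Q₂₂ a b)).finrank_eq.symm

theorem finrank_Tout (ν : Fin D.s → k) (a b : ℕ) :
    finrank k (C.Tout ν a b) =
      finrank k (nodFam D.x₁ D.x₃ ν C.B₁ C.B₃ D.Q₁₁ D.Q₂₁ D.Q₁₃ D.Q₂₃ a b) :=
  (Submodule.equivMapOfInjective (outEmb k F₁ F₂ F₃) (outEmb_injective k F₁ F₂ F₃)
    (nodFam D.x₁ D.x₃ ν C.B₁ C.B₃ D.Q₁₁ D.Q₂₁ D.Q₁₃ D.Q₂₃ a b)).finrank_eq.symm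

/-! ### the stable range -/

/-- all the targets are in the range of Riemann's theorem -/
def Stable (a b : ℕ) : Prop :=
  RRStable g₂ 0 D.Q₁₂ D.Q₂₂ a b ∧
    NodStable g₁ g₃ D.s C.B₁ C.B₃ D.Q₁₁ D.Q₂₁ D.Q₁₃ D.Q₂₃ a b ∧
      ∀ j, 0 < j → j < D.e → RRStable g₂ (C.Wd j) D.Q₁₂ D.Q₂₂ a b

variable {C} in
theorem Stable.mono {a b a' b' : ℕ} (ha : a ≤ a') (hb : b ≤ b') (h : C.Stable a b) :
    C.Stable a' b' :=
  ⟨h.1.mono C.Q₁₂_nonneg C.Q₂₂_nonneg ha hb,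
    h.2.1.mono C.Q₁₁_nonneg C.Q₂₁_nonneg C.Q₁₃_nonneg C.Q₂₃_nonneg ha hb,
    fun j hj hje => (h.2.2 j hj hje).mono C.Q₁₂_nonneg C.Q₂₂_nonneg ha hb⟩

theorem exists_stable : ∃ m₀ : ℕ, ∀ a b : ℕ, m₀ ≤ a ∨ m₀ ≤ b → C.Stable a b := by
  obtain ⟨m₁, hm₁⟩ := exists_rrStable g₂ (0 : Divisor k F₂) C.deg_Q₁₂_pos C.deg_Q₂₂_pos
  obtain ⟨m₂, hm₂⟩ := exists_nodStable g₁ g₃ D.s C.B₁ C.B₃ C.deg_Q₁₁_pos C.deg_Q₂₁_pos
    C.deg_Q₁₃_pos C.deg_Q₂₃_pos
  choose m hm using fun j : ℕ => exists_rrStable g₂ (C.Wd j) C.deg_Q₁₂_pos C.deg_Q₂₂_pos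
  refine ⟨max (max m₁ m₂) ((Finset.range D.e).sup m), fun a b hab => ⟨?_, ?_, fun j _ hje => ?_⟩⟩
  · exact hm₁ a b (hab.imp (le_trans ((le_max_left _ _).trans (le_max_left _ _)))
      (le_trans ((le_max_left _ _).trans (le_max_left _ _))))
  · exact hm₂ a b (hab.imp (le_trans ((le_max_right _ _).trans (le_max_left _ _)))
      (le_trans ((le_max_right _ _).trans (le_max_left _ _))))
  · have hj : m j ≤ (Finset.range D.e).sup m := Finset.le_sup (Finset.mem_range.2 hje)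
    exact hm j a b (hab.imp (le_trans (hj.trans (le_max_right _ _)))
      (le_trans (hj.trans (le_max_right _ _))))

/-! ### the degrees of the auxiliary divisors -/

theorem deg_B₁_le : Divisor.degree C.B₁ ≤ -(D.s : ℤ) := by
  rw [B₁, degree_offPts C.hF₁.deg_eq_one C.x₁_injective, degree_divOf, zero_sub, neg_le_neg_iff]
  calc (D.s : ℤ) = ∑ _c : Fin D.s, (1 : ℤ) := by simp
    _ ≤ ∑ c, divOf C.hF₁.hasPrincipalDivisors D.ϖb₁ (D.x₁ c) :=
        Finset.sum_le_sum fun c _ => by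
          rw [divOf_apply _ C.ϖb₁_ne_zero]; exact C.one_le_ord_ϖb₁ c

theorem deg_B₃_le : Divisor.degree C.B₃ ≤ -(D.s : ℤ) := by
  rw [B₃, degree_offPts C.hF₃.deg_eq_one C.x₃_injective, degree_divOf, zero_sub, neg_le_neg_iff]
  calc (D.s : ℤ) = ∑ _c : Fin D.s, (1 : ℤ) := by simp
    _ ≤ ∑ c, divOf C.hF₃.hasPrincipalDivisors D.ϖb₃ (D.x₃ c) :=
        Finset.sum_le_sum fun c _ => by
          rw [divOf_apply _ C.ϖb₃_ne_zero]; exact C.one_le_ord_ϖb₃ c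

theorem deg_Mx_le : Divisor.degree C.Mx ≤ -2 * (D.s : ℤ) := by
  rw [Mx, degree_onPts C.hF₂.deg_eq_one C.x₂_injective]
  calc ∑ c, divOf C.hF₂.hasPrincipalDivisors C.κ (D.x₂ c)
      ≤ ∑ _c : Fin D.s, (-2 : ℤ) := Finset.sum_le_sum fun c _ => by
        rw [divOf_apply _ C.κ_ne_zero]; exact C.ord_κ_le c
    _ = -2 * (D.s : ℤ) := by simp [mul_comm]

theorem deg_Om_eq : Divisor.degree C.Om = -Divisor.degree C.Mx := by
  have h := congrArg Divisor.degree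
    (offPts_add_onPts D.x₂ (divOf C.hF₂.hasPrincipalDivisors C.κ))
  rw [map_add, degree_divOf] at h
  rw [Om, Mx]
  linarith

theorem deg_Mx_neg : Divisor.degree C.Mx < 0 := by
  have h := C.deg_Mx_le
  have hs : (0 : ℤ) < D.s := by exact_mod_cast C.s_pos
  linarith

theorem deg_Wd_eq (j : ℕ) :
    Divisor.degree (C.Wd j) = Divisor.degree (floorDiv j D.e C.Om) + Divisor.degree C.Mx := by
  rw [Wd, map_add]

/-- `2 Σ_{0 < j < e} deg W_j ≤ -2 s (e - 1)` -/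
theorem two_mul_sum_deg_Wd_le :
    2 * ∑ i ∈ Finset.range (D.e - 1), Divisor.degree (C.Wd (i + 1)) ≤
      -2 * (D.s : ℤ) * ((D.e : ℤ) - 1) := by
  have h1 := two_mul_sum_degree_floorDiv_le C.hF₂.deg_eq_one C.e_pos C.Om
  have h2 := C.deg_Mx_le
  have he : (0 : ℤ) ≤ (D.e : ℤ) - 1 := by
    have : (1 : ℤ) ≤ D.e := by exact_mod_cast C.e_pos
    linarith
  have hsum : ∑ i ∈ Finset.range (D.e - 1), Divisor.degree (C.Wd (i + 1)) =
      ∑ i ∈ Finset.range (D.e - 1), Divisor.degree (floorDiv (i + 1) D.e C.Om) +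
        ((D.e : ℤ) - 1) * Divisor.degree C.Mx := by
    rw [Finset.sum_congr rfl fun i _ => C.deg_Wd_eq (i + 1), Finset.sum_add_distrib,
      Finset.sum_const, Finset.card_range, nsmul_eq_mul]
    congr 2
    have : 1 ≤ D.e := C.e_pos
    push_cast [this]; ring
  rw [hsum, C.deg_Om_eq] at *
  nlinarith

/-- `deg W_j < 0` for `0 < j < e` -/
theorem deg_Wd_neg {j : ℕ} (hje : j < D.e) : Divisor.degree (C.Wd j) < 0 := by
  have h1 := mul_degree_floorDiv_le C.hF₂.deg_eq_one C.e_pos j C.Om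
  rw [C.deg_Om_eq] at h1
  have h2 := C.deg_Mx_neg
  have he : (0 : ℤ) < D.e := by exact_mod_cast C.e_pos
  have hj : (j : ℤ) < D.e := by exact_mod_cast hje
  have h3 : (D.e : ℤ) * Divisor.degree (C.Wd j) < 0 := by
    rw [C.deg_Wd_eq, mul_add]
    nlinarith
  by_contra hcon
  push Not at hcon
  nlinarith

/-! ### the dimension sum -/

theorem finrank_T_zero {a b : ℕ} (ν : Fin D.s → k) (h : C.Stable a b) :
    (finrank k (C.T ν 0 a b) : ℤ) =
      a * Divisor.degree D.Q₁₂ + b * Divisor.degree D.Q₂₂ + 1 - g₂ := by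
  rw [C.T_zero, finrank_Tmid, finrank_rrFam C.hF₂ h.1, map_zero, zero_add]

theorem finrank_T_one {a b : ℕ} (ν : Fin D.s → k) (h : C.Stable a b) :
    (finrank k (C.T ν 1 a b) : ℤ) =
      (Divisor.degree C.B₁ + a * Divisor.degree D.Q₁₁ + b * Divisor.degree D.Q₂₁) +
        (Divisor.degree C.B₃ + a * Divisor.degree D.Q₁₃ + b * Divisor.degree D.Q₂₃) + 2 - g₁ - g₃
          - D.s := by
  rw [C.T_one, C.finrank_Tout, finrank_nodFam C.hF₁ C.hF₃ C.x₃_injective ν C.B₁_apply_self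
    C.B₃_apply_self C.x₁_not_mem C.x₃_not_mem h.2.1]

theorem finrank_T_add_two {a b : ℕ} (ν : Fin D.s → k) (h : C.Stable a b) {j : ℕ}
    (hj : j + 1 < D.e) :
    (finrank k (C.T ν (j + 2) a b) : ℤ) =
      Divisor.degree (C.Wd (j + 1)) + a * Divisor.degree D.Q₁₂ + b * Divisor.degree D.Q₂₂ + 1
        - g₂ := by
  rw [C.T_add_two, finrank_Tmid, finrank_rrFam C.hF₂ (h.2.2 (j + 1) (Nat.succ_pos j) hj)]

/-- **the dimension sum**: in the stable range the targets have total dimension at most the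
Riemann bound of the generic fibre. -/
theorem sum_finrank_T_le {a b : ℕ} (ν : Fin D.s → k) (h : C.Stable a b) :
    ((∑ i ∈ Finset.range (D.e + 1), finrank k (C.T ν i a b) : ℕ) : ℤ) ≤
      a * D.d₁ + b * D.d₂ + 1 - g := by
  obtain ⟨e', he'⟩ : ∃ e', D.e = e' + 1 := ⟨D.e - 1, (Nat.sub_add_cancel C.e_pos).symm⟩
  have hsplit : (∑ i ∈ Finset.range (D.e + 1), finrank k (C.T ν i a b) : ℕ) =
      (∑ j ∈ Finset.range e', finrank k (C.T ν (j + 2) a b)) + finrank k (C.T ν 1 a b) +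
        finrank k (C.T ν 0 a b) := by
    rw [he', Finset.sum_range_succ', Finset.sum_range_succ']
  rw [hsplit]
  push_cast
  rw [C.finrank_T_zero ν h, C.finrank_T_one ν h]
  have hmid : ∑ j ∈ Finset.range e', (finrank k (C.T ν (j + 2) a b) : ℤ) =
      ∑ j ∈ Finset.range e', Divisor.degree (C.Wd (j + 1)) +
        (e' : ℤ) * (a * Divisor.degree D.Q₁₂ + b * Divisor.degree D.Q₂₂ + 1 - g₂) := by
    rw [Finset.sum_congr rfl fun j hj => C.finrank_T_add_two ν h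
      (by rw [he']; exact Nat.succ_lt_succ (Finset.mem_range.1 hj))]
    have : ∀ j ∈ Finset.range e',
        Divisor.degree (C.Wd (j + 1)) + a * Divisor.degree D.Q₁₂ + b * Divisor.degree D.Q₂₂ + 1
          - (g₂ : ℤ) = Divisor.degree (C.Wd (j + 1)) +
            (a * Divisor.degree D.Q₁₂ + b * Divisor.degree D.Q₂₂ + 1 - g₂) := fun j _ => by ring
    rw [Finset.sum_congr rfl this, Finset.sum_add_distrib, Finset.sum_const, Finset.card_range,
      nsmul_eq_mul]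
  rw [hmid]
  have hW := C.two_mul_sum_deg_Wd_le
  have he1 : D.e - 1 = e' := by omega
  rw [he1] at hW
  have hB₁ := C.deg_B₁_le
  have hB₃ := C.deg_B₃_le
  have hQ₁ := C.deg_Q₁_le
  have hQ₂ := C.deg_Q₂_le
  have hcount : ((g + D.e + 1 : ℕ) : ℤ) ≤ ((g₁ + D.e * g₂ + g₃ + D.s * (D.e + 2) : ℕ) : ℤ) :=
    Int.ofNat_le.2 C.count
  have hee : (D.e : ℤ) = e' + 1 := by exact_mod_cast he'
  rw [hee] at hW hQ₁ hQ₂
  push_cast at hcount
  rw [hee] at hcount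
  have ha0 : (0 : ℤ) ≤ a := Int.natCast_nonneg a
  have hb0 : (0 : ℤ) ≤ b := Int.natCast_nonneg b
  nlinarith [mul_le_mul_of_nonneg_left hQ₁ ha0, mul_le_mul_of_nonneg_left hQ₂ hb0]

/-! ### monotonicity, intersections, sums -/

omit C in
theorem Tmid_mono' (hQ₁ : 0 ≤ D.Q₁₂) (hQ₂ : 0 ≤ D.Q₂₂) (A : Divisor k F₂) {a b a' b' : ℕ}
    (ha : a ≤ a') (hb : b ≤ b') : D.Tmid A a b ≤ D.Tmid A a' b' :=
  Submodule.map_mono (rrFam_mono hQ₁ hQ₂ ha hb)

theorem Tmid_mono (A : Divisor k F₂) {a b a' b' : ℕ} (ha : a ≤ a') (hb : b ≤ b') :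
    D.Tmid A a b ≤ D.Tmid A a' b' :=
  Tmid_mono' C.Q₁₂_nonneg C.Q₂₂_nonneg A ha hb

theorem Tout_mono (ν : Fin D.s → k) {a b a' b' : ℕ} (ha : a ≤ a') (hb : b ≤ b') :
    C.Tout ν a b ≤ C.Tout ν a' b' :=
  Submodule.map_mono
    (nodFam_mono C.Q₁₁_nonneg C.Q₂₁_nonneg C.Q₁₃_nonneg C.Q₂₃_nonneg ha hb)

theorem T_mono (ν : Fin D.s → k) (i : ℕ) {a b a' b' : ℕ} (ha : a ≤ a') (hb : b ≤ b') :
    C.T ν i a b ≤ C.T ν i a' b' := by
  rcases i with _ | _ | j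
  · rw [C.T_zero, C.T_zero]; exact C.Tmid_mono 0 ha hb
  · rw [C.T_one, C.T_one]; exact C.Tout_mono ν ha hb
  · rw [show (j + 1 + 1 : ℕ) = j + 2 from rfl, C.T_add_two, C.T_add_two]
    exact C.Tmid_mono _ ha hb

theorem Tmid_inf_le (A : Divisor k F₂) (a b a' b' : ℕ) :
    D.Tmid A a b ⊓ D.Tmid A a' b' ≤ D.Tmid A (min a a') (min b b') := by
  rw [ThickDatum.Tmid, ThickDatum.Tmid, ← Submodule.map_inf _ (midEmb_injective k F₁ F₂ F₃)]
  exact Submodule.map_mono (rrFam_inf_le C.Q₂_disjoint a b a' b')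

theorem Tout_inf_le (ν : Fin D.s → k) (a b a' b' : ℕ) :
    C.Tout ν a b ⊓ C.Tout ν a' b' ≤ C.Tout ν (min a a') (min b b') := by
  rw [Tout, Tout, ← Submodule.map_inf _ (outEmb_injective k F₁ F₂ F₃)]
  exact Submodule.map_mono (nodFam_inf_le C.Q₁_disjoint C.Q₃_disjoint a b a' b')

theorem T_inf_le (ν : Fin D.s → k) (i a b a' b' : ℕ) :
    C.T ν i a b ⊓ C.T ν i a' b' ≤ C.T ν i (min a a') (min b b') := by
  rcases i with _ | _ | j
  · rw [C.T_zero, C.T_zero, C.T_zero]; exact C.Tmid_inf_le 0 a b a' b'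
  · rw [C.T_one, C.T_one, C.T_one]; exact C.Tout_inf_le ν a b a' b'
  · rw [show (j + 1 + 1 : ℕ) = j + 2 from rfl, C.T_add_two, C.T_add_two, C.T_add_two]
    exact C.Tmid_inf_le _ a b a' b'

theorem Tmid_sup_eq (A : Divisor k F₂) {a b a' b' : ℕ}
    (hst : RRStable g₂ A D.Q₁₂ D.Q₂₂ (min a a') (min b b')) :
    D.Tmid A a b ⊔ D.Tmid A a' b' = D.Tmid A (max a a') (max b b') := by
  rw [ThickDatum.Tmid, ThickDatum.Tmid, ← Submodule.map_sup,
    rrFam_sup_eq C.hF₂ C.Q₁₂_nonneg C.Q₂₂_nonneg C.Q₂_disjoint hst]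
  rfl

theorem Tout_sup_eq (ν : Fin D.s → k) {a b a' b' : ℕ}
    (hst : NodStable g₁ g₃ D.s C.B₁ C.B₃ D.Q₁₁ D.Q₂₁ D.Q₁₃ D.Q₂₃ (min a a') (min b b')) :
    C.Tout ν a b ⊔ C.Tout ν a' b' = C.Tout ν (max a a') (max b b') := by
  rw [Tout, Tout, ← Submodule.map_sup,
    nodFam_sup_eq C.hF₁ C.hF₃ C.x₃_injective ν C.B₁_apply_self C.B₃_apply_self C.x₁_not_mem
      C.x₃_not_mem C.Q₁₁_nonneg C.Q₂₁_nonneg C.Q₁₃_nonneg C.Q₂₃_nonneg C.Q₁_disjoint
      C.Q₃_disjoint hst]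
  rfl

/-- sums of targets in the stable range -/
theorem T_sup_eq (ν : Fin D.s → k) {i : ℕ} (hi : i < D.e + 1) {a b a' b' : ℕ}
    (hst : C.Stable (min a a') (min b b')) :
    C.T ν i a b ⊔ C.T ν i a' b' = C.T ν i (max a a') (max b b') := by
  rcases i with _ | _ | j
  · rw [C.T_zero, C.T_zero, C.T_zero]; exact C.Tmid_sup_eq 0 hst.1
  · rw [C.T_one, C.T_one, C.T_one]; exact C.Tout_sup_eq ν hst.2.1
  · rw [show (j + 1 + 1 : ℕ) = j + 2 from rfl] at hi ⊢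
    rw [C.T_add_two, C.T_add_two, C.T_add_two]
    exact C.Tmid_sup_eq _ (hst.2.2 (j + 1) (Nat.succ_pos j) (by omega))

/-! ### the chart `(0, 0)` -/

/-- at level `0` the chart `(0, 0)` consists of the constants -/
theorem T_zero_zero_zero (ν : Fin D.s → k) {φ : F₁ × F₂ × F₃} (hφ : φ ∈ C.T ν 0 0 0) :
    ∃ α : k, φ = (0, algebraMap k F₂ α, 0) := by
  rw [C.T_zero, ThickDatum.Tmid, Submodule.mem_map] at hφ
  obtain ⟨y, hy, rfl⟩ := hφ
  obtain ⟨α, rfl⟩ := rrFam_zero_zero C.hF₂ D.Q₁₂ D.Q₂₂ hy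
  exact ⟨α, rfl⟩

/-- at the positive levels the chart `(0, 0)` is trivial -/
theorem T_pos_zero_zero (ν : Fin D.s → k) {i : ℕ} (hi0 : 0 < i) (hi : i < D.e + 1) :
    C.T ν i 0 0 = ⊥ := by
  have hs : (0 : ℤ) < D.s := by exact_mod_cast C.s_pos
  rcases i with _ | _ | j
  · exact absurd hi0 (lt_irrefl 0)
  · rw [C.T_one, Tout, nodFam_eq_bot C.hF₁ C.hF₃, Submodule.map_bot]
    · rw [degree_add_lin2]
      have := C.deg_B₁_le
      push_cast
      linarith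
    · rw [degree_add_lin2]
      have := C.deg_B₃_le
      push_cast
      linarith
  · rw [show (j + 1 + 1 : ℕ) = j + 2 from rfl] at hi ⊢
    rw [C.T_add_two, ThickDatum.Tmid, rrFam_eq_bot C.hF₂, Submodule.map_bot]
    rw [degree_add_lin2]
    have := C.deg_Wd_neg (j := j + 1) (by omega)
    push_cast
    linarith

end ThickCtx

end Fermat.Agent.S36lib.Thick
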