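/-
S36lib / Thick / H0  (helper6, WG-C)

The `H⁰`-principle of the base family of a thick datum: two functions `y₁ ∈ 𝓛 j 0 ∩ O`,
`y₂ ∈ 𝓛 0 j ∩ O` which agree modulo one of the ideals `I(1, r, 1)` (`1 ≤ r ≤ e`) or
`I(N, e N, N) = π^N O` are congruent to a common constant `a ∈ R` modulo that ideal.
-/
import Fermat.Agent.S36lib.Thick.TgtDim

set_option autoImplicit false

noncomputable section

namespace Fermat.Agent.S36lib.Thick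

open AlgebraicCurve Module

variable {K : Type*} [Field K] {R : ValuationSubring K}
variable {F : Type*} [Field F] [Algebra K F]
variable {F₁ F₂ F₃ : Type*} [Field F₁] [Field F₂] [Field F₃]
variable [Algebra (IsLocalRing.ResidueField R) F₁] [Algebra (IsLocalRing.ResidueField R) F₂]
variable [Algebra (IsLocalRing.ResidueField R) F₃]

local notation "k" => IsLocalRing.ResidueField R

namespace ThickCtx

variable {D : ThickDatum R F F₁ F₂ F₃} {g g₁ g₂ g₃ : ℕ} (C : ThickCtx D g g₁ g₂ g₃)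

include C

/-! ### the ideals of the chain in valuation form -/

theorem I_one_iff_chain (r : ℕ) (hr : 1 ≤ r) {f : F} :
    C.I 1 (r : ℤ) 1 f ↔ f ∈ C.chain (r + 1) := by
  obtain ⟨j, rfl⟩ : ∃ j, r = j + 1 := ⟨r - 1, by omega⟩
  rw [show j + 1 + 1 = j + 2 from rfl, chain_add_two, mem_Isub]
  have e : ((j + 1 : ℕ) : ℤ) = (j : ℤ) + 1 := by push_cast; rfl
  rw [e]

theorem I_pow_iff (N : ℕ) {f : F} :
    C.I (N : ℤ) ((D.e : ℤ) * N) (N : ℤ) f ↔ ∃ x ∈ D.O, f = algebraMap K F D.π ^ N * x := by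
  have key := C.I_mul_π_zpow_iff (α := 0) (β := 0) (γ := 0)
    (f := f * (algebraMap K F D.π ^ N)⁻¹) (N : ℤ)
  have hπ : algebraMap K F D.π ^ N ≠ 0 := pow_ne_zero _ C.πF_ne_zero
  have e1 : f * (algebraMap K F D.π ^ N)⁻¹ * algebraMap K F D.π ^ (N : ℤ) = f := by
    rw [zpow_natCast, mul_assoc, inv_mul_cancel₀ hπ, mul_one]
  rw [e1, zero_add, zero_add] at key
  rw [key, I_zero_iff]
  constructor
  · intro h
    exact ⟨_, h, by rw [mul_comm, mul_assoc, inv_mul_cancel₀ hπ, mul_one]⟩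
  · rintro ⟨x, hx, rfl⟩
    rwa [mul_comm, ← mul_assoc, inv_mul_cancel₀ hπ, one_mul]

/-! ### the hypotheses of the abstract `H⁰`-principle -/

theorem h0_const (j : ℕ) (φ : F₁ × F₂ × F₃) (h' : φ ∈ C.T 1 0 j 0) (h'' : φ ∈ C.T 1 0 0 j) :
    ∃ a : R, φ = C.filtSys.sy 0 (algebraMap K F (a : K)) := by
  have h := C.T_inf_le 1 0 j 0 0 j ⟨h', h''⟩
  rw [Nat.min_zero, Nat.zero_min] at h
  obtain ⟨α, rfl⟩ := C.T_zero_zero_zero 1 h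
  obtain ⟨a, rfl⟩ := IsLocalRing.residue_surjective α
  exact ⟨a, by rw [filtSys_sy, sy_zero, C.red₂_algebraMap]⟩

theorem h0_zero (j : ℕ) (i : ℕ) (h0 : 0 < i) (hi : i < D.e + 1) (φ : F₁ × F₂ × F₃)
    (h' : φ ∈ C.T 1 i j 0) (h'' : φ ∈ C.T 1 i 0 j) : φ = 0 := by
  have h := C.T_inf_le 1 i j 0 0 j ⟨h', h''⟩
  rw [Nat.min_zero, Nat.zero_min, C.T_pos_zero_zero 1 h0 hi] at h
  exact (Submodule.mem_bot _).1 h

theorem one_mem_𝓛' (a b : ℕ) : (1 : F) ∈ D.𝓛 a b :=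
  C.mono (Nat.zero_le a) (Nat.zero_le b) C.one_mem

/-- **the `H⁰`-principle modulo `I(1, r, 1)`** -/
theorem h0_chain {r : ℕ} (hr : 1 ≤ r) (hre : r ≤ D.e) (j : ℕ) (y₁ : F) (h₁ : y₁ ∈ D.𝓛 j 0)
    (h₁O : y₁ ∈ D.O) (y₂ : F) (h₂ : y₂ ∈ D.𝓛 0 j) (h₂O : y₂ ∈ D.O)
    (hd : C.I 1 (r : ℤ) 1 (y₁ - y₂)) : ∃ a : R, C.I 1 (r : ℤ) 1 (y₁ - algebraMap K F (a : K)) := by
  rw [C.I_one_iff_chain r hr] at hd
  obtain ⟨a, ha⟩ := C.filtSys.exists_const_sub_mem (C.one_mem_𝓛' j 0) (C.one_mem_𝓛' 0 j)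
    (fun i => C.T 1 i j 0) (fun i => C.T 1 i 0 j)
    (fun i hi => C.symImage_𝓛_le hi j 0) (fun i hi => C.symImage_𝓛_le hi 0 j)
    (C.h0_const j) (C.h0_zero j) (r + 1) (by rw [filtSys_N]; omega) y₁ h₁ h₁O y₂ h₂ h₂O hd
  exact ⟨a, (C.I_one_iff_chain r hr).2 ha⟩

/-- **the `H⁰`-principle modulo `π^N O = I(N, e N, N)`** -/
theorem h0_pow (N : ℕ) (j : ℕ) (y₁ : F) (h₁ : y₁ ∈ D.𝓛 j 0) (h₁O : y₁ ∈ D.O) (y₂ : F)
    (h₂ : y₂ ∈ D.𝓛 0 j) (h₂O : y₂ ∈ D.O)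
    (hd : C.I (N : ℤ) ((D.e : ℤ) * N) (N : ℤ) (y₁ - y₂)) :
    ∃ a : R, C.I (N : ℤ) ((D.e : ℤ) * N) (N : ℤ) (y₁ - algebraMap K F (a : K)) := by
  rw [C.I_pow_iff N] at hd
  obtain ⟨a, ha⟩ := C.filtSys.exists_const_sub_eq_pow_mul (C.one_mem_𝓛' j 0) (C.one_mem_𝓛' 0 j)
    (fun i => C.T 1 i j 0) (fun i => C.T 1 i 0 j)
    (fun i hi => C.symImage_𝓛_le hi j 0) (fun i hi => C.symImage_𝓛_le hi 0 j)
    (C.h0_const j) (C.h0_zero j) N y₁ h₁ h₁O y₂ h₂ h₂O hd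
  exact ⟨a, (C.I_pow_iff N).2 ha⟩

end ThickCtx

end Fermat.Agent.S36lib.Thick
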