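/-
S36lib / Thick / Split  (helper6, WG-C)

STABILISATION for a family `W a b` of finite dimensional `K`-subspaces whose symbol images lie in the
targets `T ν i a b` (and which satisfies Riemann's inequality):

  `W M M ∩ 𝔞 = (W M 0 ∩ 𝔞) + (W 0 M ∩ 𝔞) + (W m m ∩ 𝔞)`   (`m ≤ M`, `(m,0)`, `(0,m)` stable)

for every ideal `𝔞` of the chain and for `𝔞 = π^N O`.
-/
import Fermat.Agent.S36lib.Thick.Count
import Fermat.Agent.S36lib.Thick.H0

set_option autoImplicit false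

noncomputable section

namespace Fermat.Agent.S36lib.Thick

open AlgebraicCurve Module

variable {K : Type*} [Field K] {R : ValuationSubring K}
variable {F : Type*} [Field F] [Algebra K F]
variable {F₁ F₂ F₃ : Type*} [Field F₁] [Field F₂] [Field F₃]
variable [Algebra (IsLocalRing.ResidueField R) F₁] [Algebra (IsLocalRing.ResidueField R) F₂]
variable [Algebra (IsLocalRing.ResidueField R) F₃]

local notation "k" => IsLocalRing.ResidueField R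

/-- a family of chart spaces whose symbol images lie in the `ν`-twisted targets -/
structure TgtFamily {D : ThickDatum R F F₁ F₂ F₃} {g g₁ g₂ g₃ : ℕ} (C : ThickCtx D g g₁ g₂ g₃)
    (ν : Fin D.s → k) (W : ℕ → ℕ → Submodule K F) : Prop where
  finiteDimensional : ∀ a b, FiniteDimensional K (W a b)
  mono : ∀ {a b a' b' : ℕ}, a ≤ a' → b ≤ b' → W a b ≤ W a' b'
  riemann : ∀ a b : ℕ, (a : ℤ) * D.d₁ + b * D.d₂ + 1 - g ≤ (finrank K (W a b) : ℤ)
  incl : ∀ a b : ℕ, ∀ i < D.e + 1, C.filtSys.symImage i (W a b) ≤ C.T ν i a b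

namespace TgtFamily

open ThickCtx

variable {D : ThickDatum R F F₁ F₂ F₃} {g g₁ g₂ g₃ : ℕ} {C : ThickCtx D g g₁ g₂ g₃}
variable {ν : Fin D.s → IsLocalRing.ResidueField R} {W : ℕ → ℕ → Submodule K F}
variable (hW : TgtFamily C ν W)

include hW

theorem symImage_eq {a b : ℕ} (hst : C.Stable a b) {i : ℕ} (hi : i < D.e + 1) :
    C.filtSys.symImage i (W a b) = C.T ν i a b := by
  have := hW.finiteDimensional a b
  exact C.symImage_eq_T hst (hW.riemann a b) (hW.incl a b) i hi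

theorem exists_lift {a b : ℕ} (hst : C.Stable a b) {i : ℕ} (hi : i < D.e + 1)
    {φ : F₁ × F₂ × F₃} (hφ : φ ∈ C.T ν i a b) : ∃ f ∈ W a b, f ∈ C.chain i ∧ C.sy i f = φ := by
  have := hW.finiteDimensional a b
  exact C.exists_lift hst (hW.riemann a b) (hW.incl a b) hi hφ

/-- a generic two-term splitting along the chain -/
theorem split {a b a' b' : ℕ} (hst : C.Stable (min a a') (min b b')) {i₀ : ℕ}
    (hi₀ : i₀ ≤ D.e + 1) {x : F} (hx : x ∈ W (max a a') (max b b')) (hxc : x ∈ C.chain i₀) :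
    ∃ y' ∈ W a b, y' ∈ C.chain i₀ ∧ ∃ y'' ∈ W a' b', y'' ∈ C.chain i₀ ∧ x = y' + y'' := by
  have s1 : C.Stable a b := hst.mono (min_le_left a a') (min_le_left b b')
  have s2 : C.Stable a' b' := hst.mono (min_le_right a a') (min_le_right b b')
  have s3 : C.Stable (max a a') (max b b') := s1.mono (le_max_left a a') (le_max_left b b')
  have := hW.finiteDimensional (max a a') (max b b')
  have hsym : ∀ i < C.filtSys.N, C.filtSys.symImage i (W (max a a') (max b b')) ≤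
      C.filtSys.symImage i (W a b) ⊔ C.filtSys.symImage i (W a' b') := by
    intro i hi
    rw [filtSys_N] at hi
    rw [hW.symImage_eq s1 hi, hW.symImage_eq s2 hi, hW.symImage_eq s3 hi, C.T_sup_eq ν hi hst]
  exact C.filtSys.exists_add_of_symImage_le (C.hasBasis _)
    (hW.mono (le_max_left a a') (le_max_left b b'))
    (hW.mono (le_max_right a a') (le_max_right b b')) hsym (by rw [filtSys_N]; exact hi₀) hx hxc

/-- **stabilisation along the chain** -/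
theorem stabilize {m M : ℕ} (hm₁ : C.Stable m 0) (hm₂ : C.Stable 0 m) (hmM : m ≤ M) {i₀ : ℕ}
    (hi₀ : i₀ ≤ D.e + 1) {x : F} (hx : x ∈ W M M) (hxc : x ∈ C.chain i₀) :
    ∃ y₁ ∈ W M 0, y₁ ∈ C.chain i₀ ∧ ∃ y₂ ∈ W 0 M, y₂ ∈ C.chain i₀ ∧
      ∃ x' ∈ W m m, x' ∈ C.chain i₀ ∧ x = y₁ + y₂ + x' := by
  -- first split off the second chart
  have e1 : max M 0 = M := max_eq_left (Nat.zero_le M)
  have e2 : max m M = M := max_eq_right hmM
  have e3 : min M 0 = 0 := min_eq_right (Nat.zero_le M)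
  have e4 : min m M = m := min_eq_left hmM
  obtain ⟨y', hy', hy'c, y₂, hy₂, hy₂c, hsum⟩ := hW.split (a := M) (b := m) (a' := 0) (b' := M)
    (by rw [e3, e4]; exact hm₂) hi₀ (by rw [e1, e2]; exact hx) hxc
  -- then the first chart
  have e5 : max M m = M := max_eq_left hmM
  have e6 : max 0 m = m := max_eq_right (Nat.zero_le m)
  have e7 : min M m = m := min_eq_right hmM
  have e8 : min 0 m = 0 := min_eq_left (Nat.zero_le m)
  obtain ⟨y₁, hy₁, hy₁c, x', hx', hx'c, hsum'⟩ := hW.split (a := M) (b := 0) (a' := m) (b' := m)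
    (by rw [e7, e8]; exact hm₁) hi₀ (by rw [e5, e6]; exact hy') hy'c
  exact ⟨y₁, hy₁, hy₁c, y₂, hy₂, hy₂c, x', hx', hx'c, by rw [hsum, hsum']; ring⟩

/-- **stabilisation modulo `I(1, r, 1)`** -/
theorem stab_chain {m : ℕ} (hm₁ : C.Stable m 0) (hm₂ : C.Stable 0 m) {r : ℕ} (hr : 1 ≤ r)
    (hre : r ≤ D.e) (M : ℕ) (hmM : m ≤ M) (x : F) (hx : x ∈ W M M) (hxI : C.I 1 (r : ℤ) 1 x) :
    ∃ y₁ ∈ W M 0, C.I 1 (r : ℤ) 1 y₁ ∧ ∃ y₂ ∈ W 0 M, C.I 1 (r : ℤ) 1 y₂ ∧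
      ∃ x' ∈ W m m, C.I 1 (r : ℤ) 1 x' ∧ x = y₁ + y₂ + x' := by
  rw [C.I_one_iff_chain r hr] at hxI
  obtain ⟨y₁, hy₁, hy₁c, y₂, hy₂, hy₂c, x', hx', hx'c, hsum⟩ :=
    hW.stabilize hm₁ hm₂ hmM (i₀ := r + 1) (by omega) hx hxI
  exact ⟨y₁, hy₁, (C.I_one_iff_chain r hr).2 hy₁c, y₂, hy₂, (C.I_one_iff_chain r hr).2 hy₂c,
    x', hx', (C.I_one_iff_chain r hr).2 hx'c, hsum⟩

/-- **stabilisation modulo `π^N O`** -/
theorem stab_pow {m : ℕ} (hm₁ : C.Stable m 0) (hm₂ : C.Stable 0 m) (N : ℕ) (M : ℕ) (hmM : m ≤ M)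
    (x : F) (hx : x ∈ W M M) (hxI : C.I (N : ℤ) ((D.e : ℤ) * N) (N : ℤ) x) :
    ∃ y₁ ∈ W M 0, C.I (N : ℤ) ((D.e : ℤ) * N) (N : ℤ) y₁ ∧
      ∃ y₂ ∈ W 0 M, C.I (N : ℤ) ((D.e : ℤ) * N) (N : ℤ) y₂ ∧
        ∃ x' ∈ W m m, C.I (N : ℤ) ((D.e : ℤ) * N) (N : ℤ) x' ∧ x = y₁ + y₂ + x' := by
  obtain ⟨x₀, hx₀O, rfl⟩ := (C.I_pow_iff N).1 hxI
  have hπ : algebraMap K F D.π ^ N ≠ 0 := pow_ne_zero _ C.πF_ne_zero
  have smulW : ∀ (a b : ℕ) (f : F), f ∈ W a b → algebraMap K F D.π ^ N * f ∈ W a b := by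
    intro a b f hf
    have := (W a b).smul_mem (D.π ^ N) hf
    rwa [Algebra.smul_def, map_pow] at this
  have hx₀W : x₀ ∈ W M M := by
    have := (W M M).smul_mem ((D.π ^ N)⁻¹) hx
    rwa [Algebra.smul_def, map_inv₀, map_pow, ← mul_assoc, inv_mul_cancel₀ hπ, one_mul] at this
  have hx₀c : x₀ ∈ C.chain 0 := by rw [chain_zero, mem_Isub, I_zero_iff]; exact hx₀O
  obtain ⟨y₁, hy₁, hy₁c, y₂, hy₂, hy₂c, x', hx', hx'c, hsum⟩ :=
    hW.stabilize hm₁ hm₂ hmM (i₀ := 0) (Nat.zero_le _) hx₀W hx₀c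
  rw [chain_zero, mem_Isub, I_zero_iff] at hy₁c hy₂c hx'c
  refine ⟨_, smulW _ _ _ hy₁, (C.I_pow_iff N).2 ⟨y₁, hy₁c, rfl⟩, _, smulW _ _ _ hy₂,
    (C.I_pow_iff N).2 ⟨y₂, hy₂c, rfl⟩, _, smulW _ _ _ hx', (C.I_pow_iff N).2 ⟨x', hx'c, rfl⟩, ?_⟩
  rw [hsum]; ring

end TgtFamily

end Fermat.Agent.S36lib.Thick
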