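/-
S36lib / Thick / TwistLA  (helper5)

**The pure linear algebra of twists** (port of the `key` step of `LSb.Core.exists_twist`), standalone
over a field `k`:

* `exists_ratio` : two linear functionals `f g` on a `k`-space `V` with `b₁ f(φ)ⁿ = b₂ g(φ)ⁿ` for all
  `φ` (`n ≠ 0`, `b₁ b₂ ≠ 0`) are proportional: `∃ l ≠ 0, g = l f`; moreover `b₁ = b₂ lⁿ` as soon as
  `f ≠ 0`.
* `evalAt` : the value at a rational place as a linear functional on a space of functions regular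
  there (through any linear map `p : E → F`, e.g. a projection of `F₁ × F₂ × F₃`).
* `exists_twist₂` : `V ≤ F₁ × F₃`, `b₁ ψ₁(x₁ c)ⁿ = b₃ ψ₃(x₃ c)ⁿ` ⇒ `∃ ν ≠ 0, ψ₃(x₃ c) = ν_c ψ₁(x₁ c)`.
* `exists_twist₃` : `V ≤ F₁ × F₂ × F₃`, `b₁ φ₁(x₁ c)ⁿ = b₂ φ₂(x₂ c)ⁿ = b₃ φ₃(x₃ c)ⁿ` ⇒
  `∃ lam mu ≠ 0, φ₁(x₁ c) = lam_c φ₂(x₂ c) ∧ φ₃(x₃ c) = mu_c φ₂(x₂ c)`.
-/
import Mathlib
import Fermat.Agent.LSb.Core.ValAt
import Fermat.Agent.LSb.Core.Value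

set_option autoImplicit false

noncomputable section

namespace Fermat.Agent.S36lib.Thick

open AlgebraicCurve Fermat.Agent.LSb.Core
open Fermat.Agent.LSb (HasValueAt)

/-! ### proportional functionals -/

section Ratio

variable {k V : Type*} [Field k] [AddCommGroup V] [Module k V]

/-- **two functionals with proportional `n`-th powers are proportional** -/
theorem exists_ratio (f g : V →ₗ[k] k) {n : ℕ} (hn : n ≠ 0) {b₁ b₂ : k} (hb₁ : b₁ ≠ 0)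
    (hb₂ : b₂ ≠ 0) (h : ∀ φ : V, b₁ * f φ ^ n = b₂ * g φ ^ n) :
    ∃ l : k, l ≠ 0 ∧ (∀ φ : V, g φ = l * f φ) ∧ ((∃ φ : V, f φ ≠ 0) → b₁ = b₂ * l ^ n) := by
  have hzero : ∀ φ : V, f φ = 0 → g φ = 0 := by
    intro φ h0
    have := h φ
    rw [h0, zero_pow hn, mul_zero] at this
    exact (pow_eq_zero_iff hn).1 ((mul_eq_zero.1 this.symm).resolve_left hb₂)
  by_cases hex : ∃ φ₀ : V, f φ₀ ≠ 0
  · obtain ⟨φ₀, h0⟩ := hex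
    have h0' : g φ₀ ≠ 0 := by
      intro hg
      have := h φ₀
      rw [hg, zero_pow hn, mul_zero] at this
      exact h0 ((pow_eq_zero_iff hn).1 ((mul_eq_zero.1 this).resolve_left hb₁))
    have hprop : ∀ φ : V, g φ = g φ₀ / f φ₀ * f φ := by
      intro φ
      have ht : f (f φ₀ • φ - f φ • φ₀) = 0 := by
        rw [map_sub, map_smul, map_smul, smul_eq_mul, smul_eq_mul]; ring
      have ht2 := hzero _ ht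
      rw [map_sub, map_smul, map_smul, smul_eq_mul, smul_eq_mul] at ht2
      field_simp
      linear_combination ht2
    refine ⟨g φ₀ / f φ₀, div_ne_zero h0' h0, hprop, fun _ => ?_⟩
    have h1 := h φ₀
    have h2 : b₂ * (g φ₀ / f φ₀) ^ n * f φ₀ ^ n = b₁ * f φ₀ ^ n := by
      rw [h1, div_pow, mul_assoc, div_mul_cancel₀ _ (pow_ne_zero n h0)]
    exact (mul_right_cancel₀ (pow_ne_zero n h0) h2).symm
  · push Not at hex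
    exact ⟨1, one_ne_zero, fun φ => by rw [hex φ, hzero φ (hex φ), mul_zero],
      fun ⟨φ, hφ⟩ => absurd (hex φ) hφ⟩

end Ratio

/-! ### evaluation functionals -/

section Eval

variable {k E F : Type*} [Field k] [Field F] [Algebra k F] [AddCommGroup E] [Module k E]

/-- the value at the rational place `x` of `p φ`, as a functional on a space `V` of elements `φ`
with `p φ` regular at `x` -/
def evalAt (x : Place k F) (hx : x.deg = 1) (p : E →ₗ[k] F) (V : Submodule k E)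
    (hreg : ∀ φ ∈ V, p φ ∈ x.toValuationSubring) : V →ₗ[k] k where
  toFun φ := valAt x (p φ)
  map_add' φ ψ := by
    rw [Submodule.coe_add, map_add, valAt_add x hx (hreg φ φ.2) (hreg ψ ψ.2)]
  map_smul' c φ := by
    rw [Submodule.coe_smul, map_smul, valAt_smul x hx c (hreg φ φ.2), RingHom.id_apply, smul_eq_mul]

@[simp] theorem evalAt_apply (x : Place k F) (hx : x.deg = 1) (p : E →ₗ[k] F) (V : Submodule k E)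
    (hreg : ∀ φ ∈ V, p φ ∈ x.toValuationSubring) (φ : V) :
    evalAt x hx p V hreg φ = valAt x (p φ) := rfl

end Eval

/-! ### `valAt` versus `HasValueAt` -/

section Bridge

variable {k F : Type*} [Field k] [Field F] [Algebra k F]

/-- `HasValueAt x φ c` is `VanishAt x (φ - c)` -/
theorem hasValueAt_iff_vanishAt {x : Place k F} {φ : F} {c : k} :
    HasValueAt x φ c ↔ VanishAt x (φ - algebraMap k F c) := Iff.rfl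

theorem valAt_eq_of_hasValueAt {x : Place k F} {φ : F} {c : k} (h : HasValueAt x φ c) :
    valAt x φ = c :=
  valAt_eq_of_vanishAt h

/-- a function regular at a rational place has the value `valAt` there -/
theorem hasValueAt_valAt (x : Place k F) (hx : x.deg = 1) {φ : F}
    (hφ : φ ∈ x.toValuationSubring) : HasValueAt x φ (valAt x φ) :=
  vanishAt_sub_valAt x hx hφ

theorem mem_of_hasValueAt {x : Place k F} {φ : F} {c : k} (h : HasValueAt x φ c) :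
    φ ∈ x.toValuationSubring := by
  have h1 : φ - algebraMap k F c ∈ x.toValuationSubring := VanishAt.mem h
  have := add_mem h1 (x.algebraMap_mem' c)
  rwa [sub_add_cancel] at this

end Bridge

/-! ### twists -/

section Twist

variable {k : Type*} [Field k]
variable {F₁ F₂ F₃ : Type*} [Field F₁] [Field F₂] [Field F₃]
variable [Algebra k F₁] [Algebra k F₂] [Algebra k F₃]
variable {s : ℕ}

/-- **twist for two components**: `b₁ ψ₁(x₁ c)ⁿ = b₃ ψ₃(x₃ c)ⁿ` on a subspace of `F₁ × F₃`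
⇒ `ψ₃(x₃ c) = ν_c ψ₁(x₁ c)` with `ν_c ≠ 0`. -/
theorem exists_twist₂ (x₁ : Fin s → Place k F₁) (x₃ : Fin s → Place k F₃)
    (hx₁ : ∀ c, (x₁ c).deg = 1) (hx₃ : ∀ c, (x₃ c).deg = 1)
    (V : Submodule k (F₁ × F₃))
    (reg₁ : ∀ φ ∈ V, ∀ c, φ.1 ∈ (x₁ c).toValuationSubring)
    (reg₃ : ∀ φ ∈ V, ∀ c, φ.2 ∈ (x₃ c).toValuationSubring)
    {n : ℕ} (hn : n ≠ 0) {b₁ b₃ : k} (hb₁ : b₁ ≠ 0) (hb₃ : b₃ ≠ 0)
    (h : ∀ φ ∈ V, ∀ c, b₁ * valAt (x₁ c) φ.1 ^ n = b₃ * valAt (x₃ c) φ.2 ^ n) :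
    ∃ nu : Fin s → k, (∀ c, nu c ≠ 0) ∧
      (∀ φ ∈ V, ∀ c, valAt (x₃ c) φ.2 = nu c * valAt (x₁ c) φ.1) ∧
      (∀ c, (∃ φ ∈ V, valAt (x₁ c) φ.1 ≠ 0) → b₁ = b₃ * nu c ^ n) := by
  have key : ∀ c, ∃ l : k, l ≠ 0 ∧ (∀ φ ∈ V, valAt (x₃ c) φ.2 = l * valAt (x₁ c) φ.1) ∧
      ((∃ φ ∈ V, valAt (x₁ c) φ.1 ≠ 0) → b₁ = b₃ * l ^ n) := by
    intro c
    obtain ⟨l, hl0, hl, hl'⟩ := exists_ratio
      (evalAt (x₁ c) (hx₁ c) (LinearMap.fst k F₁ F₃) V (fun φ hφ => reg₁ φ hφ c))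
      (evalAt (x₃ c) (hx₃ c) (LinearMap.snd k F₁ F₃) V (fun φ hφ => reg₃ φ hφ c))
      hn hb₁ hb₃ (fun φ => h φ φ.2 c)
    exact ⟨l, hl0, fun φ hφ => hl ⟨φ, hφ⟩, fun ⟨φ, hφ, h0⟩ => hl' ⟨⟨φ, hφ⟩, h0⟩⟩
  choose nu h0 h1 h2 using key
  exact ⟨nu, h0, fun φ hφ c => h1 c φ hφ, h2⟩

/-- **twist for three components**: `b₁ φ₁(x₁ c)ⁿ = b₂ φ₂(x₂ c)ⁿ = b₃ φ₃(x₃ c)ⁿ` on a subspace of
`F₁ × F₂ × F₃` ⇒ `φ₁(x₁ c) = lam_c φ₂(x₂ c)`, `φ₃(x₃ c) = mu_c φ₂(x₂ c)` with `lam_c, mu_c ≠ 0`. -/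
theorem exists_twist₃ (x₁ : Fin s → Place k F₁) (x₂ : Fin s → Place k F₂)
    (x₃ : Fin s → Place k F₃)
    (hx₁ : ∀ c, (x₁ c).deg = 1) (hx₂ : ∀ c, (x₂ c).deg = 1) (hx₃ : ∀ c, (x₃ c).deg = 1)
    (V : Submodule k (F₁ × F₂ × F₃))
    (reg₁ : ∀ φ ∈ V, ∀ c, φ.1 ∈ (x₁ c).toValuationSubring)
    (reg₂ : ∀ φ ∈ V, ∀ c, φ.2.1 ∈ (x₂ c).toValuationSubring)
    (reg₃ : ∀ φ ∈ V, ∀ c, φ.2.2 ∈ (x₃ c).toValuationSubring)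
    {n : ℕ} (hn : n ≠ 0) {b₁ b₂ b₃ : k} (hb₁ : b₁ ≠ 0) (hb₂ : b₂ ≠ 0) (hb₃ : b₃ ≠ 0)
    (h₁₂ : ∀ φ ∈ V, ∀ c, b₁ * valAt (x₁ c) φ.1 ^ n = b₂ * valAt (x₂ c) φ.2.1 ^ n)
    (h₃₂ : ∀ φ ∈ V, ∀ c, b₃ * valAt (x₃ c) φ.2.2 ^ n = b₂ * valAt (x₂ c) φ.2.1 ^ n) :
    ∃ lam mu : Fin s → k, (∀ c, lam c ≠ 0 ∧ mu c ≠ 0) ∧
      (∀ φ ∈ V, ∀ c, valAt (x₁ c) φ.1 = lam c * valAt (x₂ c) φ.2.1 ∧
        valAt (x₃ c) φ.2.2 = mu c * valAt (x₂ c) φ.2.1) ∧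
      (∀ c, (∃ φ ∈ V, valAt (x₂ c) φ.2.1 ≠ 0) →
        b₂ = b₁ * lam c ^ n ∧ b₂ = b₃ * mu c ^ n) := by
  have key : ∀ c, ∃ l m : k, (l ≠ 0 ∧ m ≠ 0) ∧
      (∀ φ ∈ V, valAt (x₁ c) φ.1 = l * valAt (x₂ c) φ.2.1 ∧
        valAt (x₃ c) φ.2.2 = m * valAt (x₂ c) φ.2.1) ∧
      ((∃ φ ∈ V, valAt (x₂ c) φ.2.1 ≠ 0) → b₂ = b₁ * l ^ n ∧ b₂ = b₃ * m ^ n) := by
    intro c
    set e₁ := evalAt (x₁ c) (hx₁ c) (LinearMap.fst k F₁ (F₂ × F₃)) V (fun φ hφ => reg₁ φ hφ c)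
    set e₂ := evalAt (x₂ c) (hx₂ c)
      ((LinearMap.fst k F₂ F₃).comp (LinearMap.snd k F₁ (F₂ × F₃))) V (fun φ hφ => reg₂ φ hφ c)
    set e₃ := evalAt (x₃ c) (hx₃ c)
      ((LinearMap.snd k F₂ F₃).comp (LinearMap.snd k F₁ (F₂ × F₃))) V (fun φ hφ => reg₃ φ hφ c)
    obtain ⟨l, hl0, hl, hl'⟩ := exists_ratio e₂ e₁ hn hb₂ hb₁ (fun φ => (h₁₂ φ φ.2 c).symm)
    obtain ⟨m, hm0, hm, hm'⟩ := exists_ratio e₂ e₃ hn hb₂ hb₃ (fun φ => (h₃₂ φ φ.2 c).symm)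
    exact ⟨l, m, ⟨hl0, hm0⟩, fun φ hφ => ⟨hl ⟨φ, hφ⟩, hm ⟨φ, hφ⟩⟩,
      fun ⟨φ, hφ, h0⟩ => ⟨hl' ⟨⟨φ, hφ⟩, h0⟩, hm' ⟨⟨φ, hφ⟩, h0⟩⟩⟩
  choose lam mu h0 h1 h2 using key
  exact ⟨lam, mu, h0, fun φ hφ c => h1 c φ hφ, h2⟩

/-- `exists_twist₃` with the conclusion in `HasValueAt` form (the shape of `Thick.IsTwist`) -/
theorem exists_twist₃' (x₁ : Fin s → Place k F₁) (x₂ : Fin s → Place k F₂)
    (x₃ : Fin s → Place k F₃)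
    (hx₁ : ∀ c, (x₁ c).deg = 1) (hx₂ : ∀ c, (x₂ c).deg = 1) (hx₃ : ∀ c, (x₃ c).deg = 1)
    (V : Submodule k (F₁ × F₂ × F₃))
    (reg₁ : ∀ φ ∈ V, ∀ c, φ.1 ∈ (x₁ c).toValuationSubring)
    (reg₂ : ∀ φ ∈ V, ∀ c, φ.2.1 ∈ (x₂ c).toValuationSubring)
    (reg₃ : ∀ φ ∈ V, ∀ c, φ.2.2 ∈ (x₃ c).toValuationSubring)
    {n : ℕ} (hn : n ≠ 0) {b₁ b₂ b₃ : k} (hb₁ : b₁ ≠ 0) (hb₂ : b₂ ≠ 0) (hb₃ : b₃ ≠ 0)
    (h₁₂ : ∀ φ ∈ V, ∀ c, b₁ * valAt (x₁ c) φ.1 ^ n = b₂ * valAt (x₂ c) φ.2.1 ^ n)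
    (h₃₂ : ∀ φ ∈ V, ∀ c, b₃ * valAt (x₃ c) φ.2.2 ^ n = b₂ * valAt (x₂ c) φ.2.1 ^ n) :
    ∃ lam mu : Fin s → k, (∀ c, lam c ≠ 0) ∧ (∀ c, mu c ≠ 0) ∧
      ∀ φ ∈ V, ∀ c, ∃ α : k, HasValueAt (x₁ c) φ.1 (lam c * α) ∧ HasValueAt (x₂ c) φ.2.1 α ∧
        HasValueAt (x₃ c) φ.2.2 (mu c * α) := by
  obtain ⟨lam, mu, h0, h, -⟩ := exists_twist₃ x₁ x₂ x₃ hx₁ hx₂ hx₃ V reg₁ reg₂ reg₃ hn hb₁ hb₂ hb₃
    h₁₂ h₃₂
  refine ⟨lam, mu, fun c => (h0 c).1, fun c => (h0 c).2, fun φ hφ c => ?_⟩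
  refine ⟨valAt (x₂ c) φ.2.1, ?_, hasValueAt_valAt _ (hx₂ c) (reg₂ φ hφ c), ?_⟩
  · rw [← (h φ hφ c).1]
    exact hasValueAt_valAt _ (hx₁ c) (reg₁ φ hφ c)
  · rw [← (h φ hφ c).2]
    exact hasValueAt_valAt _ (hx₃ c) (reg₃ φ hφ c)

end Twist

end Fermat.Agent.S36lib.Thick
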