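/-
S36lib / Thick / Twist  (helper5)  --  brick C5, part 1

**`ExistsTwistStatement` holds for every `ThickCtx`** (Export 1 of `Thick/Datum.lean`): a Kummer
tri-unit `z` (`red_i z = b_i` nonzero constants) with Kummer family `𝓔` has a twist `(lam, mu)`.

Only (GLUE) is used: for `h ∈ 𝓔 a b ∩ O` the function `hⁿ z` lies in `𝓛 (n a) (n b) ∩ O`, so its
three reductions `b_i (red_i h)ⁿ` have a common value at every triple point; hence the reductions of
`h` are regular there and `b₁ h₁(x₁ c)ⁿ = b₂ h₂(x₂ c)ⁿ = b₃ h₃(x₃ c)ⁿ`.  The reductions of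
`𝓔 m m ∩ O` form a `k`-subspace of `F₁ × F₂ × F₃` (`redImage`), to which the linear algebra of
`Thick/TwistLA` applies; the twists for the increasing chain `m = 0, 1, 2, …` are then made
independent of `m`.

All auxiliary declarations live in the sub-namespace `Fermat.Agent.S36lib.Thick.Twist`.
-/
import Mathlib
import Fermat.Agent.S36lib.Thick.Datum
import Fermat.Agent.S36lib.Thick.TwistLA
import Fermat.Agent.S18lib.Tame.ZeroPole

set_option autoImplicit false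
set_option linter.unusedSectionVars false

noncomputable section

namespace Fermat.Agent.S36lib.Thick

open AlgebraicCurve Module
open Fermat.Agent.LSb (HasValueAt)
open Fermat.Agent.LSb.Core (valAt)

namespace Twist

variable {K : Type*} [Field K] {R : ValuationSubring K}
variable {F : Type*} [Field F] [Algebra K F]
variable {F₁ F₂ F₃ : Type*} [Field F₁] [Field F₂] [Field F₃]
variable [Algebra (IsLocalRing.ResidueField R) F₁] [Algebra (IsLocalRing.ResidueField R) F₂]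
variable [Algebra (IsLocalRing.ResidueField R) F₃]

local notation "k" => IsLocalRing.ResidueField R

/-! ### the total reduction on the middle component -/

section Red₂

variable (D : ThickDatum R F F₁ F₂ F₃)

theorem red₂_of_mem {y : F} (h : y ∈ D.V₂.O) : D.red₂ y = D.V₂.red ⟨y, h⟩ := by
  classical
  rw [ThickDatum.red₂, dif_pos h]

theorem red₂_of_not_mem {y : F} (h : y ∉ D.V₂.O) : D.red₂ y = 0 := by
  classical
  rw [ThickDatum.red₂, dif_neg h]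

theorem mem₂_of_red₂_ne_zero {y : F} (h : D.red₂ y ≠ 0) : y ∈ D.V₂.O := by
  by_contra hy
  exact h (red₂_of_not_mem D hy)

theorem red₂_add {x y : F} (hx : x ∈ D.V₂.O) (hy : y ∈ D.V₂.O) :
    D.red₂ (x + y) = D.red₂ x + D.red₂ y := by
  rw [red₂_of_mem D hx, red₂_of_mem D hy, red₂_of_mem D (D.V₂.O.add_mem _ _ hx hy), ← map_add]
  rfl

theorem red₂_mul {x y : F} (hx : x ∈ D.V₂.O) (hy : y ∈ D.V₂.O) :
    D.red₂ (x * y) = D.red₂ x * D.red₂ y := by
  rw [red₂_of_mem D hx, red₂_of_mem D hy, red₂_of_mem D (D.V₂.O.mul_mem _ _ hx hy), ← map_mul]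
  rfl

theorem red₂_pow {x : F} (hx : x ∈ D.V₂.O) (n : ℕ) : D.red₂ (x ^ n) = D.red₂ x ^ n := by
  rw [red₂_of_mem D hx, red₂_of_mem D (D.V₂.O.pow_mem hx n), ← map_pow]
  rfl

theorem red₂_zero : D.red₂ 0 = 0 := by
  rw [red₂_of_mem D D.V₂.O.zero_mem]
  exact map_zero _

theorem algebraMap_mem₂ (a : R) : algebraMap K F (a : K) ∈ D.V₂.O :=
  (D.V₂.algebraMap_mem_iff _).2 a.2

theorem red₂_algebraMap (a : R) :
    D.red₂ (algebraMap K F (a : K)) = algebraMap k F₂ (IsLocalRing.residue R a) := by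
  rw [red₂_of_mem D (algebraMap_mem₂ D a)]
  exact D.V₂.red_algebraMap a _

theorem red₂_smul {x : F} (a : R) (hx : x ∈ D.V₂.O) :
    D.red₂ (algebraMap K F (a : K) * x) = IsLocalRing.residue R a • D.red₂ x := by
  rw [red₂_mul D (algebraMap_mem₂ D a) hx, red₂_algebraMap, Algebra.smul_def]

end Red₂

/-! ### the reduction triple and the reduction of a lattice -/

/-- the three reductions of `h` -/
def redT (D : ThickDatum R F F₁ F₂ F₃) (h : F) : F₁ × F₂ × F₃ :=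
  (D.V₁.redF h, D.red₂ h, D.V₃.redF h)

/-- the `k`-subspace of `F₁ × F₂ × F₃` of reductions of `W ∩ O` -/
def redImage (D : ThickDatum R F F₁ F₂ F₃) (W : Submodule K F) : Submodule k (F₁ × F₂ × F₃) where
  carrier := {φ | ∃ h ∈ W, h ∈ D.O ∧ redT D h = φ}
  zero_mem' := by
    refine ⟨0, W.zero_mem, D.O.zero_mem, ?_⟩
    rw [redT, D.V₁.redF_zero, red₂_zero, D.V₃.redF_zero]
    rfl
  add_mem' := by
    rintro _ _ ⟨h, hW, hO, rfl⟩ ⟨h', hW', hO', rfl⟩
    obtain ⟨h1, h2, h3⟩ := ThickDatum.mem_O.1 hO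
    obtain ⟨h1', h2', h3'⟩ := ThickDatum.mem_O.1 hO'
    refine ⟨h + h', W.add_mem hW hW', D.O.add_mem hO hO', ?_⟩
    rw [redT, redT, redT, D.V₁.redF_add h1 h1', red₂_add D h2 h2', D.V₃.redF_add h3 h3']
    rfl
  smul_mem' := by
    rintro c _ ⟨h, hW, hO, rfl⟩
    obtain ⟨r, rfl⟩ := IsLocalRing.residue_surjective c
    obtain ⟨h1, h2, h3⟩ := ThickDatum.mem_O.1 hO
    refine ⟨algebraMap K F (r : K) * h, ?_, ?_, ?_⟩
    · rw [← Algebra.smul_def]
      exact W.smul_mem _ hW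
    · exact ThickDatum.mem_O.2 ⟨D.V₁.smul_mem r h1,
        D.V₂.O.mul_mem _ _ (algebraMap_mem₂ D r) h2, D.V₃.smul_mem r h3⟩
    · rw [redT, redT, D.V₁.redF_smul r h1, red₂_smul D r h2, D.V₃.redF_smul r h3]
      rfl

theorem mem_redImage {D : ThickDatum R F F₁ F₂ F₃} {W : Submodule K F} {φ : F₁ × F₂ × F₃} :
    φ ∈ redImage D W ↔ ∃ h ∈ W, h ∈ D.O ∧ redT D h = φ := Iff.rfl

theorem redImage_mono {D : ThickDatum R F F₁ F₂ F₃} {W W' : Submodule K F} (h : W ≤ W') :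
    redImage D W ≤ redImage D W' := by
  rintro _ ⟨f, hW, hO, rfl⟩
  exact ⟨f, h hW, hO, rfl⟩

/-! ### the `n`-th power relation at the triple points -/

section Glue

variable {D : ThickDatum R F F₁ F₂ F₃} {g g₁ g₂ g₃ : ℕ}

/-- a function `w` with `wⁿ · b` (`b ≠ 0` constant) of value `α` at a rational place is regular
there and `b · w(x)ⁿ = α` -/
theorem regular_of_pow_mul_const {Fk : Type*} [Field Fk] [Algebra k Fk] {x : Place k Fk}
    (hx : x.deg = 1) {w : Fk} {n : ℕ} (hn : n ≠ 0) {b α : k} (hb : b ≠ 0)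
    (h : HasValueAt x (w ^ n * algebraMap k Fk b) α) :
    w ∈ x.toValuationSubring ∧ b * valAt x w ^ n = α := by
  have h1 : x.adicValuation (w ^ n * algebraMap k Fk b) ≤ 1 := h.le_one
  rw [map_mul, Fermat.Agent.LSb.adicValuation_algebraMap_eq_one hb, mul_one] at h1
  have h2 : x.adicValuation w ≤ 1 :=
    Fermat.Agent.LSb.adicValuation_le_one_of_pow (Nat.pos_of_ne_zero hn) h1
  have hw : w ∈ x.toValuationSubring := (S18lib.Tame.adicValuation_le_one_iff_mem x w).1 h2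
  refine ⟨hw, ?_⟩
  have h3 := valAt_eq_of_hasValueAt h
  rw [Fermat.Agent.LSb.Core.valAt_mul x hx (pow_mem hw n) (x.algebraMap_mem' b),
    Fermat.Agent.LSb.Core.valAt_pow x hx hw, Fermat.Agent.LSb.Core.valAt_algebraMap] at h3
  rw [mul_comm, h3]

/-- a tri-unit lies in `O` -/
theorem IsTriUnit.mem_O {z : F} {b₁ b₂ b₃ : k} (hz : IsTriUnit D z b₁ b₂ b₃) : z ∈ D.O := by
  refine ThickDatum.mem_O.2 ⟨D.V₁.mem_of_redF_ne_zero ?_, mem₂_of_red₂_ne_zero D ?_,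
    D.V₃.mem_of_redF_ne_zero ?_⟩
  · rw [hz.red₁]; exact (map_ne_zero _).2 hz.b₁_ne
  · rw [hz.red₂]; exact (map_ne_zero _).2 hz.b₂_ne
  · rw [hz.red₃]; exact (map_ne_zero _).2 hz.b₃_ne

/-- **(GLUE) for Kummer lattices**: the reductions of `h ∈ 𝓔 a b ∩ O` are regular at the triple
points and `b₁ h₁(x₁ c)ⁿ = b₂ h₂(x₂ c)ⁿ = b₃ h₃(x₃ c)ⁿ`. -/
theorem glue_pow (C : ThickCtx D g g₁ g₂ g₃) {n : ℕ} (hn : n ≠ 0) {z : F}
    (E : KummerFamily D g n z) {b₁ b₂ b₃ : k} (hz : IsTriUnit D z b₁ b₂ b₃)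
    {a b : ℕ} {h : F} (hh : h ∈ E.𝓔 a b) (hO : h ∈ D.O) (c : Fin D.s) :
    (D.V₁.redF h ∈ (D.x₁ c).toValuationSubring ∧ D.red₂ h ∈ (D.x₂ c).toValuationSubring ∧
      D.V₃.redF h ∈ (D.x₃ c).toValuationSubring) ∧
    b₁ * valAt (D.x₁ c) (D.V₁.redF h) ^ n = b₂ * valAt (D.x₂ c) (D.red₂ h) ^ n ∧
    b₃ * valAt (D.x₃ c) (D.V₃.redF h) ^ n = b₂ * valAt (D.x₂ c) (D.red₂ h) ^ n := by
  obtain ⟨h1, h2, h3⟩ := ThickDatum.mem_O.1 hO
  have hzO := IsTriUnit.mem_O hz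
  obtain ⟨z1, z2, z3⟩ := ThickDatum.mem_O.1 hzO
  have hf := E.mixed_mem hh hh
  have hpow : h * h ^ (n - 1) = h ^ n := by
    rw [← pow_succ', Nat.sub_add_cancel (Nat.pos_of_ne_zero hn)]
  rw [hpow] at hf
  have hfO : h ^ n * z ∈ D.O := D.O.mul_mem (D.O.pow_mem hO n) hzO
  obtain ⟨α, v1, v2, v3⟩ := C.glue _ _ _ hf hfO c
  rw [D.V₁.redF_mul (D.V₁.O.pow_mem h1 n) z1, D.V₁.redF_pow h1, hz.red₁] at v1
  rw [red₂_mul D (D.V₂.O.pow_mem h2 n) z2, red₂_pow D h2, hz.red₂] at v2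
  rw [D.V₃.redF_mul (D.V₃.O.pow_mem h3 n) z3, D.V₃.redF_pow h3, hz.red₃] at v3
  obtain ⟨r1, e1⟩ := regular_of_pow_mul_const (C.hF₁.deg_eq_one _) hn hz.b₁_ne v1
  obtain ⟨r2, e2⟩ := regular_of_pow_mul_const (C.hF₂.deg_eq_one _) hn hz.b₂_ne v2
  obtain ⟨r3, e3⟩ := regular_of_pow_mul_const (C.hF₃.deg_eq_one _) hn hz.b₃_ne v3
  exact ⟨⟨r1, r2, r3⟩, e1.trans e2.symm, e3.trans e2.symm⟩

end Glue

end Twist

open Twist

variable {K : Type*} [Field K] {R : ValuationSubring K}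
variable {F : Type*} [Field F] [Algebra K F]
variable {F₁ F₂ F₃ : Type*} [Field F₁] [Field F₂] [Field F₃]
variable [Algebra (IsLocalRing.ResidueField R) F₁] [Algebra (IsLocalRing.ResidueField R) F₂]
variable [Algebra (IsLocalRing.ResidueField R) F₃]

/-- **Export 1 of the thick core: a Kummer tri-unit has a twist.** -/
theorem ThickCtx.existsTwistStatement {D : ThickDatum R F F₁ F₂ F₃} {g g₁ g₂ g₃ : ℕ}
    (C : ThickCtx D g g₁ g₂ g₃) : ExistsTwistStatement D g := by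
  classical
  intro n hnk z E b₁ b₂ b₃ hz
  have hn : n ≠ 0 := by
    rintro rfl
    exact hnk Nat.cast_zero
  -- the chain of reduction spaces
  set V : ℕ → Submodule (IsLocalRing.ResidueField R) (F₁ × F₂ × F₃) :=
    fun m => redImage D (E.𝓔 m m) with hV
  have hVmono : ∀ {m m' : ℕ}, m ≤ m' → V m ≤ V m' := fun hmm =>
    redImage_mono (E.mono hmm hmm)
  have hreg : ∀ m, ∀ φ ∈ V m, ∀ c,
      (φ.1 ∈ (D.x₁ c).toValuationSubring ∧ φ.2.1 ∈ (D.x₂ c).toValuationSubring ∧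
        φ.2.2 ∈ (D.x₃ c).toValuationSubring) ∧
      b₁ * valAt (D.x₁ c) φ.1 ^ n = b₂ * valAt (D.x₂ c) φ.2.1 ^ n ∧
      b₃ * valAt (D.x₃ c) φ.2.2 ^ n = b₂ * valAt (D.x₂ c) φ.2.1 ^ n := by
    rintro m _ ⟨h, hh, hO, rfl⟩ c
    exact glue_pow C hn E hz hh hO c
  -- the twist at each level
  have hlev : ∀ m, ∃ lam mu : Fin D.s → IsLocalRing.ResidueField R,
      (∀ c, lam c ≠ 0 ∧ mu c ≠ 0) ∧
      ∀ φ ∈ V m, ∀ c, valAt (D.x₁ c) φ.1 = lam c * valAt (D.x₂ c) φ.2.1 ∧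
        valAt (D.x₃ c) φ.2.2 = mu c * valAt (D.x₂ c) φ.2.1 := by
    intro m
    obtain ⟨lam, mu, h0, h1, -⟩ := exists_twist₃ D.x₁ D.x₂ D.x₃
      (fun c => C.hF₁.deg_eq_one _) (fun c => C.hF₂.deg_eq_one _) (fun c => C.hF₃.deg_eq_one _)
      (V m) (fun φ hφ c => (hreg m φ hφ c).1.1) (fun φ hφ c => (hreg m φ hφ c).1.2.1)
      (fun φ hφ c => (hreg m φ hφ c).1.2.2) hn hz.b₁_ne hz.b₂_ne hz.b₃_ne
      (fun φ hφ c => (hreg m φ hφ c).2.1) (fun φ hφ c => (hreg m φ hφ c).2.2)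
    exact ⟨lam, mu, h0, h1⟩
  choose lam mu h0 h1 using hlev
  -- make the twist independent of the level
  have hglob : ∀ c, ∃ l u : IsLocalRing.ResidueField R, (l ≠ 0 ∧ u ≠ 0) ∧
      ∀ m, ∀ φ ∈ V m, valAt (D.x₁ c) φ.1 = l * valAt (D.x₂ c) φ.2.1 ∧
        valAt (D.x₃ c) φ.2.2 = u * valAt (D.x₂ c) φ.2.1 := by
    intro c
    by_cases hex : ∃ m₀, ∃ φ₀ ∈ V m₀, valAt (D.x₂ c) φ₀.2.1 ≠ 0
    · obtain ⟨m₀, φ₀, hφ₀, hα⟩ := hex
      refine ⟨lam m₀ c, mu m₀ c, h0 m₀ c, fun m φ hφ => ?_⟩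
      set M := max m m₀ with hM
      have hφM : φ ∈ V M := hVmono (le_max_left m m₀) hφ
      have hφ₀M : φ₀ ∈ V M := hVmono (le_max_right m m₀) hφ₀
      have e1 : lam M c = lam m₀ c := by
        have a1 := (h1 M φ₀ hφ₀M c).1
        have a2 := (h1 m₀ φ₀ hφ₀ c).1
        exact mul_right_cancel₀ hα (a1.symm.trans a2)
      have e2 : mu M c = mu m₀ c := by
        have a1 := (h1 M φ₀ hφ₀M c).2
        have a2 := (h1 m₀ φ₀ hφ₀ c).2
        exact mul_right_cancel₀ hα (a1.symm.trans a2)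
      rw [← e1, ← e2]
      exact h1 M φ hφM c
    · push Not at hex
      refine ⟨1, 1, ⟨one_ne_zero, one_ne_zero⟩, fun m φ hφ => ?_⟩
      have a := h1 m φ hφ c
      rw [hex m φ hφ, mul_zero, mul_zero] at a
      rw [hex m φ hφ, mul_zero]
      exact a
  choose l u hlu0 hlu using hglob
  refine ⟨l, u, fun c => (hlu0 c).1, fun c => (hlu0 c).2, ?_⟩
  intro a b h hh hO c
  set m := max a b with hm
  have hhm : h ∈ E.𝓔 m m := E.mono (le_max_left a b) (le_max_right a b) hh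
  have hφ : redT D h ∈ V m := ⟨h, hhm, hO, rfl⟩
  obtain ⟨⟨r1, r2, r3⟩, -, -⟩ := hreg m _ hφ c
  have e := hlu c m _ hφ
  refine ⟨valAt (D.x₂ c) (D.red₂ h), ?_, hasValueAt_valAt _ (C.hF₂.deg_eq_one _) r2, ?_⟩
  · have := hasValueAt_valAt _ (C.hF₁.deg_eq_one _) r1
    rw [e.1] at this
    exact this
  · have := hasValueAt_valAt _ (C.hF₃.deg_eq_one _) r3
    rw [e.2] at this
    exact this

/-! ### uniqueness and multiplicativity of the twist (given a function with `red₂ = 1`) -/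

section Unique

variable {D : ThickDatum R F F₁ F₂ F₃} {g n : ℕ}

/-- **uniqueness of the twist**: if some `f ∈ 𝓔 a b ∩ O` has `red₂ f = 1` (`NondegStatement`), two
twists of the same Kummer family coincide. -/
theorem IsTwist.eq_of_exists_one {z : F} {E : KummerFamily D g n z}
    {lam mu lam' mu' : Fin D.s → IsLocalRing.ResidueField R}
    (ht : IsTwist D E lam mu) (ht' : IsTwist D E lam' mu')
    (hone : ∃ a b : ℕ, ∃ f ∈ E.𝓔 a b, f ∈ D.O ∧ D.red₂ f = 1) : lam = lam' ∧ mu = mu' := by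
  obtain ⟨a, b, f, hf, hO, h1⟩ := hone
  have key : ∀ c, lam c = lam' c ∧ mu c = mu' c := by
    intro c
    obtain ⟨α, v1, v2, v3⟩ := ht a b f hf hO c
    obtain ⟨α', v1', v2', v3'⟩ := ht' a b f hf hO c
    rw [h1] at v2 v2'
    have eα : α = 1 := v2.unique Fermat.Agent.LSb.hasValueAt_one
    have eα' : α' = 1 := v2'.unique Fermat.Agent.LSb.hasValueAt_one
    rw [eα, mul_one] at v1 v3
    rw [eα', mul_one] at v1' v3'
    exact ⟨v1.unique v1', v3.unique v3'⟩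
  exact ⟨funext fun c => (key c).1, funext fun c => (key c).2⟩

/-- **multiplicativity of the twist**: for Kummer families `E, E', E''` of `z, z', z z'` with
`𝓔 · 𝓔' ⊆ 𝓔''`, twists multiply (given functions with `red₂ = 1` in `𝓔` and `𝓔'`). -/
theorem IsTwist.mul_of_exists_one {z z' : F} {E : KummerFamily D g n z}
    {E' : KummerFamily D g n z'} {E'' : KummerFamily D g n (z * z')}
    (hprod : ∀ {a b a' b' : ℕ} {h h' : F}, h ∈ E.𝓔 a b → h' ∈ E'.𝓔 a' b' →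
      h * h' ∈ E''.𝓔 (a + a') (b + b'))
    {lam mu lam' mu' lam'' mu'' : Fin D.s → IsLocalRing.ResidueField R}
    (ht : IsTwist D E lam mu) (ht' : IsTwist D E' lam' mu') (ht'' : IsTwist D E'' lam'' mu'')
    (hone : ∃ a b : ℕ, ∃ f ∈ E.𝓔 a b, f ∈ D.O ∧ D.red₂ f = 1)
    (hone' : ∃ a b : ℕ, ∃ f ∈ E'.𝓔 a b, f ∈ D.O ∧ D.red₂ f = 1) :
    lam'' = lam * lam' ∧ mu'' = mu * mu' := by
  obtain ⟨a, b, f, hf, hO, h1⟩ := hone
  obtain ⟨a', b', f', hf', hO', h1'⟩ := hone'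
  obtain ⟨f1, f2, f3⟩ := ThickDatum.mem_O.1 hO
  obtain ⟨f1', f2', f3'⟩ := ThickDatum.mem_O.1 hO'
  have key : ∀ c, lam'' c = lam c * lam' c ∧ mu'' c = mu c * mu' c := by
    intro c
    obtain ⟨α, v1, v2, v3⟩ := ht a b f hf hO c
    obtain ⟨α', v1', v2', v3'⟩ := ht' a' b' f' hf' hO' c
    obtain ⟨β, w1, w2, w3⟩ := ht'' _ _ (f * f') (hprod hf hf') (D.O.mul_mem hO hO') c
    rw [h1] at v2
    rw [h1'] at v2'
    have eα : α = 1 := v2.unique Fermat.Agent.LSb.hasValueAt_one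
    have eα' : α' = 1 := v2'.unique Fermat.Agent.LSb.hasValueAt_one
    rw [eα, mul_one] at v1 v3
    rw [eα', mul_one] at v1' v3'
    rw [red₂_mul D f2 f2', h1, h1', mul_one] at w2
    have eβ : β = 1 := w2.unique Fermat.Agent.LSb.hasValueAt_one
    rw [eβ, mul_one, D.V₁.redF_mul f1 f1'] at w1
    rw [eβ, mul_one, D.V₃.redF_mul f3 f3'] at w3
    exact ⟨w1.unique (v1.mul v1'), w3.unique (v3.mul v3')⟩
  exact ⟨funext fun c => (key c).1, funext fun c => (key c).2⟩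

end Unique

end Fermat.Agent.S36lib.Thick
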