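/-
S36lib / Thick / Struct  (helper5)

The TWISTED symbol inclusions of a thick datum: for a Kummer family `𝓔` of a tri-unit `z`
(`red_i z = b_i` nonzero constants, `n` prime to the residue characteristic) the symbol images of
`𝓔 a b` along the chain of `Thick/Chain.lean` lie in the symbol targets `C.T ν i a b` of
`Thick/Tgt.lean` for a suitable twist `ν` of the outer pair.

Everything is the POWER TRICK: for `h ∈ 𝓔 a b` the function `f = hⁿ z` lies in `𝓛 (n a) (n b)`, its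
symbols are `b_i · (symbol of h)ⁿ`, and the untwisted inclusions of `Thick/Incl.lean` for `f` give
the pole bounds for `h` after dividing all orders by `n`.

* (B0) `kummer_chart₁/₂/₃`     : `red_i h ∈ L(D̄_i a b)` for `h ∈ 𝓔 a b ∩ O`;
* (B1) `kummer_outer`          : level `1`: pole bounds, regularity at the triple points and
                                 `b₁ ψ₁(x₁ c)ⁿ = b₃ ψ₃(x₃ c)ⁿ` for `ψ_i = red_i (h / ϖ)`;
* (Bj) `kummer_mid_mem`        : level `j + 1`: `red₂ (h / ϖʲ) ∈ L(W_j + D̄₂ a b)`;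
* EXPORT 1 `exists_symImage_le`: `∃ ν ≠ 0, ∀ i < e + 1, symImage i (𝓔 a b) ≤ T ν i a b`;
* EXPORT 2 `symImage_le_of_isTwist` : if `(lam, mu)` is a twist of `𝓔` and some `h₀ ∈ 𝓔 a₀ b₀ ∩ O`
  has `red₂ h₀ = 1` then `ν = mu / lam` works for all `(a, b)`.

Both exports are restated for dot notation on the Kummer family (`KummerFamily.exists_symImage_le`,
`KummerFamily.symImage_le_of_isTwist`).
-/
import Fermat.Agent.S36lib.Thick.Tgt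
import Fermat.Agent.S36lib.Thick.Twist

set_option autoImplicit false
set_option linter.unusedSectionVars false

noncomputable section

namespace Fermat.Agent.S36lib.Thick

open AlgebraicCurve Module
open Fermat.Agent.LSb (HasValueAt)
open Fermat.Agent.LSb.Core (lin2 lin2_apply nodalSpace GluedAt VanishAt valAt)
open Fermat.Agent.S18lib.Cech (mem_rr_of_ne ord_pow ord_const)
open Twist

namespace Struct

/-- **dividing pole orders by `n`**: if `wⁿ · b` (`b ≠ 0` constant) lies in `L(n E)` then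
`w ∈ L(E)`. -/
theorem mem_rr_of_pow_mul_const {k Fk : Type*} [Field k] [Field Fk] [Algebra k Fk]
    {E E' : Divisor k Fk} {n : ℕ} (hn : n ≠ 0) (hE : ∀ v, E' v = (n : ℤ) * E v) {w : Fk} {b : k}
    (hb : b ≠ 0) (h : w ^ n * algebraMap k Fk b ∈ riemannRochSpace E') :
    w ∈ riemannRochSpace E := by
  rcases eq_or_ne w 0 with rfl | hw
  · exact Submodule.zero_mem _
  have hbF : algebraMap k Fk b ≠ 0 := (map_ne_zero _).2 hb
  have hne : w ^ n * algebraMap k Fk b ≠ 0 := mul_ne_zero (pow_ne_zero _ hw) hbF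
  rw [mem_rr_of_ne hw]
  intro v
  have := (mem_rr_of_ne hne).1 h v
  rw [v.ord_mul (pow_ne_zero _ hw) hbF, ord_pow, ord_const, add_zero, hE] at this
  have hn' : (0 : ℤ) < n := by exact_mod_cast Nat.pos_of_ne_zero hn
  have h2 : (n : ℤ) * (-(E v)) ≤ (n : ℤ) * v.ord w := by linarith
  exact le_of_mul_le_mul_left h2 hn'

theorem ne_zero_of_natCast_ne_zero {A : Type*} [AddMonoidWithOne A] {n : ℕ} (hn : (n : A) ≠ 0) :
    n ≠ 0 := by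
  rintro rfl
  exact hn Nat.cast_zero

end Struct

variable {K : Type*} [Field K] {R : ValuationSubring K}
variable {F : Type*} [Field F] [Algebra K F]
variable {F₁ F₂ F₃ : Type*} [Field F₁] [Field F₂] [Field F₃]
variable [Algebra (IsLocalRing.ResidueField R) F₁] [Algebra (IsLocalRing.ResidueField R) F₂]
variable [Algebra (IsLocalRing.ResidueField R) F₃]

local notation "k" => IsLocalRing.ResidueField R

namespace ThickCtx

variable {D : ThickDatum R F F₁ F₂ F₃} {g g₁ g₂ g₃ : ℕ} (C : ThickCtx D g g₁ g₂ g₃)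
variable {n : ℕ} (hn : (n : IsLocalRing.ResidueField R) ≠ 0) {z : F} (E : KummerFamily D g n z)
variable {b₁ b₂ b₃ : IsLocalRing.ResidueField R} (hz : IsTriUnit D z b₁ b₂ b₃)

include C hn hz

/-! ### the power trick -/

/-- `hⁿ z ∈ 𝓛 (n a) (n b)` for `h ∈ 𝓔 a b` -/
theorem kummer_pow_mem {a b : ℕ} {h : F} (hh : h ∈ E.𝓔 a b) :
    h ^ n * z ∈ D.𝓛 (n * a) (n * b) := by
  have hn0 : n ≠ 0 := Struct.ne_zero_of_natCast_ne_zero hn
  have hf := E.mixed_mem hh hh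
  have hpow : h * h ^ (n - 1) = h ^ n := by
    rw [← pow_succ', Nat.sub_add_cancel (Nat.pos_of_ne_zero hn0)]
  rw [hpow] at hf
  have e : ∀ a : ℕ, a + (n - 1) * a = n * a := by
    intro a
    obtain ⟨m, rfl⟩ : ∃ m, n = m + 1 := ⟨n - 1, by omega⟩
    rw [Nat.add_sub_cancel]; ring
  rwa [e, e] at hf

/-- `hⁿ z ∈ I(n α, n β, n γ)` for `h ∈ I(α, β, γ)` -/
theorem kummer_pow_I {α β γ : ℤ} {h : F} (hI : C.I α β γ h) :
    C.I (n * α) (n * β) (n * γ) (h ^ n * z) :=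
  (hI.pow n).mul_mem_O (IsTriUnit.mem_O hz)

/-! ### (B0): the chart inclusions for the Kummer lattices -/

theorem kummer_chart₁ {a b : ℕ} {h : F} (hh : h ∈ E.𝓔 a b) (hO : h ∈ D.O) :
    D.V₁.redF h ∈ riemannRochSpace (D.chartDiv₁ a b) := by
  have hn0 : n ≠ 0 := Struct.ne_zero_of_natCast_ne_zero hn
  obtain ⟨h1, h2, h3⟩ := ThickDatum.mem_O.1 hO
  have hzO := IsTriUnit.mem_O hz
  obtain ⟨z1, z2, z3⟩ := ThickDatum.mem_O.1 hzO
  have hf := C.kummer_pow_mem hn E hz hh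
  have hfO : h ^ n * z ∈ D.O := D.O.mul_mem (D.O.pow_mem hO n) hzO
  have hch := C.chart₁ _ _ _ hf hfO
  rw [D.V₁.redF_mul (D.V₁.O.pow_mem h1 n) z1, D.V₁.redF_pow h1, hz.red₁] at hch
  exact Struct.mem_rr_of_pow_mul_const hn0 (fun v => C.chartDiv₁_mul n a b v) hz.b₁_ne hch

theorem kummer_chart₂ {a b : ℕ} {h : F} (hh : h ∈ E.𝓔 a b) (hO : h ∈ D.O) :
    D.red₂ h ∈ riemannRochSpace (D.chartDiv₂ a b) := by
  have hn0 : n ≠ 0 := Struct.ne_zero_of_natCast_ne_zero hn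
  obtain ⟨h1, h2, h3⟩ := ThickDatum.mem_O.1 hO
  have hzO := IsTriUnit.mem_O hz
  obtain ⟨z1, z2, z3⟩ := ThickDatum.mem_O.1 hzO
  have hf := C.kummer_pow_mem hn E hz hh
  have hfO : h ^ n * z ∈ D.O := D.O.mul_mem (D.O.pow_mem hO n) hzO
  have hch := C.chart₂ _ _ _ hf hfO
  rw [red₂_mul D (D.V₂.O.pow_mem h2 n) z2, red₂_pow D h2, hz.red₂] at hch
  exact Struct.mem_rr_of_pow_mul_const hn0 (fun v => C.chartDiv₂_mul n a b v) hz.b₂_ne hch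

theorem kummer_chart₃ {a b : ℕ} {h : F} (hh : h ∈ E.𝓔 a b) (hO : h ∈ D.O) :
    D.V₃.redF h ∈ riemannRochSpace (D.chartDiv₃ a b) := by
  have hn0 : n ≠ 0 := Struct.ne_zero_of_natCast_ne_zero hn
  obtain ⟨h1, h2, h3⟩ := ThickDatum.mem_O.1 hO
  have hzO := IsTriUnit.mem_O hz
  obtain ⟨z1, z2, z3⟩ := ThickDatum.mem_O.1 hzO
  have hf := C.kummer_pow_mem hn E hz hh
  have hfO : h ^ n * z ∈ D.O := D.O.mul_mem (D.O.pow_mem hO n) hzO
  have hch := C.chart₃ _ _ _ hf hfO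
  rw [D.V₃.redF_mul (D.V₃.O.pow_mem h3 n) z3, D.V₃.redF_pow h3, hz.red₃] at hch
  exact Struct.mem_rr_of_pow_mul_const hn0 (fun v => C.chartDiv₃_mul n a b v) hz.b₃_ne hch

/-! ### (B1): level one, the outer pair -/

/-- **(B1)**: for `h ∈ 𝓔 a b ∩ I(0,1,0)` the outer symbols `ψ_i = red_i (h / ϖ)` lie in
`L(B_i + D̄_i a b)`, are regular at the triple points and `b₁ ψ₁(x₁ c)ⁿ = b₃ ψ₃(x₃ c)ⁿ`. -/
theorem kummer_outer {a b : ℕ} {h : F} (hh : h ∈ E.𝓔 a b) (hI : C.I 0 1 0 h) :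
    D.V₁.redF (h * D.ϖ⁻¹) ∈ riemannRochSpace (C.B₁ + D.chartDiv₁ a b) ∧
    D.V₃.redF (h * D.ϖ⁻¹) ∈ riemannRochSpace (C.B₃ + D.chartDiv₃ a b) ∧
    ∀ c, D.V₁.redF (h * D.ϖ⁻¹) ∈ (D.x₁ c).toValuationSubring ∧
      D.V₃.redF (h * D.ϖ⁻¹) ∈ (D.x₃ c).toValuationSubring ∧
      b₁ * valAt (D.x₁ c) (D.V₁.redF (h * D.ϖ⁻¹)) ^ n =
        b₃ * valAt (D.x₃ c) (D.V₃.redF (h * D.ϖ⁻¹)) ^ n := by
  have hn0 : n ≠ 0 := Struct.ne_zero_of_natCast_ne_zero hn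
  have hzO := IsTriUnit.mem_O hz
  obtain ⟨z1, z2, z3⟩ := ThickDatum.mem_O.1 hzO
  have hf := C.kummer_pow_mem hn E hz hh
  have hI' : C.I 0 ((n : ℕ) : ℤ) 0 (h ^ n * z) := by
    have := C.kummer_pow_I hn hz hI
    simpa using this
  have hy₁ : h * D.ϖ⁻¹ ∈ D.V₁.O :=
    D.V₁.O.mul_mem _ _ ((C.W₁.ge_zero_iff).1 hI.1) C.unif_inv_mem₁
  have hy₃ : h * D.ϖ⁻¹ ∈ D.V₃.O :=
    D.V₃.O.mul_mem _ _ ((C.W₃.ge_zero_iff).1 hI.2.2) C.unif_inv_mem₃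
  have e0 : h ^ n * z * D.ϖ ^ (-((n : ℕ) : ℤ)) = (h * D.ϖ⁻¹) ^ n * z := by
    rw [zpow_neg, zpow_natCast, mul_pow, inv_pow]; ring
  have e₁ : D.V₁.redF (h ^ n * z * D.ϖ ^ (-((n : ℕ) : ℤ))) =
      D.V₁.redF (h * D.ϖ⁻¹) ^ n * algebraMap k F₁ b₁ := by
    rw [e0, D.V₁.redF_mul (D.V₁.O.pow_mem hy₁ n) z1, D.V₁.redF_pow hy₁, hz.red₁]
  have e₃ : D.V₃.redF (h ^ n * z * D.ϖ ^ (-((n : ℕ) : ℤ))) =
      D.V₃.redF (h * D.ϖ⁻¹) ^ n * algebraMap k F₃ b₃ := by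
    rw [e0, D.V₃.redF_mul (D.V₃.O.pow_mem hy₃ n) z3, D.V₃.redF_pow hy₃, hz.red₃]
  obtain ⟨m1, m3, hg⟩ := C.outer_mem hf hI'
  simp only at m1 m3
  rw [e₁] at m1
  rw [e₃] at m3
  refine ⟨Struct.mem_rr_of_pow_mul_const hn0 (fun v => ?_) hz.b₁_ne m1,
    Struct.mem_rr_of_pow_mul_const hn0 (fun v => ?_) hz.b₃_ne m3, fun c => ?_⟩
  · rw [Finsupp.add_apply, Finsupp.add_apply, Finsupp.smul_apply, nsmul_eq_mul, C.chartDiv₁_mul]
    ring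
  · rw [Finsupp.add_apply, Finsupp.add_apply, Finsupp.smul_apply, nsmul_eq_mul, C.chartDiv₃_mul]
    ring
  · obtain ⟨γ, v1, v3⟩ := hg c
    simp only [Pi.one_apply, one_mul] at v1 v3
    rw [e₁] at v1
    rw [e₃] at v3
    obtain ⟨r1, q1⟩ := regular_of_pow_mul_const (C.hF₁.deg_eq_one _) hn0 hz.b₁_ne v1
    obtain ⟨r3, q3⟩ := regular_of_pow_mul_const (C.hF₃.deg_eq_one _) hn0 hz.b₃_ne v3
    exact ⟨r1, r3, q1.trans q3.symm⟩

/-- criterion for the level one inclusion: the outer symbols of `𝓔 a b` are `ν`-glued -/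
theorem symImage_one_le_of {a b : ℕ} (ν : Fin D.s → k)
    (hν : ∀ h ∈ E.𝓔 a b, C.I 0 1 0 h → ∀ c, valAt (D.x₃ c) (D.V₃.redF (h * D.ϖ⁻¹)) =
      ν c * valAt (D.x₁ c) (D.V₁.redF (h * D.ϖ⁻¹))) :
    C.filtSys.symImage 1 (E.𝓔 a b) ≤ C.T ν 1 a b := by
  rintro φ ⟨f, hf, hc, rfl⟩
  rw [filtSys_𝔠, chain_one, mem_Isub] at hc
  rw [filtSys_sy, C.T_one, sy_one, C.mk_mem_Tout]
  obtain ⟨m1, m3, hreg⟩ := C.kummer_outer hn E hz hf hc
  refine ⟨m1, m3, fun c => ?_⟩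
  obtain ⟨r1, r3, -⟩ := hreg c
  refine ⟨valAt (D.x₁ c) (D.V₁.redF (f * D.ϖ⁻¹)), hasValueAt_valAt _ (C.hF₁.deg_eq_one _) r1, ?_⟩
  have := hasValueAt_valAt _ (C.hF₃.deg_eq_one _) r3
  rw [hν f hf hc c] at this
  exact this

/-- level one of EXPORT 1 -/
theorem exists_symImage_one_le (a b : ℕ) : ∃ ν : Fin D.s → k, (∀ c, ν c ≠ 0) ∧
    C.filtSys.symImage 1 (E.𝓔 a b) ≤ C.T ν 1 a b := by
  have hn0 : n ≠ 0 := Struct.ne_zero_of_natCast_ne_zero hn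
  -- the `k`-space of outer pairs
  set V : Submodule k (F₁ × F₃) :=
    (C.filtSys.symImage 1 (E.𝓔 a b)).comap (outEmb k F₁ F₂ F₃) with hV
  have hmem : ∀ φ ∈ V, ∃ h ∈ E.𝓔 a b, C.I 0 1 0 h ∧
      φ = (D.V₁.redF (h * D.ϖ⁻¹), D.V₃.redF (h * D.ϖ⁻¹)) := by
    rintro φ ⟨h, hh, hc, hφ⟩
    rw [filtSys_𝔠, chain_one, mem_Isub] at hc
    rw [filtSys_sy, sy_one, outEmb_apply] at hφ
    refine ⟨h, hh, hc, ?_⟩
    have h1 := congrArg (fun t : F₁ × F₂ × F₃ => t.1) hφ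
    have h2 := congrArg (fun t : F₁ × F₂ × F₃ => t.2.2) hφ
    exact Prod.ext h1.symm h2.symm
  obtain ⟨ν, hν0, hν, -⟩ := exists_twist₂ D.x₁ D.x₃
    (fun c => C.hF₁.deg_eq_one _) (fun c => C.hF₃.deg_eq_one _) V
    (fun φ hφ c => by
      obtain ⟨h, hh, hI, rfl⟩ := hmem φ hφ
      exact ((C.kummer_outer hn E hz hh hI).2.2 c).1)
    (fun φ hφ c => by
      obtain ⟨h, hh, hI, rfl⟩ := hmem φ hφ
      exact ((C.kummer_outer hn E hz hh hI).2.2 c).2.1)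
    hn0 hz.b₁_ne hz.b₃_ne
    (fun φ hφ c => by
      obtain ⟨h, hh, hI, rfl⟩ := hmem φ hφ
      exact ((C.kummer_outer hn E hz hh hI).2.2 c).2.2)
  refine ⟨ν, hν0, C.symImage_one_le_of hn E hz ν fun h hh hI c => ?_⟩
  have hφ : (D.V₁.redF (h * D.ϖ⁻¹), D.V₃.redF (h * D.ϖ⁻¹)) ∈ V := by
    refine ⟨h, hh, ?_, ?_⟩
    · rw [filtSys_𝔠, chain_one, mem_Isub]; exact hI
    · rw [filtSys_sy, sy_one, outEmb_apply]
  exact hν _ hφ c

/-! ### (B0) at level zero and (Bj): the middle symbols -/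

/-- level zero: `symImage 0 (𝓔 a b) ≤ T ν 0 a b` -/
theorem kummer_symImage_zero_le (ν : Fin D.s → k) (a b : ℕ) :
    C.filtSys.symImage 0 (E.𝓔 a b) ≤ C.T ν 0 a b := by
  rintro φ ⟨f, hf, hc, rfl⟩
  rw [filtSys_𝔠, chain_zero, mem_Isub, I_zero_iff] at hc
  rw [filtSys_sy, C.T_zero, sy_zero, mk_mem_Tmid, zero_add]
  exact C.kummer_chart₂ hn E hz hf hc

/-- **(Bj)**: for `h ∈ 𝓔 a b ∩ 𝔟_j` (`0 < j < e`) the symbol `red₂ (h / ϖʲ)` lies in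
`L(W_j + D̄₂ a b)`. -/
theorem kummer_mid_mem {a b j : ℕ} (_hj : 0 < j) (hje : j < D.e) {h : F} (hh : h ∈ E.𝓔 a b)
    (hI : C.I 1 j 1 h) : C.W₂.sym j h ∈ riemannRochSpace (C.Wd j + D.chartDiv₂ a b) := by
  have hn0 : n ≠ 0 := Struct.ne_zero_of_natCast_ne_zero hn
  have hn' : (0 : ℤ) < n := by exact_mod_cast Nat.pos_of_ne_zero hn0
  rcases eq_or_ne (C.W₂.sym j h) 0 with h0 | h0
  · rw [h0]; exact Submodule.zero_mem _
  have hzO := IsTriUnit.mem_O hz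
  obtain ⟨z1, z2, z3⟩ := ThickDatum.mem_O.1 hzO
  have hf := C.kummer_pow_mem hn E hz hh
  have hI' : C.I ((n : ℕ) : ℤ) ((n * j : ℕ) : ℤ) ((n : ℕ) : ℤ) (h ^ n * z) := by
    have := C.kummer_pow_I hn hz hI
    simpa using this
  have hβ : n * j ≤ D.e * n := by
    rw [mul_comm D.e n]; exact Nat.mul_le_mul_left n hje.le
  have hsym : C.W₂.sym ((n * j : ℕ) : ℤ) (h ^ n * z) = C.W₂.sym j h ^ n * algebraMap k F₂ b₂ := by
    have h1 := DVal.sym_mul_mem (hI.2.1.pow n) (show z ∈ C.W₂.O from z2)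
    rw [DVal.sym_pow hI.2.1, C.W₂_redF, hz.red₂] at h1
    have e : ((n * j : ℕ) : ℤ) = (n : ℤ) * (j : ℤ) := by push_cast; ring
    rw [e]; exact h1
  have hbF : algebraMap k F₂ b₂ ≠ 0 := (map_ne_zero _).2 hz.b₂_ne
  have hψ : C.W₂.sym ((n * j : ℕ) : ℤ) (h ^ n * z) ≠ 0 := by
    rw [hsym]; exact mul_ne_zero (pow_ne_zero _ h0) hbF
  obtain ⟨h1, h2⟩ := C.mid_bounds hβ hf hI' hψ
  have hord : ∀ v : Place k F₂, v.ord (C.W₂.sym ((n * j : ℕ) : ℤ) (h ^ n * z)) =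
      (n : ℤ) * v.ord (C.W₂.sym j h) := by
    intro v
    rw [hsym, v.ord_mul (pow_ne_zero _ h0) hbF, ord_pow, ord_const, add_zero]
  rw [mem_rr_of_ne h0]
  intro v
  rw [Finsupp.add_apply]
  by_cases hv : ∃ c, D.x₂ c = v
  · obtain ⟨c, rfl⟩ := hv
    rw [C.Wd_apply_self, C.chartDiv₂_x₂, add_zero]
    have := h2 c
    rw [hord] at this
    have h3 : (n : ℤ) * (-(D.x₂ c).ord C.κ) ≤ (n : ℤ) * (D.x₂ c).ord (C.W₂.sym j h) := by
      simpa using this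
    exact le_of_mul_le_mul_left h3 hn'
  · push Not at hv
    rw [C.Wd_apply_of_ne j hv]
    have h3 := h1 v
    rw [hord, C.chartDiv₂_mul] at h3
    have h4 : (n : ℤ) * (-((j : ℤ) * v.ord C.κ)) ≤
        (n : ℤ) * ((D.e : ℤ) * (v.ord (C.W₂.sym j h) + D.chartDiv₂ a b v)) := by
      push_cast at h3
      linarith
    have h5 := le_of_mul_le_mul_left h4 hn'
    have := neg_ediv_le_of_le_mul C.e_pos h5
    linarith

/-- the levels `≥ 2`: `symImage (j + 2) (𝓔 a b) ≤ T ν (j + 2) a b` -/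
theorem kummer_symImage_add_two_le (ν : Fin D.s → k) {j : ℕ} (hj : j + 2 < D.e + 1) (a b : ℕ) :
    C.filtSys.symImage (j + 2) (E.𝓔 a b) ≤ C.T ν (j + 2) a b := by
  rintro φ ⟨f, hf, hc, rfl⟩
  rw [filtSys_𝔠, chain_add_two, mem_Isub] at hc
  rw [filtSys_sy, C.T_add_two, sy_add_two, mk_mem_Tmid]
  have e : ((j + 1 : ℕ) : ℤ) = (j : ℤ) + 1 := by push_cast; rfl
  have hI : C.I 1 ((j + 1 : ℕ) : ℤ) 1 f := by rw [e]; exact hc
  have := C.kummer_mid_mem hn E hz (j := j + 1) (by omega) (by omega) hf hI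
  rwa [e] at this

/-- all levels, given the level one inclusion -/
theorem kummer_symImage_le_of_one {ν : Fin D.s → k} {a b : ℕ}
    (h1 : C.filtSys.symImage 1 (E.𝓔 a b) ≤ C.T ν 1 a b) :
    ∀ i, i < D.e + 1 → C.filtSys.symImage i (E.𝓔 a b) ≤ C.T ν i a b := by
  intro i hi
  rcases i with _ | _ | j
  · exact C.kummer_symImage_zero_le hn E hz ν a b
  · exact h1
  · exact C.kummer_symImage_add_two_le hn E hz ν hi a b

/-! ### EXPORT 1 -/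

/-- **EXPORT 1**: the symbol images of a Kummer lattice lie in the symbol targets for a suitable
twist `ν` of the outer pair. -/
theorem exists_symImage_le (a b : ℕ) : ∃ ν : Fin D.s → k, (∀ c, ν c ≠ 0) ∧
    ∀ i, i < D.e + 1 → C.filtSys.symImage i (E.𝓔 a b) ≤ C.T ν i a b := by
  obtain ⟨ν, hν0, h1⟩ := C.exists_symImage_one_le hn E hz a b
  exact ⟨ν, hν0, C.kummer_symImage_le_of_one hn E hz h1⟩

/-! ### EXPORT 2 -/

/-- **EXPORT 2 (the twist is the expected one)**: if `(lam, mu)` is a twist of `𝓔` and some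
`h₀ ∈ 𝓔 a₀ b₀ ∩ O` has `red₂ h₀ = 1`, the symbol images of ALL `𝓔 a b` lie in the targets for
`ν = mu / lam`. -/
theorem symImage_le_of_isTwist {lam mu : Fin D.s → k} (hT : IsTwist D E lam mu)
    (hlam : ∀ c, lam c ≠ 0) (hmu : ∀ c, mu c ≠ 0) {a₀ b₀ : ℕ} {h₀ : F} (hh₀ : h₀ ∈ E.𝓔 a₀ b₀)
    (hO₀ : h₀ ∈ D.O) (hone : D.red₂ h₀ = 1) (a b : ℕ) :
    ∀ i, i < D.e + 1 → C.filtSys.symImage i (E.𝓔 a b) ≤ C.T (fun c => mu c / lam c) i a b := by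
  have hn0 : n ≠ 0 := Struct.ne_zero_of_natCast_ne_zero hn
  have hzO := IsTriUnit.mem_O hz
  obtain ⟨z1, z2, z3⟩ := ThickDatum.mem_O.1 hzO
  obtain ⟨p1, p2, p3⟩ := ThickDatum.mem_O.1 hO₀
  -- the values of the reductions of `h₀` at the triple points
  have hval : ∀ c, HasValueAt (D.x₁ c) (D.V₁.redF h₀) (lam c) ∧
      HasValueAt (D.x₃ c) (D.V₃.redF h₀) (mu c) := by
    intro c
    obtain ⟨α, v1, v2, v3⟩ := hT a₀ b₀ h₀ hh₀ hO₀ c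
    rw [hone] at v2
    have eα : α = 1 := v2.unique Fermat.Agent.LSb.hasValueAt_one
    rw [eα, mul_one] at v1 v3
    exact ⟨v1, v3⟩
  -- `b₁ lamⁿ = b₃ muⁿ`
  have hrel : ∀ c, b₁ * lam c ^ n = b₃ * mu c ^ n := by
    intro c
    obtain ⟨-, q1, q3⟩ := glue_pow C hn0 E hz hh₀ hO₀ c
    rw [valAt_eq_of_hasValueAt (hval c).1] at q1
    rw [valAt_eq_of_hasValueAt (hval c).2] at q3
    exact q1.trans q3.symm
  refine C.kummer_symImage_le_of_one hn E hz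
    (C.symImage_one_le_of hn E hz _ fun h hh hI c => ?_)
  obtain ⟨-, -, hreg⟩ := C.kummer_outer hn E hz hh hI
  obtain ⟨r1, r3, -⟩ := hreg c
  -- the mixed function `f = h h₀ⁿ⁻¹ z`
  have hf := E.mixed_mem hh hh₀
  have hwO : h₀ ^ (n - 1) * z ∈ D.O := D.O.mul_mem (D.O.pow_mem hO₀ _) hzO
  have hfI : C.I 0 ((1 : ℕ) : ℤ) 0 (h * h₀ ^ (n - 1) * z) := by
    have := hI.mul_mem_O hwO
    rw [← mul_assoc] at this
    simpa using this
  obtain ⟨γ, w1, w3⟩ := C.outer_hasValueAt hf hfI c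
  have hy₁ : h * D.ϖ⁻¹ ∈ D.V₁.O :=
    D.V₁.O.mul_mem _ _ ((C.W₁.ge_zero_iff).1 hI.1) C.unif_inv_mem₁
  have hy₃ : h * D.ϖ⁻¹ ∈ D.V₃.O :=
    D.V₃.O.mul_mem _ _ ((C.W₃.ge_zero_iff).1 hI.2.2) C.unif_inv_mem₃
  have e0 : h * h₀ ^ (n - 1) * z * D.ϖ ^ (-((1 : ℕ) : ℤ)) = h * D.ϖ⁻¹ * h₀ ^ (n - 1) * z := by
    rw [Nat.cast_one, zpow_neg, zpow_one]; ring
  rw [e0, D.V₁.redF_mul (D.V₁.O.mul_mem _ _ hy₁ (D.V₁.O.pow_mem p1 _)) z1,
    D.V₁.redF_mul hy₁ (D.V₁.O.pow_mem p1 _), D.V₁.redF_pow p1, hz.red₁] at w1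
  rw [e0, D.V₃.redF_mul (D.V₃.O.mul_mem _ _ hy₃ (D.V₃.O.pow_mem p3 _)) z3,
    D.V₃.redF_mul hy₃ (D.V₃.O.pow_mem p3 _), D.V₃.redF_pow p3, hz.red₃] at w3
  -- compare with the product of the values
  have u1 := ((hasValueAt_valAt _ (C.hF₁.deg_eq_one _) r1).mul ((hval c).1.pow (n - 1))).mul
    (Fermat.Agent.LSb.hasValueAt_const (Q := D.x₁ c) b₁)
  have u3 := ((hasValueAt_valAt _ (C.hF₃.deg_eq_one _) r3).mul ((hval c).2.pow (n - 1))).mul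
    (Fermat.Agent.LSb.hasValueAt_const (Q := D.x₃ c) b₃)
  have q1 := w1.unique u1
  have q3 := w3.unique u3
  -- `ψ₁ lamⁿ⁻¹ b₁ = ψ₃ muⁿ⁻¹ b₃`, `b₁ lamⁿ = b₃ muⁿ`
  set ψ₁ := valAt (D.x₁ c) (D.V₁.redF (h * D.ϖ⁻¹)) with hψ₁
  set ψ₃ := valAt (D.x₃ c) (D.V₃.redF (h * D.ϖ⁻¹)) with hψ₃
  have hl := hlam c
  have hm := hmu c
  have key : ψ₁ * lam c ^ (n - 1) * b₁ = ψ₃ * mu c ^ (n - 1) * b₃ := q1.symm.trans q3
  have hrel' := hrel c
  obtain ⟨m, rfl⟩ : ∃ m, n = m + 1 := ⟨n - 1, by omega⟩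
  rw [Nat.add_sub_cancel] at key
  rw [pow_succ, pow_succ] at hrel'
  -- `ψ₃ = (mu / lam) ψ₁`
  have hb₃ := hz.b₃_ne
  have hmm : mu c ^ m ≠ 0 := pow_ne_zero _ hm
  have h5 : ψ₃ * (mu c ^ m * b₃) * lam c = mu c * ψ₁ * (mu c ^ m * b₃) := by
    have : ψ₃ * (mu c ^ m * b₃) * lam c = ψ₁ * (b₁ * (lam c ^ m * lam c)) := by
      linear_combination (-(lam c)) * key
    rw [this, hrel']
    ring
  have h6 : ψ₃ * lam c = mu c * ψ₁ := by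
    have h7 : mu c ^ m * b₃ ≠ 0 := mul_ne_zero hmm hb₃
    have : (ψ₃ * lam c) * (mu c ^ m * b₃) = (mu c * ψ₁) * (mu c ^ m * b₃) := by
      linear_combination h5
    exact mul_right_cancel₀ h7 this
  show ψ₃ = mu c / lam c * ψ₁
  field_simp
  linear_combination h6

end ThickCtx

/-! ### the exports in dot notation on the Kummer family -/

namespace KummerFamily

variable {D : ThickDatum R F F₁ F₂ F₃} {g g₁ g₂ g₃ : ℕ} {n : ℕ} {z : F}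

/-- **EXPORT 1** -/
theorem exists_symImage_le (E : KummerFamily D g n z) (C : ThickCtx D g g₁ g₂ g₃)
    (hn : (n : k) ≠ 0) {b₁ b₂ b₃ : k} (hz : IsTriUnit D z b₁ b₂ b₃) (a b : ℕ) :
    ∃ ν : Fin D.s → k, (∀ c, ν c ≠ 0) ∧
      ∀ i, i < D.e + 1 → C.filtSys.symImage i (E.𝓔 a b) ≤ C.T ν i a b :=
  C.exists_symImage_le hn E hz a b

/-- **EXPORT 2** -/
theorem symImage_le_of_isTwist (E : KummerFamily D g n z) (C : ThickCtx D g g₁ g₂ g₃)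
    (hn : (n : k) ≠ 0) {b₁ b₂ b₃ : k} (hz : IsTriUnit D z b₁ b₂ b₃)
    {lam mu : Fin D.s → k} (hT : IsTwist D E lam mu)
    (hlam : ∀ c, lam c ≠ 0) (hmu : ∀ c, mu c ≠ 0) {a₀ b₀ : ℕ} {h₀ : F} (hh₀ : h₀ ∈ E.𝓔 a₀ b₀)
    (hO₀ : h₀ ∈ D.O) (hone : D.red₂ h₀ = 1) (a b : ℕ) :
    ∀ i, i < D.e + 1 → C.filtSys.symImage i (E.𝓔 a b) ≤ C.T (fun c => mu c / lam c) i a b :=
  C.symImage_le_of_isTwist hn E hz hT hlam hmu hh₀ hO₀ hone a b

end KummerFamily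

end Fermat.Agent.S36lib.Thick
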