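/-
S36lib / Thick / Start  (helper6, WG-C)

The START of the deformation: for a Kummer family with CONSTANT twist `(lam₀, mu₀)` every stable
chart `𝓔 a b` contains a function with the reference reductions `(lam₀, 1, mu₀)`.

(Lift `1` on the middle component, then correct the two outer components by an element of
`𝓔 a b ∩ J`: the pair `((φ₁ - lam₀)/ϖ̄₁, (φ₃ - mu₀)/ϖ̄₃)` lies in the twisted nodal space — by the
power trick applied to `t₀ⁿ z - b₂`.)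
-/
import Fermat.Agent.S36lib.Thick.Split
import Fermat.Agent.S36lib.Thick.Struct
import Fermat.Agent.S36lib.Thick.Doubling

set_option autoImplicit false

noncomputable section

namespace Fermat.Agent.S36lib.Thick

open AlgebraicCurve Module
open Fermat.Agent.LSb (HasValueAt hasValueAt_const hasValueAt_one hasValueAt_zero)
open Fermat.Agent.LSb.Core (lin2 nodalSpace GluedAt lin2_nonneg valAt)
open Fermat.Agent.S18lib.Cech (mem_rr_of_ne mem_rr_iff one_mem_rr)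

/-- values of finite sums -/
theorem hasValueAt_sum {K Fk : Type*} [Field K] [Field Fk] [Algebra K Fk] {Q : Place K Fk}
    {ι : Type*} (s : Finset ι) (z : ι → Fk) (c : ι → K) (h : ∀ i ∈ s, HasValueAt Q (z i) (c i)) :
    HasValueAt Q (∑ i ∈ s, z i) (∑ i ∈ s, c i) := by
  classical
  induction s using Finset.induction_on with
  | empty => simpa using (hasValueAt_zero (Q := Q))
  | insert a s ha ih =>
    rw [Finset.sum_insert ha, Finset.sum_insert ha]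
    exact (h a (Finset.mem_insert_self a s)).add
      (ih fun i hi => h i (Finset.mem_insert_of_mem hi))

/-- `(xⁿ - yⁿ) = (x - y) Σ x^i y^(n-1-i)` with the value of the sum at a place where `x`, `y` have
the common value `l` -/
theorem hasValueAt_geom_sum {K Fk : Type*} [Field K] [Field Fk] [Algebra K Fk] {Q : Place K Fk}
    {x y : Fk} {l : K} (hx : HasValueAt Q x l) (hy : HasValueAt Q y l) (s : ℕ) :
    HasValueAt Q (∑ i ∈ Finset.range (s + 1), x ^ i * y ^ (s - i)) (((s + 1 : ℕ) : K) * l ^ s) := by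
  have h := hasValueAt_sum (Q := Q) (Finset.range (s + 1)) (fun i => x ^ i * y ^ (s - i))
    (fun _ => l ^ s) (fun i hi => by
      have hi' : i ≤ s := Nat.lt_succ_iff.1 (Finset.mem_range.1 hi)
      have := (hx.pow i).mul (hy.pow (s - i))
      rwa [← pow_add, Nat.add_sub_cancel' hi'] at this)
  rwa [Finset.sum_const, Finset.card_range, nsmul_eq_mul] at h

/-- the quotient `(φ - l)/ϖ̄` has a value as soon as `(b φⁿ - b lⁿ)/ϖ̄` has one -/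
theorem hasValueAt_quot {K Fk : Type*} [Field K] [Field Fk] [Algebra K Fk] {Q : Place K Fk}
    {φ ϖb : Fk} {b lam γ : K} (s : ℕ) (hb : b ≠ 0) (hlam : lam ≠ 0) (hs : ((s + 1 : ℕ) : K) ≠ 0)
    (hφ : HasValueAt Q φ lam)
    (hγ : HasValueAt Q
      ((φ ^ (s + 1) * algebraMap K Fk b - algebraMap K Fk (b * lam ^ (s + 1))) * ϖb⁻¹) γ) :
    HasValueAt Q ((φ - algebraMap K Fk lam) * ϖb⁻¹)
      (γ * (b * (((s + 1 : ℕ) : K) * lam ^ s))⁻¹) := by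
  set S := ∑ i ∈ Finset.range (s + 1), φ ^ i * algebraMap K Fk lam ^ (s - i) with hS
  have hSv : HasValueAt Q S (((s + 1 : ℕ) : K) * lam ^ s) :=
    hasValueAt_geom_sum hφ (hasValueAt_const lam) s
  have hgeom : S * (φ - algebraMap K Fk lam) = φ ^ (s + 1) - algebraMap K Fk lam ^ (s + 1) := by
    have := (Commute.all φ (algebraMap K Fk lam)).geom_sum₂_mul (s + 1)
    simpa using this
  have hbS : HasValueAt Q (algebraMap K Fk b * S) (b * (((s + 1 : ℕ) : K) * lam ^ s)) :=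
    (hasValueAt_const b).mul hSv
  have hv0 : b * (((s + 1 : ℕ) : K) * lam ^ s) ≠ 0 :=
    mul_ne_zero hb (mul_ne_zero hs (pow_ne_zero _ hlam))
  have hne : algebraMap K Fk b * S ≠ 0 := hbS.ne_zero hv0
  have e : (φ - algebraMap K Fk lam) * ϖb⁻¹ =
      ((φ ^ (s + 1) * algebraMap K Fk b - algebraMap K Fk (b * lam ^ (s + 1))) * ϖb⁻¹) *
        (algebraMap K Fk b * S)⁻¹ := by
    have e1 : φ ^ (s + 1) * algebraMap K Fk b - algebraMap K Fk (b * lam ^ (s + 1)) =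
        (algebraMap K Fk b * S) * (φ - algebraMap K Fk lam) := by
      rw [mul_assoc, hgeom, map_mul, map_pow]; ring
    rw [e1]
    generalize algebraMap K Fk b * S = u at hne
    field_simp
  rw [e]
  exact hγ.mul (hbS.inv hv0)

variable {K : Type*} [Field K] {R : ValuationSubring K}
variable {F : Type*} [Field F] [Algebra K F]
variable {F₁ F₂ F₃ : Type*} [Field F₁] [Field F₂] [Field F₃]
variable [Algebra (IsLocalRing.ResidueField R) F₁] [Algebra (IsLocalRing.ResidueField R) F₂]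
variable [Algebra (IsLocalRing.ResidueField R) F₃]

local notation "k" => IsLocalRing.ResidueField R

namespace ThickCtx

variable {D : ThickDatum R F F₁ F₂ F₃} {g g₁ g₂ g₃ : ℕ} (C : ThickCtx D g g₁ g₂ g₃)

include C

/-- the values forced by a constant twist on a function with `red₂ = 1` -/
theorem twist_values {n : ℕ} (hn : (n : k) ≠ 0) {z : F} (E : KummerFamily D g n z)
    {b₁ b₂ b₃ : k} (hz : IsTriUnit D z b₁ b₂ b₃) {lam₀ mu₀ : k}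
    (hT : IsTwist D E (fun _ => lam₀) (fun _ => mu₀)) {a b : ℕ} {t₀ : F} (ht₀E : t₀ ∈ E.𝓔 a b)
    (ht₀O : t₀ ∈ D.O) (hr : D.red₂ t₀ = 1) (c : Fin D.s) :
    HasValueAt (D.x₁ c) (D.V₁.redF t₀) lam₀ ∧ HasValueAt (D.x₃ c) (D.V₃.redF t₀) mu₀ ∧
      b₁ * lam₀ ^ n = b₂ ∧ b₃ * mu₀ ^ n = b₂ := by
  have hn0 : n ≠ 0 := by rintro rfl; exact hn (by simp)
  obtain ⟨α, v1, v2, v3⟩ := hT a b t₀ ht₀E ht₀O c
  rw [hr] at v2
  have hα : α = 1 := v2.unique hasValueAt_one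
  subst hα
  simp only [mul_one] at v1 v3
  obtain ⟨_, e1, e3⟩ := Twist.glue_pow C hn0 E hz ht₀E ht₀O c
  rw [valAt_eq_of_hasValueAt v1, hr, valAt_eq_of_hasValueAt hasValueAt_one, one_pow, mul_one] at e1
  rw [valAt_eq_of_hasValueAt v3, hr, valAt_eq_of_hasValueAt hasValueAt_one, one_pow, mul_one] at e3
  exact ⟨v1, v3, e1, e3⟩

/-- **the start of the deformation**: a function of `𝓔 a b` with the reference reductions -/
theorem exists_isRef {n : ℕ} (hn : (n : k) ≠ 0) {z : F} (E : KummerFamily D g n z)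
    {b₁ b₂ b₃ : k} (hz : IsTriUnit D z b₁ b₂ b₃) {lam₀ mu₀ : k}
    (hT : IsTwist D E (fun _ => lam₀) (fun _ => mu₀))
    (hW : TgtFamily C (fun _ => mu₀ / lam₀) E.𝓔) {a b : ℕ} (hst : C.Stable a b) :
    lam₀ ≠ 0 ∧ mu₀ ≠ 0 ∧ ∃ t ∈ E.𝓔 a b, IsRef D lam₀ mu₀ t := by
  classical
  obtain ⟨s, rfl⟩ : ∃ s, n = s + 1 := by
    rcases n with _ | s
    · exact absurd (by simp) hn
    · exact ⟨s, rfl⟩
  have := E.finiteDimensional a b
  -- lift `1` on the middle component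
  obtain ⟨t₀, ht₀E, ht₀O, hr⟩ := C.exists_red₂_eq_one hst (E.riemann a b) (hW.incl a b)
  have hval := fun c => C.twist_values hn E hz hT ht₀E ht₀O hr c
  obtain ⟨_, _, hb₁, hb₃⟩ := hval ⟨0, C.s_pos⟩
  have hlam : lam₀ ≠ 0 := by
    rintro rfl
    rw [zero_pow (Nat.succ_ne_zero s), mul_zero] at hb₁
    exact hz.b₂_ne hb₁.symm
  have hmu : mu₀ ≠ 0 := by
    rintro rfl
    rw [zero_pow (Nat.succ_ne_zero s), mul_zero] at hb₃
    exact hz.b₂_ne hb₃.symm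
  refine ⟨hlam, hmu, ?_⟩
  have hzO := IsTriUnit.mem_O hz
  obtain ⟨hz1, hz2, hz3⟩ := ThickDatum.mem_O.1 hzO
  obtain ⟨ht1, ht2, ht3⟩ := ThickDatum.mem_O.1 ht₀O
  set φ₁ := D.V₁.redF t₀ with hφ₁
  set φ₃ := D.V₃.redF t₀ with hφ₃
  -- the function `f = t₀ⁿ z - b₂`
  obtain ⟨a₂, ha₂⟩ := IsLocalRing.residue_surjective b₂
  set a₂F := algebraMap K F (a₂ : K) with ha₂F
  have ha₂O : a₂F ∈ D.O := C.algebraMap_mem_O a₂
  obtain ⟨ha1, ha2, ha3⟩ := ThickDatum.mem_O.1 ha₂O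
  set f := t₀ ^ (s + 1) * z - a₂F with hf
  have hβ𝓛 : t₀ ^ (s + 1) * z ∈ D.𝓛 (a + s * a) (b + s * b) := by
    have h := E.mixed_mem ht₀E ht₀E
    rwa [Nat.add_sub_cancel, ← pow_succ'] at h
  have hf𝓛 : f ∈ D.𝓛 (a + s * a) (b + s * b) := by
    refine (D.𝓛 _ _).sub_mem hβ𝓛 ?_
    have := (D.𝓛 (a + s * a) (b + s * b)).smul_mem (a₂ : K) (C.one_mem_𝓛' _ _)
    rwa [Algebra.smul_def, mul_one] at this
  have hβO : t₀ ^ (s + 1) * z ∈ D.O := D.O.mul_mem (D.O.pow_mem ht₀O _) hzO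
  obtain ⟨hβ1, hβ2, hβ3⟩ := ThickDatum.mem_O.1 hβO
  have hfO : f ∈ D.O := D.O.sub_mem hβO ha₂O
  obtain ⟨hf1, hf2, hf3⟩ := ThickDatum.mem_O.1 hfO
  have hred₂f : D.red₂ f = 0 := by
    rw [hf, ← C.W₂_redF, C.W₂.redF_sub hβ2 ha2, C.W₂.redF_mul (D.V₂.O.pow_mem ht2 _) hz2,
      C.W₂.redF_pow ht2, C.W₂_redF, C.W₂_redF, C.W₂_redF, hr, hz.red₂, C.red₂_algebraMap, ha₂,
      one_pow, one_mul, sub_self]
  have hred₁f : D.V₁.redF f = φ₁ ^ (s + 1) * algebraMap k F₁ b₁ -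
      algebraMap k F₁ (b₁ * lam₀ ^ (s + 1)) := by
    rw [hf, D.V₁.redF_sub hβ1 ha1, D.V₁.redF_mul (D.V₁.O.pow_mem ht1 _) hz1, D.V₁.redF_pow ht1,
      hz.red₁, D.V₁.redF_algebraMap, ha₂, hb₁]
  have hred₃f : D.V₃.redF f = φ₃ ^ (s + 1) * algebraMap k F₃ b₃ -
      algebraMap k F₃ (b₃ * mu₀ ^ (s + 1)) := by
    rw [hf, D.V₃.redF_sub hβ3 ha3, D.V₃.redF_mul (D.V₃.O.pow_mem ht3 _) hz3, D.V₃.redF_pow ht3,
      hz.red₃, D.V₃.redF_algebraMap, ha₂, hb₃]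
  have hI : C.I 0 ((1 : ℕ) : ℤ) 0 f := by
    refine ⟨(C.W₁.ge_zero_iff).2 hf1, ?_, (C.W₃.ge_zero_iff).2 hf3⟩
    have : C.W₂.Ge (0 + 1) f := (DVal.ge_succ_iff).2
      ⟨(C.W₂.ge_zero_iff).2 hf2, by rw [DVal.sym_zero_eq, C.W₂_redF]; exact hred₂f⟩
    simpa using this
  -- the outer pair
  set ψ₁ := (φ₁ - algebraMap k F₁ lam₀) * D.ϖb₁⁻¹ with hψ₁
  set ψ₃ := (φ₃ - algebraMap k F₃ mu₀) * D.ϖb₃⁻¹ with hψ₃
  have hψval : ∀ c, ∃ γ : k,
      HasValueAt (D.x₁ c) ψ₁ (γ * (b₁ * (((s + 1 : ℕ) : k) * lam₀ ^ s))⁻¹) ∧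
        HasValueAt (D.x₃ c) ψ₃ (γ * (b₃ * (((s + 1 : ℕ) : k) * mu₀ ^ s))⁻¹) := by
    intro c
    obtain ⟨γ, g1, g3⟩ := C.outer_hasValueAt hf𝓛 hI c
    rw [D.V₁.redF_mul hf1 (C.ϖ_zpow_mem₁ _), C.redF₁_ϖ_zpow, hred₁f, Nat.cast_one, zpow_neg,
      zpow_one] at g1
    rw [D.V₃.redF_mul hf3 (C.ϖ_zpow_mem₃ _), C.redF₃_ϖ_zpow, hred₃f, Nat.cast_one, zpow_neg,
      zpow_one] at g3
    exact ⟨γ, hasValueAt_quot s hz.b₁_ne hlam hn (hval c).1 g1,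
      hasValueAt_quot s hz.b₃_ne hmu hn (hval c).2.1 g3⟩
  have hconst₁ : algebraMap k F₁ lam₀ ∈ riemannRochSpace (D.chartDiv₁ a b) := by
    have h1 : (1 : F₁) ∈ riemannRochSpace (D.chartDiv₁ a b) := one_mem_rr fun v =>
      lin2_nonneg C.Q₁₁_nonneg C.Q₂₁_nonneg (Int.natCast_nonneg a) (Int.natCast_nonneg b) v
    have := (riemannRochSpace (D.chartDiv₁ a b)).smul_mem lam₀ h1
    rwa [Algebra.smul_def, mul_one] at this
  have hconst₃ : algebraMap k F₃ mu₀ ∈ riemannRochSpace (D.chartDiv₃ a b) := by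
    have h1 : (1 : F₃) ∈ riemannRochSpace (D.chartDiv₃ a b) := one_mem_rr fun v =>
      lin2_nonneg C.Q₁₃_nonneg C.Q₂₃_nonneg (Int.natCast_nonneg a) (Int.natCast_nonneg b) v
    have := (riemannRochSpace (D.chartDiv₃ a b)).smul_mem mu₀ h1
    rwa [Algebra.smul_def, mul_one] at this
  have hnum₁ : φ₁ - algebraMap k F₁ lam₀ ∈ riemannRochSpace (D.chartDiv₁ a b) :=
    Submodule.sub_mem _ (C.kummer_chart₁ hn E hz ht₀E ht₀O) hconst₁
  have hnum₃ : φ₃ - algebraMap k F₃ mu₀ ∈ riemannRochSpace (D.chartDiv₃ a b) :=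
    Submodule.sub_mem _ (C.kummer_chart₃ hn E hz ht₀E ht₀O) hconst₃
  have hψ₁rr : ψ₁ ∈ riemannRochSpace (C.B₁ + D.chartDiv₁ a b) := by
    rcases eq_or_ne (φ₁ - algebraMap k F₁ lam₀) 0 with h0 | h0
    · rw [hψ₁, h0, zero_mul]; exact Submodule.zero_mem _
    have hi0 : D.ϖb₁⁻¹ ≠ 0 := inv_ne_zero C.ϖb₁_ne_zero
    rw [mem_rr_of_ne (mul_ne_zero h0 hi0)]
    intro v
    rw [Finsupp.add_apply]
    by_cases hv : ∃ c, D.x₁ c = v
    · obtain ⟨c, rfl⟩ := hv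
      rw [C.B₁_apply_self, C.chartDiv₁_x₁, add_zero, neg_zero]
      obtain ⟨γ, g1, _⟩ := hψval c
      exact g1.ord_nonneg
    · push Not at hv
      rw [C.B₁_apply_of_ne hv, v.ord_mul h0 hi0, v.ord_inv]
      have := (mem_rr_of_ne h0).1 hnum₁ v
      linarith
  have hψ₃rr : ψ₃ ∈ riemannRochSpace (C.B₃ + D.chartDiv₃ a b) := by
    rcases eq_or_ne (φ₃ - algebraMap k F₃ mu₀) 0 with h0 | h0
    · rw [hψ₃, h0, zero_mul]; exact Submodule.zero_mem _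
    have hi0 : D.ϖb₃⁻¹ ≠ 0 := inv_ne_zero C.ϖb₃_ne_zero
    rw [mem_rr_of_ne (mul_ne_zero h0 hi0)]
    intro v
    rw [Finsupp.add_apply]
    by_cases hv : ∃ c, D.x₃ c = v
    · obtain ⟨c, rfl⟩ := hv
      rw [C.B₃_apply_self, C.chartDiv₃_x₃, add_zero, neg_zero]
      obtain ⟨γ, _, g3⟩ := hψval c
      exact g3.ord_nonneg
    · push Not at hv
      rw [C.B₃_apply_of_ne hv, v.ord_mul h0 hi0, v.ord_inv]
      have := (mem_rr_of_ne h0).1 hnum₃ v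
      linarith
  have hpair : (ψ₁, ψ₃) ∈ nodalSpace D.x₁ D.x₃ (fun _ => mu₀ / lam₀) (C.B₁ + D.chartDiv₁ a b)
      (C.B₃ + D.chartDiv₃ a b) := by
    refine ⟨hψ₁rr, hψ₃rr, fun c => ?_⟩
    obtain ⟨γ, g1, g3⟩ := hψval c
    refine ⟨_, g1, ?_⟩
    have e : mu₀ / lam₀ * (γ * (b₁ * (((s + 1 : ℕ) : k) * lam₀ ^ s))⁻¹) =
        γ * (b₃ * (((s + 1 : ℕ) : k) * mu₀ ^ s))⁻¹ := by
      have hb : b₁ * lam₀ ^ (s + 1) = b₃ * mu₀ ^ (s + 1) := hb₁.trans hb₃.symm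
      have h1 := hz.b₁_ne
      have h3 := hz.b₃_ne
      field_simp
      linear_combination (-γ) * hb
    show LSb.Core.VanishAt (D.x₃ c) _
    rw [e]
    exact g3
  -- lift the pair
  have hT1 : ((ψ₁, 0, ψ₃) : F₁ × F₂ × F₃) ∈ C.T (fun _ => mu₀ / lam₀) 1 a b := by
    rw [C.T_one, C.mk_mem_Tout]; exact hpair
  obtain ⟨h, hhE, hhc, hhsy⟩ := hW.exists_lift hst (i := 1) (by have := C.e_pos; omega) hT1
  rw [chain_one, mem_Isub] at hhc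
  rw [sy_one] at hhsy
  have hs1 : D.V₁.redF (h * D.ϖ⁻¹) = ψ₁ := by
    simpa using congrArg (fun t : F₁ × F₂ × F₃ => t.1) hhsy
  have hs3 : D.V₃.redF (h * D.ϖ⁻¹) = ψ₃ := by
    simpa using congrArg (fun t : F₁ × F₂ × F₃ => t.2.2) hhsy
  have hhO : h ∈ D.O := hhc.mem_O le_rfl (by norm_num) le_rfl
  obtain ⟨hh1, hh2, hh3⟩ := ThickDatum.mem_O.1 hhO
  have hh₁ : D.V₁.redF h = φ₁ - algebraMap k F₁ lam₀ := by
    have e : h = (h * D.ϖ⁻¹) * D.ϖ := by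
      rw [mul_assoc, inv_mul_cancel₀ C.ϖ_ne_zero, mul_one]
    rw [e, D.V₁.redF_mul (D.V₁.O.mul_mem _ _ hh1 C.unif_inv_mem₁) C.unif_mem₁, hs1, hψ₁]
    show _ * D.ϖb₁⁻¹ * D.ϖb₁ = _
    rw [mul_assoc, inv_mul_cancel₀ C.ϖb₁_ne_zero, mul_one]
  have hh₃ : D.V₃.redF h = φ₃ - algebraMap k F₃ mu₀ := by
    have e : h = (h * D.ϖ⁻¹) * D.ϖ := by
      rw [mul_assoc, inv_mul_cancel₀ C.ϖ_ne_zero, mul_one]
    rw [e, D.V₃.redF_mul (D.V₃.O.mul_mem _ _ hh3 C.unif_inv_mem₃) C.unif_mem₃, hs3, hψ₃]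
    show _ * D.ϖb₃⁻¹ * D.ϖb₃ = _
    rw [mul_assoc, inv_mul_cancel₀ C.ϖb₃_ne_zero, mul_one]
  have hh₂ : D.red₂ h = 0 := by
    rw [← C.W₂_redF]; exact C.W₂.redF_eq_zero_of_ge le_rfl hhc.2.1
  refine ⟨t₀ - h, (E.𝓔 a b).sub_mem ht₀E hhE, D.O.sub_mem ht₀O hhO, ?_, ?_, ?_⟩
  · rw [D.V₁.redF_sub ht1 hh1, hh₁, ← hφ₁]; ring
  · rw [← C.W₂_redF, C.W₂.redF_sub ht2 hh2, C.W₂_redF, C.W₂_redF, hr, hh₂, sub_zero]
  · rw [D.V₃.redF_sub ht3 hh3, hh₃, ← hφ₃]; ring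

end ThickCtx

end Fermat.Agent.S36lib.Thick
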