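/-
S36lib / Thick / Main  (helper6, WG-C)

**The thick Čech core (brick B5).**  For a thick datum satisfying `ThickCtx`:
* `ThickCtx.nondegStatement`   : Export 2 (nondegeneracy in the stable range);
* `ThickCtx.thickCoreStatement` : Export 3: a Kummer tri-unit whose twist is constant has
  `𝓔 0 0 ≠ 0` (it is, up to a constant, an `n`-th power).

Proof of Export 3: start with chart sections `t₁ ∈ 𝓔 m 0`, `t₂ ∈ 𝓔 0 m` with the reference
reductions `(lam₀, 1, mu₀)` (`Thick/Start`), improve the congruence `t₁ ≡ t₂` by the doubling step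
(`Thick/Doubling`) first along the nilpotent chain `I(1, r, 1)`, `r = 1, 2, 4, …, e`, then along
`π^N O`, `N = 1, 2, 4, …`, and finish with the bounded torsion of `H¹` (`Thick/Torsion`).
-/
import Fermat.Agent.S36lib.Thick.Start

set_option autoImplicit false

noncomputable section

namespace Fermat.Agent.S36lib.Thick

open AlgebraicCurve Module

variable {K : Type*} [Field K] {R : ValuationSubring K}
variable {F : Type*} [Field F] [Algebra K F]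
variable {F₁ F₂ F₃ : Type*} [Field F₁] [Field F₂] [Field F₃]
variable [Algebra (IsLocalRing.ResidueField R) F₁] [Algebra (IsLocalRing.ResidueField R) F₂]
variable [Algebra (IsLocalRing.ResidueField R) F₃]

local notation "k" => IsLocalRing.ResidueField R

namespace ThickCtx

variable {D : ThickDatum R F F₁ F₂ F₃} {g g₁ g₂ g₃ : ℕ} (C : ThickCtx D g g₁ g₂ g₃)

include C

/-- **Export 2 of the thick core.** -/
theorem nondegStatement : NondegStatement D g :=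
  C.nondegStatement_of_incl fun n hn z E b₁ b₂ b₃ hz a b => by
    obtain ⟨ν, _, h⟩ := C.exists_symImage_le hn E hz a b
    exact ⟨ν, h⟩

/-- two reference units agree modulo `I(1,1,1)` -/
theorem isRef_sub_isRef {lam₀ mu₀ : k} {t₁ t₂ : F} (h₁ : IsRef D lam₀ mu₀ t₁)
    (h₂ : IsRef D lam₀ mu₀ t₂) : C.I 1 1 1 (t₁ - t₂) := by
  obtain ⟨a1, a2, a3⟩ := ThickDatum.mem_O.1 h₁.1
  obtain ⟨b1, b2, b3⟩ := ThickDatum.mem_O.1 h₂.1
  refine ⟨?_, ?_, ?_⟩
  · have : C.W₁.Ge (0 + 1) (t₁ - t₂) := (DVal.ge_succ_iff).2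
      ⟨(C.W₁.ge_zero_iff).2 (D.V₁.O.sub_mem a1 b1), by
        rw [DVal.sym_zero_eq, C.W₁.redF_sub a1 b1, C.W₁_redF, C.W₁_redF, h₁.2.1, h₂.2.1, sub_self]⟩
    simpa using this
  · have : C.W₂.Ge (0 + 1) (t₁ - t₂) := (DVal.ge_succ_iff).2
      ⟨(C.W₂.ge_zero_iff).2 (D.V₂.O.sub_mem a2 b2), by
        rw [DVal.sym_zero_eq, C.W₂.redF_sub a2 b2, C.W₂_redF, C.W₂_redF, h₁.2.2.1, h₂.2.2.1,
          sub_self]⟩
    simpa using this
  · have : C.W₃.Ge (0 + 1) (t₁ - t₂) := (DVal.ge_succ_iff).2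
      ⟨(C.W₃.ge_zero_iff).2 (D.V₃.O.sub_mem a3 b3), by
        rw [DVal.sym_zero_eq, C.W₃.redF_sub a3 b3, C.W₃_redF, C.W₃_redF, h₁.2.2.2, h₂.2.2.2,
          sub_self]⟩
    simpa using this

/-- **Export 3: the thick Čech core.** -/
theorem thickCoreStatement : ThickCoreStatement D g := by
  intro n hn z E b₁ b₂ b₃ hz lam₀ mu₀ hT
  classical
  obtain ⟨m, hm⟩ := C.exists_stable
  have hm₁ : C.Stable m 0 := hm m 0 (Or.inl le_rfl)
  have hm₂ : C.Stable 0 m := hm 0 m (Or.inr le_rfl)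
  have he := C.e_pos
  -- a nondegenerate element
  obtain ⟨ν, _, hle⟩ := C.exists_symImage_le hn E hz m 0
  have := E.finiteDimensional m 0
  obtain ⟨h₀, hh₀E, hh₀O, hh₀r⟩ := C.exists_red₂_eq_one hm₁ (E.riemann m 0) hle
  -- `lam₀, mu₀ ≠ 0`
  have hn0 : n ≠ 0 := by rintro rfl; exact hn (by simp)
  obtain ⟨_, _, hb₁, hb₃⟩ := C.twist_values hn E hz hT hh₀E hh₀O hh₀r ⟨0, C.s_pos⟩
  have hlam : lam₀ ≠ 0 := by
    rintro rfl
    rw [zero_pow hn0, mul_zero] at hb₁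
    exact hz.b₂_ne hb₁.symm
  have hmu : mu₀ ≠ 0 := by
    rintro rfl
    rw [zero_pow hn0, mul_zero] at hb₃
    exact hz.b₂_ne hb₃.symm
  -- the structure of the Kummer family
  have hW : TgtFamily C (fun _ => mu₀ / lam₀) E.𝓔 :=
    ⟨E.finiteDimensional, fun ha hb => E.mono ha hb, E.riemann, fun a b =>
      C.symImage_le_of_isTwist hn E hz hT (fun _ => hlam) (fun _ => hmu) hh₀E hh₀O hh₀r a b⟩
  -- the start
  obtain ⟨_, _, t₁, ht₁E, hr₁⟩ := C.exists_isRef hn E hz hT hW hm₁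
  obtain ⟨_, _, t₂, ht₂E, hr₂⟩ := C.exists_isRef hn E hz hT hW hm₂
  have hG1 : C.Good E lam₀ mu₀ m 1 1 :=
    ⟨t₁, ht₁E, t₂, ht₂E, hr₁, hr₂, C.isRef_sub_isRef hr₁ hr₂⟩
  -- phase 1: along the nilpotent chain
  have phase1 : ∀ L : ℕ, C.Good E lam₀ mu₀ m 1 ((min (2 ^ L) D.e : ℕ) : ℤ) := by
    intro L
    induction L with
    | zero =>
      have : min (2 ^ 0) D.e = 1 := by rw [pow_zero]; exact min_eq_left he
      rw [this]; exact_mod_cast hG1
    | succ L ih =>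
      set r := min (2 ^ L) D.e with hr
      set r' := min (2 ^ (L + 1)) D.e with hr'
      have h2 : 1 ≤ 2 ^ L := Nat.one_le_two_pow
      have hr1 : 1 ≤ r := le_min h2 he
      have hre : r ≤ D.e := min_le_right _ _
      have hr'e : r' ≤ D.e := min_le_right _ _
      have hrr' : r ≤ r' := by
        rw [hr, hr']
        exact min_le_min (Nat.pow_le_pow_right (by norm_num) (Nat.le_succ L)) le_rfl
      have hr'2 : r' ≤ 2 * r := by
        rw [hr, hr', pow_succ]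
        rcases le_total (2 ^ L) D.e with h | h
        · rw [min_eq_left h]
          exact (min_le_left _ _).trans (by omega)
        · rw [min_eq_right h]
          exact (min_le_right _ _).trans (by omega)
      have hr'1 : 1 ≤ r' := hr1.trans hrr'
      exact C.doubling hn E hz hlam hmu (α := 1) (β := (r : ℤ)) (α' := 1) (β' := (r' : ℤ)) le_rfl
        (by exact_mod_cast hr1) le_rfl (by exact_mod_cast hrr') (by norm_num)
        (by exact_mod_cast hr'2) m (C.h0_chain hr1 hre) (hW.stab_chain hm₁ hm₂ hr'1 hr'e) ih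
  -- phase 2: along the powers of `π`
  have phase2 : ∀ L : ℕ,
      C.Good E lam₀ mu₀ m ((2 ^ L : ℕ) : ℤ) ((D.e : ℤ) * ((2 ^ L : ℕ) : ℤ)) := by
    intro L
    induction L with
    | zero =>
      have h := phase1 D.e
      have : min (2 ^ D.e) D.e = D.e := min_eq_right (Nat.lt_two_pow_self).le
      rw [this] at h
      simpa using h
    | succ L ih =>
      have h1 : (1 : ℤ) ≤ ((2 ^ L : ℕ) : ℤ) := by exact_mod_cast Nat.one_le_two_pow
      have he' : (1 : ℤ) ≤ (D.e : ℤ) := by exact_mod_cast he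
      have e2 : ((2 ^ (L + 1) : ℕ) : ℤ) = 2 * ((2 ^ L : ℕ) : ℤ) := by push_cast; ring
      exact C.doubling hn E hz hlam hmu (α := ((2 ^ L : ℕ) : ℤ))
        (β := (D.e : ℤ) * ((2 ^ L : ℕ) : ℤ)) (α' := ((2 ^ (L + 1) : ℕ) : ℤ))
        (β' := (D.e : ℤ) * ((2 ^ (L + 1) : ℕ) : ℤ)) h1 (by nlinarith) (by rw [e2]; linarith)
        (by rw [e2]; nlinarith) (by rw [e2]) (by rw [e2]; linarith) m (C.h0_pow (2 ^ L))
        (hW.stab_pow hm₁ hm₂ (2 ^ (L + 1))) ih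
  -- the torsion bound
  have := E.finiteDimensional 0 m
  obtain ⟨N₀, hN₀⟩ := C.exists_torsion_bound (E.𝓔 m 0) (E.𝓔 0 m)
  set N := 2 ^ (N₀ + 1) with hN
  have hNN₀ : N₀ < N := (Nat.lt_succ_self N₀).trans Nat.lt_two_pow_self
  obtain ⟨d, hd⟩ : ∃ d, N = N₀ + d := ⟨N - N₀, by omega⟩
  have hd1 : 1 ≤ d := by omega
  obtain ⟨τ₁, hτ₁E, τ₂, hτ₂E, hρ₁, hρ₂, hdiff⟩ := phase2 (N₀ + 1)
  rw [← hN] at hdiff
  obtain ⟨x, hxO, hx⟩ := (C.I_pow_iff N).1 hdiff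
  set πF := algebraMap K F D.π with hπF
  have hπN : πF ^ N ≠ 0 := pow_ne_zero _ C.πF_ne_zero
  have hu₁ : (πF ^ N)⁻¹ * τ₁ ∈ E.𝓔 m 0 := by
    have := (E.𝓔 m 0).smul_mem ((D.π ^ N)⁻¹) hτ₁E
    rwa [Algebra.smul_def, map_inv₀, map_pow] at this
  have hu₂ : (πF ^ N)⁻¹ * τ₂ ∈ E.𝓔 0 m := by
    have := (E.𝓔 0 m).smul_mem ((D.π ^ N)⁻¹) hτ₂E
    rwa [Algebra.smul_def, map_inv₀, map_pow] at this
  have hxu : x = (πF ^ N)⁻¹ * τ₁ - (πF ^ N)⁻¹ * τ₂ := by
    rw [← mul_sub, hx, ← mul_assoc, inv_mul_cancel₀ hπN, one_mul]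
  obtain ⟨m₁, hm₁E, m₂, hm₂E, hm₁O, hm₂O, hmm⟩ := hN₀ x hxO _ hu₁ _ hu₂ hxu
  -- the common element
  have hkey : τ₁ - πF ^ d * m₁ = τ₂ - πF ^ d * m₂ := by
    have h1 : τ₁ - τ₂ = πF ^ d * (m₁ - m₂) := by
      rw [hx, hd, pow_add, ← hmm]; ring
    linear_combination h1
  set t := τ₁ - πF ^ d * m₁ with ht
  have smulE : ∀ (a b : ℕ) (f : F), f ∈ E.𝓔 a b → πF ^ d * f ∈ E.𝓔 a b := by
    intro a b f hf
    have := (E.𝓔 a b).smul_mem (D.π ^ d) hf
    rwa [Algebra.smul_def, map_pow] at this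
  have ht₁ : t ∈ E.𝓔 m 0 := (E.𝓔 m 0).sub_mem hτ₁E (smulE _ _ _ hm₁E)
  have ht₂ : t ∈ E.𝓔 0 m := by
    rw [hkey]; exact (E.𝓔 0 m).sub_mem hτ₂E (smulE _ _ _ hm₂E)
  have ht00 : t ∈ E.𝓔 0 0 := by
    have := E.inter m 0 0 m ⟨ht₁, ht₂⟩
    rwa [Nat.min_zero, Nat.zero_min] at this
  have hd1' : (1 : ℤ) ≤ (d : ℤ) := by exact_mod_cast hd1
  have he' : (1 : ℤ) ≤ (D.e : ℤ) := by exact_mod_cast he
  have htref : IsRef D lam₀ mu₀ t :=
    C.isRef_sub hd1' (by nlinarith) hd1' hρ₁ ((C.I_pow_iff d).2 ⟨m₁, hm₁O, rfl⟩)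
  refine ⟨t, ?_, ht00⟩
  intro h0
  have h1 : D.red₂ t = 1 := htref.2.2.1
  rw [h0, ← C.W₂_redF, C.W₂.redF_eq_zero_of_ge le_rfl (DVal.Ge.zero _ _)] at h1
  exact zero_ne_one h1

end ThickCtx

end Fermat.Agent.S36lib.Thick
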