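/-
S36lib / Thick / DVal  (helper6, WG-C)

A uniform API for a DISCRETE valuation ring `O` of a field `F` with a chosen uniformizer `unif`
and a reduction map `red : O →+* Fk` onto its residue field:

* `V.redF`            : the total reduction (`0` outside `O`);
* `V.Ge j f`          : "`v(f) ≥ j`", i.e. `f · unif⁻ʲ ∈ O` (true for `f = 0`);
* `V.sym j f`         : the `j`-th symbol `red(f · unif⁻ʲ)` (leading coefficient);
  `Ge (j+1) f ↔ Ge j f ∧ sym j f = 0`, symbols are additive and multiplicative.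
-/
import Mathlib

set_option autoImplicit false

noncomputable section

namespace Fermat.Agent.S36lib.Thick

/-- a discrete valuation ring of `F` with uniformizer and reduction map -/
structure DVal (F : Type*) [Field F] (Fk : Type*) [Field Fk] where
  /-- the valuation ring -/
  O : ValuationSubring F
  /-- the reduction map -/
  red : O →+* Fk
  red_surjective : Function.Surjective red
  /-- the uniformizer -/
  unif : F
  unif_ne_zero : unif ≠ 0
  unif_mem : unif ∈ O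
  red_unif : red ⟨unif, unif_mem⟩ = 0
  exists_zpow_mul_isUnit : ∀ f : F, f ≠ 0 → ∃ (j : ℤ) (u : Oˣ), f = unif ^ j * ((u : O) : F)

namespace DVal

variable {F : Type*} [Field F] {Fk : Type*} [Field Fk] (V : DVal F Fk)

/-! ### kernel of `red`, units -/

theorem red_eq_zero_iff (y : V.O) : V.red y = 0 ↔ y ∈ IsLocalRing.maximalIdeal V.O := by
  have hmax : (RingHom.ker V.red).IsMaximal :=
    RingHom.ker_isMaximal_of_surjective _ V.red_surjective
  have : RingHom.ker V.red = IsLocalRing.maximalIdeal V.O := IsLocalRing.eq_maximalIdeal hmax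
  rw [← this, RingHom.mem_ker]

theorem red_ne_zero_iff_isUnit (y : V.O) : V.red y ≠ 0 ↔ IsUnit y := by
  rw [Ne, V.red_eq_zero_iff, IsLocalRing.mem_maximalIdeal, mem_nonunits_iff, not_not]

theorem red_unit_ne_zero (u : V.Oˣ) : V.red (u : V.O) ≠ 0 :=
  (V.red_ne_zero_iff_isUnit _).2 u.isUnit

/-! ### the total reduction -/

/-- total version of the reduction map: `0` outside `O` -/
def redF (y : F) : Fk :=
  letI := Classical.propDecidable
  if h : y ∈ V.O then V.red ⟨y, h⟩ else 0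

theorem redF_of_mem {y : F} (h : y ∈ V.O) : V.redF y = V.red ⟨y, h⟩ := by
  classical
  rw [redF, dif_pos h]

theorem redF_of_not_mem {y : F} (h : y ∉ V.O) : V.redF y = 0 := by
  classical
  rw [redF, dif_neg h]

@[simp] theorem redF_zero : V.redF 0 = 0 := by
  rw [V.redF_of_mem V.O.zero_mem]; exact map_zero _

@[simp] theorem redF_one : V.redF 1 = 1 := by
  rw [V.redF_of_mem V.O.one_mem]; exact map_one _

theorem redF_add {x y : F} (hx : x ∈ V.O) (hy : y ∈ V.O) :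
    V.redF (x + y) = V.redF x + V.redF y := by
  rw [V.redF_of_mem hx, V.redF_of_mem hy, V.redF_of_mem (V.O.add_mem _ _ hx hy), ← map_add]
  rfl

theorem redF_mul {x y : F} (hx : x ∈ V.O) (hy : y ∈ V.O) :
    V.redF (x * y) = V.redF x * V.redF y := by
  rw [V.redF_of_mem hx, V.redF_of_mem hy, V.redF_of_mem (V.O.mul_mem _ _ hx hy), ← map_mul]
  rfl

theorem redF_neg {x : F} (hx : x ∈ V.O) : V.redF (-x) = -V.redF x := by
  rw [V.redF_of_mem hx, V.redF_of_mem (V.O.neg_mem _ hx), ← map_neg]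
  rfl

theorem redF_sub {x y : F} (hx : x ∈ V.O) (hy : y ∈ V.O) :
    V.redF (x - y) = V.redF x - V.redF y := by
  rw [sub_eq_add_neg, V.redF_add hx (V.O.neg_mem _ hy), V.redF_neg hy, sub_eq_add_neg]

theorem redF_pow {x : F} (hx : x ∈ V.O) (n : ℕ) : V.redF (x ^ n) = V.redF x ^ n := by
  rw [V.redF_of_mem hx, V.redF_of_mem (V.O.pow_mem hx n), ← map_pow]
  rfl

theorem redF_sum {ι : Type*} (s : Finset ι) (f : ι → F) (hf : ∀ i ∈ s, f i ∈ V.O) :
    V.redF (∑ i ∈ s, f i) = ∑ i ∈ s, V.redF (f i) := by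
  classical
  induction s using Finset.induction_on with
  | empty => simp
  | insert a s ha ih =>
    rw [Finset.sum_insert ha, Finset.sum_insert ha,
      V.redF_add (hf a (Finset.mem_insert_self a s))
        (V.O.sum_mem fun i hi => hf i (Finset.mem_insert_of_mem hi)),
      ih fun i hi => hf i (Finset.mem_insert_of_mem hi)]

theorem redF_eq_zero_iff {x : F} (hx : x ∈ V.O) :
    V.redF x = 0 ↔ (⟨x, hx⟩ : V.O) ∈ IsLocalRing.maximalIdeal V.O := by
  rw [V.redF_of_mem hx, V.red_eq_zero_iff]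

/-- a nonzero reduction means: a unit of `O` -/
theorem redF_ne_zero_iff {x : F} : V.redF x ≠ 0 ↔ ∃ u : V.Oˣ, ((u : V.O) : F) = x := by
  constructor
  · intro h
    by_cases hx : x ∈ V.O
    · rw [V.redF_of_mem hx] at h
      obtain ⟨u, hu⟩ := (V.red_ne_zero_iff_isUnit _).1 h
      exact ⟨u, by rw [hu]⟩
    · exact absurd (V.redF_of_not_mem hx) h
  · rintro ⟨u, rfl⟩
    rw [V.redF_of_mem (u : V.O).2]
    exact V.red_unit_ne_zero u

theorem coe_inv_unit (u : V.Oˣ) : (((u⁻¹ : V.Oˣ) : V.O) : F) = ((u : V.O) : F)⁻¹ := by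
  have h1 : ((u : V.O) : F) * (((u⁻¹ : V.Oˣ) : V.O) : F) = 1 := by
    rw [← V.O.coe_mul, Units.mul_inv]; rfl
  exact eq_inv_of_mul_eq_one_right h1

theorem inv_mem_of_redF_ne_zero {x : F} (h : V.redF x ≠ 0) : x⁻¹ ∈ V.O := by
  obtain ⟨u, rfl⟩ := V.redF_ne_zero_iff.1 h
  rw [← V.coe_inv_unit]
  exact ((u⁻¹ : V.Oˣ) : V.O).2

theorem mem_of_redF_ne_zero {x : F} (h : V.redF x ≠ 0) : x ∈ V.O := by
  by_contra hx
  exact h (V.redF_of_not_mem hx)

theorem ne_zero_of_redF_ne_zero {x : F} (h : V.redF x ≠ 0) : x ≠ 0 := by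
  rintro rfl
  exact h V.redF_zero

theorem redF_inv {x : F} (h : V.redF x ≠ 0) : V.redF x⁻¹ = (V.redF x)⁻¹ := by
  have hx := V.mem_of_redF_ne_zero h
  have hxi := V.inv_mem_of_redF_ne_zero h
  have hx0 : x ≠ 0 := V.ne_zero_of_redF_ne_zero h
  have := V.redF_mul hx hxi
  rw [mul_inv_cancel₀ hx0, V.redF_one] at this
  exact eq_inv_of_mul_eq_one_right this.symm

/-- an element of `O` whose inverse lies in `O` has nonzero reduction -/
theorem redF_ne_zero_of_mem_of_inv_mem {x : F} (hx0 : x ≠ 0) (hx : x ∈ V.O) (hxi : x⁻¹ ∈ V.O) :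
    V.redF x ≠ 0 := by
  intro h
  have := V.redF_mul hx hxi
  rw [mul_inv_cancel₀ hx0, V.redF_one, h, zero_mul] at this
  exact one_ne_zero this

theorem redF_unit_ne_zero (u : V.Oˣ) : V.redF ((u : V.O) : F) ≠ 0 :=
  V.redF_ne_zero_iff.2 ⟨u, rfl⟩

/-! ### the uniformizer -/

theorem redF_unif : V.redF V.unif = 0 := by
  rw [V.redF_of_mem V.unif_mem]; exact V.red_unif

theorem unif_zpow_ne_zero (j : ℤ) : V.unif ^ j ≠ 0 := zpow_ne_zero j V.unif_ne_zero

theorem unif_pow_mem (n : ℕ) : V.unif ^ n ∈ V.O := V.O.pow_mem V.unif_mem n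

theorem unif_zpow_mem {j : ℤ} (hj : 0 ≤ j) : V.unif ^ j ∈ V.O := by
  obtain ⟨n, rfl⟩ := Int.eq_ofNat_of_zero_le hj
  rw [zpow_natCast]
  exact V.unif_pow_mem n

/-- the inverse of the uniformizer is not integral -/
theorem unif_inv_not_mem : V.unif⁻¹ ∉ V.O := by
  intro h
  have := V.redF_ne_zero_of_mem_of_inv_mem V.unif_ne_zero V.unif_mem h
  exact this V.redF_unif

/-- an element of `O` with zero reduction is divisible by the uniformizer -/
theorem mul_unif_inv_mem_of_redF_eq_zero {x : F} (hx : x ∈ V.O) (h : V.redF x = 0) :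
    x * V.unif⁻¹ ∈ V.O := by
  rcases eq_or_ne x 0 with rfl | hx0
  · rw [zero_mul]; exact V.O.zero_mem
  obtain ⟨j, u, hu⟩ := V.exists_zpow_mul_isUnit x hx0
  have hj : 1 ≤ j := by
    by_contra hlt
    push Not at hlt
    have hj0 : 0 ≤ -j := by omega
    -- `x⁻¹ = unif^(-j) * u⁻¹ ∈ O`, so `x` is a unit: contradiction
    have hxi : x⁻¹ ∈ V.O := by
      rw [hu, mul_inv, ← zpow_neg, ← V.coe_inv_unit]
      exact V.O.mul_mem _ _ (V.unif_zpow_mem hj0) ((u⁻¹ : V.Oˣ) : V.O).2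
    exact V.redF_ne_zero_of_mem_of_inv_mem hx0 hx hxi h
  have e : x * V.unif⁻¹ = V.unif ^ (j - 1) * ((u : V.O) : F) := by
    rw [hu, zpow_sub_one₀ V.unif_ne_zero]; ring
  rw [e]
  exact V.O.mul_mem _ _ (V.unif_zpow_mem (by omega)) (u : V.O).2

/-! ### `Ge j f` : "`v(f) ≥ j`" -/

/-- `v(f) ≥ j`, i.e. `f · unif⁻ʲ ∈ O` -/
def Ge (j : ℤ) (f : F) : Prop := f * V.unif ^ (-j) ∈ V.O

theorem ge_iff {j : ℤ} {f : F} : V.Ge j f ↔ f * V.unif ^ (-j) ∈ V.O := Iff.rfl

theorem ge_zero_iff {f : F} : V.Ge 0 f ↔ f ∈ V.O := by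
  rw [Ge, neg_zero, zpow_zero, mul_one]

theorem Ge.zero (j : ℤ) : V.Ge j 0 := by
  rw [Ge, zero_mul]; exact V.O.zero_mem

variable {V}

theorem Ge.add {j : ℤ} {f g : F} (hf : V.Ge j f) (hg : V.Ge j g) : V.Ge j (f + g) := by
  rw [Ge, add_mul]; exact V.O.add_mem _ _ hf hg

theorem Ge.neg {j : ℤ} {f : F} (hf : V.Ge j f) : V.Ge j (-f) := by
  rw [Ge, neg_mul]; exact V.O.neg_mem _ hf

theorem Ge.sub {j : ℤ} {f g : F} (hf : V.Ge j f) (hg : V.Ge j g) : V.Ge j (f - g) := by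
  rw [sub_eq_add_neg]; exact hf.add hg.neg

theorem Ge.sum {ι : Type*} {j : ℤ} (s : Finset ι) (f : ι → F) (hf : ∀ i ∈ s, V.Ge j (f i)) :
    V.Ge j (∑ i ∈ s, f i) := by
  rw [Ge, Finset.sum_mul]
  exact V.O.sum_mem fun i hi => hf i hi

theorem Ge.mul {i j : ℤ} {f g : F} (hf : V.Ge i f) (hg : V.Ge j g) : V.Ge (i + j) (f * g) := by
  have e : f * g * V.unif ^ (-(i + j)) = (f * V.unif ^ (-i)) * (g * V.unif ^ (-j)) := by
    rw [neg_add, zpow_add₀ V.unif_ne_zero]; ring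
  rw [Ge, e]
  exact V.O.mul_mem _ _ hf hg

theorem Ge.mono {i j : ℤ} {f : F} (hij : i ≤ j) (hf : V.Ge j f) : V.Ge i f := by
  have e : f * V.unif ^ (-i) = (f * V.unif ^ (-j)) * V.unif ^ (j - i) := by
    rw [mul_assoc, ← zpow_add₀ V.unif_ne_zero]; congr 2; ring
  rw [Ge, e]
  exact V.O.mul_mem _ _ hf (V.unif_zpow_mem (by omega))

theorem Ge.mem {j : ℤ} {f : F} (hj : 0 ≤ j) (hf : V.Ge j f) : f ∈ V.O :=
  (V.ge_zero_iff).1 (hf.mono hj)

theorem Ge.pow {j : ℤ} {f : F} (hf : V.Ge j f) (n : ℕ) : V.Ge (n * j) (f ^ n) := by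
  induction n with
  | zero => simp only [Nat.cast_zero, zero_mul, pow_zero]; exact (V.ge_zero_iff).2 V.O.one_mem
  | succ n ih =>
    rw [pow_succ]
    have := ih.mul hf
    convert this using 1
    push_cast; ring

theorem Ge.mul_mem {j : ℤ} {f g : F} (hf : V.Ge j f) (hg : g ∈ V.O) : V.Ge j (f * g) := by
  have := hf.mul ((V.ge_zero_iff).2 hg)
  rwa [add_zero] at this

theorem Ge.mem_mul {j : ℤ} {f g : F} (hg : g ∈ V.O) (hf : V.Ge j f) : V.Ge j (g * f) := by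
  rw [mul_comm]; exact hf.mul_mem hg

variable (V)

theorem ge_unif_zpow (j : ℤ) : V.Ge j (V.unif ^ j) := by
  rw [Ge, ← zpow_add₀ V.unif_ne_zero, add_neg_cancel, zpow_zero]
  exact V.O.one_mem

theorem ge_one_unif : V.Ge 1 V.unif := by
  have := V.ge_unif_zpow 1
  rwa [zpow_one] at this

/-- shifting by a power of the uniformizer -/
theorem ge_mul_unif_zpow_iff {i j : ℤ} {f : F} : V.Ge (i + j) (f * V.unif ^ j) ↔ V.Ge i f := by
  have e : f * V.unif ^ j * V.unif ^ (-(i + j)) = f * V.unif ^ (-i) := by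
    rw [mul_assoc, ← zpow_add₀ V.unif_ne_zero]; congr 2; ring
  rw [Ge, Ge, e]

/-- a unit of `O` times `unif^j` -/
theorem ge_of_eq_zpow_mul_unit {j : ℤ} {f : F} (u : V.Oˣ) (hf : f = V.unif ^ j * ((u : V.O) : F)) :
    V.Ge j f := by
  rw [hf, mul_comm]
  have := (V.ge_mul_unif_zpow_iff (i := 0) (j := j) (f := ((u : V.O) : F))).2
    ((V.ge_zero_iff).2 (u : V.O).2)
  rwa [zero_add] at this

/-- every element has SOME lower bound for its valuation -/
theorem exists_ge (f : F) : ∃ j : ℤ, V.Ge j f := by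
  rcases eq_or_ne f 0 with rfl | hf
  · exact ⟨0, Ge.zero V 0⟩
  obtain ⟨j, u, hu⟩ := V.exists_zpow_mul_isUnit f hf
  exact ⟨j, V.ge_of_eq_zpow_mul_unit u hu⟩

/-- every element becomes integral after multiplication by a power of the uniformizer -/
theorem exists_pow_mul_mem (f : F) : ∃ n : ℕ, V.unif ^ n * f ∈ V.O := by
  obtain ⟨j, hj⟩ := V.exists_ge f
  refine ⟨(-j).toNat, ?_⟩
  have h1 : V.Ge (j + (-j).toNat) (f * V.unif ^ ((-j).toNat : ℤ)) := (V.ge_mul_unif_zpow_iff).2 hj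
  have h2 := h1.mem (by omega)
  rwa [zpow_natCast, mul_comm] at h2

/-! ### symbols -/

/-- the `j`-th symbol (leading coefficient) `red(f · unif⁻ʲ)` -/
def sym (j : ℤ) (f : F) : Fk := V.redF (f * V.unif ^ (-j))

theorem sym_zero_eq (f : F) : V.sym 0 f = V.redF f := by
  rw [sym, neg_zero, zpow_zero, mul_one]

@[simp] theorem sym_zero (j : ℤ) : V.sym j 0 = 0 := by
  rw [sym, zero_mul, V.redF_zero]

variable {V}

theorem sym_add {j : ℤ} {f g : F} (hf : V.Ge j f) (hg : V.Ge j g) :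
    V.sym j (f + g) = V.sym j f + V.sym j g := by
  rw [sym, add_mul, V.redF_add hf hg]; rfl

theorem sym_neg {j : ℤ} {f : F} (hf : V.Ge j f) : V.sym j (-f) = -V.sym j f := by
  rw [sym, neg_mul, V.redF_neg hf]; rfl

theorem sym_sub {j : ℤ} {f g : F} (hf : V.Ge j f) (hg : V.Ge j g) :
    V.sym j (f - g) = V.sym j f - V.sym j g := by
  rw [sub_eq_add_neg, sym_add hf hg.neg, sym_neg hg, sub_eq_add_neg]

theorem sym_mul {i j : ℤ} {f g : F} (hf : V.Ge i f) (hg : V.Ge j g) :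
    V.sym (i + j) (f * g) = V.sym i f * V.sym j g := by
  have e : f * g * V.unif ^ (-(i + j)) = (f * V.unif ^ (-i)) * (g * V.unif ^ (-j)) := by
    rw [neg_add, zpow_add₀ V.unif_ne_zero]; ring
  rw [sym, e, V.redF_mul hf hg]; rfl

theorem sym_mul_mem {j : ℤ} {f g : F} (hf : V.Ge j f) (hg : g ∈ V.O) :
    V.sym j (f * g) = V.sym j f * V.redF g := by
  have := sym_mul hf ((V.ge_zero_iff).2 hg)
  rwa [add_zero, V.sym_zero_eq] at this

theorem sym_pow {j : ℤ} {f : F} (hf : V.Ge j f) (n : ℕ) :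
    V.sym (n * j) (f ^ n) = V.sym j f ^ n := by
  have e : f ^ n * V.unif ^ (-((n : ℤ) * j)) = (f * V.unif ^ (-j)) ^ n := by
    rw [mul_pow, ← zpow_natCast (V.unif ^ (-j)) n, ← zpow_mul]; congr 2; ring
  rw [sym, e, V.redF_pow hf]; rfl

theorem sym_sum {ι : Type*} {j : ℤ} (s : Finset ι) (f : ι → F) (hf : ∀ i ∈ s, V.Ge j (f i)) :
    V.sym j (∑ i ∈ s, f i) = ∑ i ∈ s, V.sym j (f i) := by
  rw [sym, Finset.sum_mul, V.redF_sum _ _ fun i hi => hf i hi]; rfl

/-- `v(f) ≥ j + 1` iff `v(f) ≥ j` and the `j`-th symbol vanishes -/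
theorem ge_succ_iff {j : ℤ} {f : F} : V.Ge (j + 1) f ↔ V.Ge j f ∧ V.sym j f = 0 := by
  constructor
  · intro h
    refine ⟨h.mono (by omega), ?_⟩
    have e : f * V.unif ^ (-j) = (f * V.unif ^ (-(j + 1))) * V.unif := by
      rw [mul_assoc, ← zpow_add_one₀ V.unif_ne_zero]; congr 2; ring
    rw [sym, e, V.redF_mul h V.unif_mem, V.redF_unif, mul_zero]
  · rintro ⟨h1, h2⟩
    have := V.mul_unif_inv_mem_of_redF_eq_zero h1 h2
    have e : f * V.unif ^ (-(j + 1)) = f * V.unif ^ (-j) * V.unif⁻¹ := by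
      rw [mul_assoc, ← zpow_sub_one₀ V.unif_ne_zero]; congr 2; ring
    rw [Ge, e]
    exact this

theorem sym_eq_zero_of_ge {i j : ℤ} {f : F} (hij : j + 1 ≤ i) (hf : V.Ge i f) :
    V.sym j f = 0 :=
  (ge_succ_iff.1 (hf.mono hij)).2

/-- the symbol of a nonzero element at its exact valuation does not vanish -/
theorem exists_ge_sym_ne_zero {f : F} (hf : f ≠ 0) : ∃ j : ℤ, V.Ge j f ∧ V.sym j f ≠ 0 := by
  obtain ⟨j, u, hu⟩ := V.exists_zpow_mul_isUnit f hf
  refine ⟨j, V.ge_of_eq_zpow_mul_unit u hu, ?_⟩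
  have e : f * V.unif ^ (-j) = ((u : V.O) : F) := by
    rw [hu, mul_comm, ← mul_assoc, ← zpow_add₀ V.unif_ne_zero, neg_add_cancel, zpow_zero, one_mul]
  rw [sym, e]
  exact V.redF_unit_ne_zero u

/-- if the `j`-th symbol does not vanish then `v(f) = j` exactly: `f⁻¹` has valuation `≥ -j` -/
theorem ge_neg_inv_of_sym_ne_zero {j : ℤ} {f : F} (h : V.sym j f ≠ 0) : V.Ge (-j) f⁻¹ := by
  have := V.inv_mem_of_redF_ne_zero h
  rw [Ge, neg_neg]
  rwa [mul_inv, ← zpow_neg, neg_neg] at this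

theorem ge_of_sym_ne_zero {j : ℤ} {f : F} (h : V.sym j f ≠ 0) : V.Ge j f :=
  V.mem_of_redF_ne_zero h

theorem sym_inv {j : ℤ} {f : F} (h : V.sym j f ≠ 0) : V.sym (-j) f⁻¹ = (V.sym j f)⁻¹ := by
  have := V.redF_inv h
  rw [sym, neg_neg]
  rwa [mul_inv, ← zpow_neg, neg_neg] at this

theorem sym_unif_zpow (j : ℤ) : V.sym j (V.unif ^ j) = 1 := by
  rw [sym, ← zpow_add₀ V.unif_ne_zero, add_neg_cancel, zpow_zero, V.redF_one]

/-- shifting symbols by a power of the uniformizer -/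
theorem sym_mul_unif_zpow (i j : ℤ) (f : F) : V.sym (i + j) (f * V.unif ^ j) = V.sym i f := by
  have e : f * V.unif ^ j * V.unif ^ (-(i + j)) = f * V.unif ^ (-i) := by
    rw [mul_assoc, ← zpow_add₀ V.unif_ne_zero]; congr 2; ring
  rw [sym, sym, e]

end DVal

end Fermat.Agent.S36lib.Thick
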