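/-
S36lib / Thick / Basic  (helper6, WG-C)

The three discrete valuations `W₁ W₂ W₃` of a thick datum (uniform `DVal` API), the sup-norm ball
`O`, the valuation ideals `D.I α β γ = {v₁ ≥ α, v₂ ≥ β, v₃ ≥ γ}`, and the behaviour of the
constants (`π` has valuations `(1, e, 1)`).
-/
import Fermat.Agent.S36lib.Thick.Datum
import Fermat.Agent.S36lib.Thick.DVal

set_option autoImplicit false

noncomputable section

namespace Fermat.Agent.S36lib.Thick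

open AlgebraicCurve Module

variable {K : Type*} [Field K] {R : ValuationSubring K}
variable {F : Type*} [Field F] [Algebra K F]

/-- a unit of a valuation ring from an element and its inverse -/
def unitOfMem (O : ValuationSubring F) {x : F} (hx0 : x ≠ 0) (hx : x ∈ O) (hxi : x⁻¹ ∈ O) : Oˣ where
  val := ⟨x, hx⟩
  inv := ⟨x⁻¹, hxi⟩
  val_inv := by ext; simp [mul_inv_cancel₀ hx0]
  inv_val := by ext; simp [inv_mul_cancel₀ hx0]

@[simp] theorem coe_unitOfMem (O : ValuationSubring F) {x : F} (hx0 : x ≠ 0) (hx : x ∈ O)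
    (hxi : x⁻¹ ∈ O) : (((unitOfMem O hx0 hx hxi : Oˣ) : O) : F) = x := rfl

variable {F₁ F₂ F₃ : Type*} [Field F₁] [Field F₂] [Field F₃]
variable [Algebra (IsLocalRing.ResidueField R) F₁] [Algebra (IsLocalRing.ResidueField R) F₂]
variable [Algebra (IsLocalRing.ResidueField R) F₃]

local notation "k" => IsLocalRing.ResidueField R

/-! ### the base -/

section Base

variable {π : K} (hπ : π ∈ R) (hπu : π⁻¹ ∉ R)
include hπu

omit hπu in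
theorem ne_zero_of_inv_not_mem (hπu : π⁻¹ ∉ R) : π ≠ 0 := by
  rintro rfl
  exact hπu (by rw [inv_zero]; exact R.zero_mem)

theorem mk_mem_maximalIdeal : (⟨π, hπ⟩ : R) ∈ IsLocalRing.maximalIdeal R := by
  rw [IsLocalRing.mem_maximalIdeal, mem_nonunits_iff]
  rintro ⟨u, hu⟩
  apply hπu
  have h1 : ((u⁻¹ : Rˣ) : R) * (⟨π, hπ⟩ : R) = 1 := by rw [← hu]; simp
  have h2 : (((u⁻¹ : Rˣ) : R) : K) * π = 1 := by
    have := congrArg (fun x : R => (x : K)) h1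
    simpa using this
  have h3 : π⁻¹ = (((u⁻¹ : Rˣ) : R) : K) := (eq_inv_of_mul_eq_one_left h2).symm ▸ rfl
  rw [h3]
  exact ((u⁻¹ : Rˣ) : R).2

theorem residue_mk_eq_zero : IsLocalRing.residue R (⟨π, hπ⟩ : R) = 0 :=
  (IsLocalRing.residue_eq_zero_iff _).2 (mk_mem_maximalIdeal hπ hπu)

end Base

/-! ### the `DVal` of an unramified Gauss datum -/

/-- an unramified Gauss datum over a discretely valued base as a `DVal` with uniformizer `π` -/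
def gaussDVal {Fk : Type*} [Field Fk] [Algebra (IsLocalRing.ResidueField R) Fk]
    (V : S18lib.GaussDatum R F Fk) (π : K) (hπ : π ∈ R) (hπu : π⁻¹ ∉ R)
    (hdvr : ∀ c : K, c ≠ 0 → ∃ m : ℤ, c * π ^ (-m) ∈ R ∧ (c * π ^ (-m))⁻¹ ∈ R) : DVal F Fk where
  O := V.O
  red := V.red
  red_surjective := V.red_surjective
  unif := algebraMap K F π
  unif_ne_zero := (map_ne_zero _).2 (ne_zero_of_inv_not_mem hπu)
  unif_mem := (V.algebraMap_mem_iff π).2 hπ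
  red_unif := by
    have := V.red_algebraMap ⟨π, hπ⟩ ((V.algebraMap_mem_iff π).2 hπ)
    rw [residue_mk_eq_zero hπ hπu, map_zero] at this
    exact this
  exists_zpow_mul_isUnit := by
    intro f hf
    obtain ⟨c, hc, u, hu⟩ := V.exists_const_mul_isUnit f hf
    obtain ⟨m, hm, hmi⟩ := hdvr c hc
    have hπ0 : π ≠ 0 := ne_zero_of_inv_not_mem hπu
    set r := c * π ^ (-m) with hr
    have hr0 : r ≠ 0 := mul_ne_zero hc (zpow_ne_zero _ hπ0)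
    have hrF0 : algebraMap K F r ≠ 0 := (map_ne_zero _).2 hr0
    -- `algebraMap r` is a unit of `O`
    have h1 : algebraMap K F r ∈ V.O := (V.algebraMap_mem_iff r).2 hm
    have h2 : (algebraMap K F r)⁻¹ ∈ V.O := by
      rw [← map_inv₀]; exact (V.algebraMap_mem_iff _).2 hmi
    let w : V.Oˣ := unitOfMem V.O hrF0 h1 h2
    refine ⟨-m, w⁻¹ * u, ?_⟩
    have hw : (((w⁻¹ * u : V.Oˣ) : V.O) : F) = (algebraMap K F r)⁻¹ * ((u : V.O) : F) := by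
      have h3 : (((w⁻¹ : V.Oˣ) : V.O) : F) = (algebraMap K F r)⁻¹ := by
        have h4 : ((w : V.O) : F) * (((w⁻¹ : V.Oˣ) : V.O) : F) = 1 := by
          rw [← V.O.coe_mul, Units.mul_inv]; rfl
        exact eq_inv_of_mul_eq_one_right h4
      rw [Units.val_mul, V.O.coe_mul, h3]
    rw [hw, ← hu]
    have hcF0 : algebraMap K F c ≠ 0 := (map_ne_zero _).2 hc
    have e : algebraMap K F r = algebraMap K F c * algebraMap K F π ^ (-m) := by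
      rw [hr, map_mul, map_zpow₀]
    have hπF0 : algebraMap K F π ≠ 0 := (map_ne_zero _).2 hπ0
    rw [e, mul_inv, ← zpow_neg]
    have h5 : algebraMap K F π ^ (-m) * algebraMap K F π ^ (- -m) = 1 := by
      rw [← zpow_add₀ hπF0, add_neg_cancel, zpow_zero]
    calc f = (algebraMap K F π ^ (-m) * algebraMap K F π ^ (- -m)) *
          ((algebraMap K F c)⁻¹ * algebraMap K F c) * f := by
            rw [h5, inv_mul_cancel₀ hcF0, one_mul, one_mul]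
      _ = _ := by ring

@[simp] theorem gaussDVal_O {Fk : Type*} [Field Fk] [Algebra (IsLocalRing.ResidueField R) Fk]
    (V : S18lib.GaussDatum R F Fk) (π : K) (hπ : π ∈ R) (hπu : π⁻¹ ∉ R)
    (hdvr : ∀ c : K, c ≠ 0 → ∃ m : ℤ, c * π ^ (-m) ∈ R ∧ (c * π ^ (-m))⁻¹ ∈ R) :
    (gaussDVal V π hπ hπu hdvr).O = V.O := rfl

@[simp] theorem gaussDVal_unif {Fk : Type*} [Field Fk] [Algebra (IsLocalRing.ResidueField R) Fk]
    (V : S18lib.GaussDatum R F Fk) (π : K) (hπ : π ∈ R) (hπu : π⁻¹ ∉ R)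
    (hdvr : ∀ c : K, c ≠ 0 → ∃ m : ℤ, c * π ^ (-m) ∈ R ∧ (c * π ^ (-m))⁻¹ ∈ R) :
    (gaussDVal V π hπ hπu hdvr).unif = algebraMap K F π := rfl

theorem gaussDVal_redF {Fk : Type*} [Field Fk] [Algebra (IsLocalRing.ResidueField R) Fk]
    (V : S18lib.GaussDatum R F Fk) (π : K) (hπ : π ∈ R) (hπu : π⁻¹ ∉ R)
    (hdvr : ∀ c : K, c ≠ 0 → ∃ m : ℤ, c * π ^ (-m) ∈ R ∧ (c * π ^ (-m))⁻¹ ∈ R) (y : F) :
    (gaussDVal V π hπ hπu hdvr).redF y = V.redF y := rfl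

/-! ### the three valuations of a thick datum -/

namespace ThickDatum

variable {D : ThickDatum R F F₁ F₂ F₃} {g g₁ g₂ g₃ : ℕ}

/-- the `DVal` of the middle (ramified) component -/
def W₂ (D : ThickDatum R F F₁ F₂ F₃) (h0 : D.V₂.unif ≠ 0) : DVal F F₂ where
  O := D.V₂.O
  red := D.V₂.red
  red_surjective := D.V₂.red_surjective
  unif := D.V₂.unif
  unif_ne_zero := h0
  unif_mem := D.V₂.unif_mem
  red_unif := D.V₂.red_unif
  exists_zpow_mul_isUnit := D.V₂.exists_zpow_mul_isUnit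

end ThickDatum

namespace ThickCtx

variable {D : ThickDatum R F F₁ F₂ F₃} {g g₁ g₂ g₃ : ℕ} (C : ThickCtx D g g₁ g₂ g₃)
include C

theorem π_ne_zero : D.π ≠ 0 := ne_zero_of_inv_not_mem C.π_not_unit

theorem πF_ne_zero : algebraMap K F D.π ≠ 0 := (map_ne_zero _).2 C.π_ne_zero

theorem ϖ_ne_zero : D.ϖ ≠ 0 := by
  obtain ⟨u, hu⟩ := C.unif_pow
  intro h
  have h1 : D.ϖ ^ D.e = 0 := by rw [h, zero_pow C.e_pos.ne']
  rw [hu] at h1
  rcases mul_eq_zero.1 h1 with h2 | h2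
  · exact C.πF_ne_zero h2
  · have : (u : D.V₂.O) = 0 := Subtype.ext h2
    exact u.ne_zero this

/-- the first valuation `v₁` -/
def W₁ : DVal F F₁ := gaussDVal D.V₁ D.π C.π_mem C.π_not_unit C.exists_zpow_mul_unit

/-- the middle valuation `v₂` -/
def W₂ : DVal F F₂ := D.W₂ C.ϖ_ne_zero

/-- the third valuation `v₃` -/
def W₃ : DVal F F₃ := gaussDVal D.V₃ D.π C.π_mem C.π_not_unit C.exists_zpow_mul_unit

@[simp] theorem W₁_O : C.W₁.O = D.V₁.O := rfl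
@[simp] theorem W₂_O : C.W₂.O = D.V₂.O := rfl
@[simp] theorem W₃_O : C.W₃.O = D.V₃.O := rfl
@[simp] theorem W₁_unif : C.W₁.unif = algebraMap K F D.π := rfl
@[simp] theorem W₂_unif : C.W₂.unif = D.ϖ := rfl
@[simp] theorem W₃_unif : C.W₃.unif = algebraMap K F D.π := rfl

theorem W₁_redF (y : F) : C.W₁.redF y = D.V₁.redF y := rfl
theorem W₃_redF (y : F) : C.W₃.redF y = D.V₃.redF y := rfl
theorem W₂_redF (y : F) : C.W₂.redF y = D.red₂ y := rfl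

/-! ### constants -/

omit C in
theorem algebraMap_mem₁ (a : R) : algebraMap K F (a : K) ∈ D.V₁.O := D.V₁.algebraMap_mem a
omit C in
theorem algebraMap_mem₃ (a : R) : algebraMap K F (a : K) ∈ D.V₃.O := D.V₃.algebraMap_mem a
omit C in
theorem algebraMap_mem₂ (a : R) : algebraMap K F (a : K) ∈ D.V₂.O :=
  (D.V₂.algebraMap_mem_iff _).2 a.2

theorem algebraMap_mem_O (a : R) : algebraMap K F (a : K) ∈ D.O :=
  ThickDatum.mem_O.2 ⟨algebraMap_mem₁ a, algebraMap_mem₂ a, algebraMap_mem₃ a⟩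

theorem red₂_algebraMap (a : R) :
    D.red₂ (algebraMap K F (a : K)) = algebraMap k F₂ (IsLocalRing.residue R a) := by
  rw [← C.W₂_redF, C.W₂.redF_of_mem (algebraMap_mem₂ a)]
  exact D.V₂.red_algebraMap a _

/-- the unit `ϖ^e / π` of `O₂` -/
def unitκ : D.V₂.Oˣ := C.unif_pow.choose

theorem unitκ_spec : D.ϖ ^ D.e = algebraMap K F D.π * ((C.unitκ : D.V₂.O) : F) :=
  C.unif_pow.choose_spec

/-- `κ = red₂(ϖ^e / π)` -/
def κ : F₂ := D.V₂.red (C.unitκ : D.V₂.O)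

theorem κ_ne_zero : C.κ ≠ 0 := C.W₂.red_unit_ne_zero C.unitκ

theorem πF_eq : algebraMap K F D.π = D.ϖ ^ D.e * (((C.unitκ⁻¹ : D.V₂.Oˣ) : D.V₂.O) : F) := by
  have h := C.unitκ_spec
  have h1 : ((C.unitκ : D.V₂.O) : F) * (((C.unitκ⁻¹ : D.V₂.Oˣ) : D.V₂.O) : F) = 1 := by
    rw [← D.V₂.O.coe_mul, Units.mul_inv]; rfl
  rw [h, mul_assoc, h1, mul_one]

/-- `v₂(π) ≥ e` -/
theorem ge₂_π : C.W₂.Ge D.e (algebraMap K F D.π) :=
  C.W₂.ge_of_eq_zpow_mul_unit (C.unitκ⁻¹) (by rw [zpow_natCast]; exact C.πF_eq)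

/-- `v₂(π⁻¹) ≥ -e` -/
theorem ge₂_π_inv : C.W₂.Ge (-(D.e : ℤ)) (algebraMap K F D.π)⁻¹ := by
  refine C.W₂.ge_of_eq_zpow_mul_unit C.unitκ ?_
  have h := C.unitκ_spec
  have hϖ : D.ϖ ^ D.e ≠ 0 := pow_ne_zero _ C.ϖ_ne_zero
  rw [zpow_neg, zpow_natCast]
  show (algebraMap K F D.π)⁻¹ = (D.ϖ ^ D.e)⁻¹ * ((C.unitκ : D.V₂.O) : F)
  rw [h, mul_inv, mul_assoc, inv_mul_cancel₀ (by
    intro h0
    rw [h0, mul_zero] at h
    exact hϖ h), mul_one]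

/-- the symbol of `π` on the middle component is `κ⁻¹` -/
theorem sym₂_π : C.W₂.sym D.e (algebraMap K F D.π) = C.κ⁻¹ := by
  have e1 : algebraMap K F D.π * C.W₂.unif ^ (-(D.e : ℤ)) =
      (((C.unitκ⁻¹ : D.V₂.Oˣ) : D.V₂.O) : F) := by
    rw [C.W₂_unif, zpow_neg, zpow_natCast]
    have := C.πF_eq
    have hϖ : D.ϖ ^ D.e ≠ 0 := pow_ne_zero _ C.ϖ_ne_zero
    rw [this, mul_comm (D.ϖ ^ D.e), mul_assoc, mul_inv_cancel₀ hϖ, mul_one]
  rw [DVal.sym, e1, C.W₂.redF_of_mem ((C.unitκ⁻¹ : D.V₂.Oˣ) : D.V₂.O).2]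
  show D.V₂.red ((C.unitκ⁻¹ : D.V₂.Oˣ) : D.V₂.O) = C.κ⁻¹
  rw [κ]
  have h1 : D.V₂.red (C.unitκ : D.V₂.O) * D.V₂.red ((C.unitκ⁻¹ : D.V₂.Oˣ) : D.V₂.O) = 1 := by
    rw [← map_mul, Units.mul_inv, map_one]
  exact eq_inv_of_mul_eq_one_right h1

/-- the symbol of `π⁻¹` on the middle component is `κ` -/
theorem sym₂_π_inv : C.W₂.sym (-(D.e : ℤ)) (algebraMap K F D.π)⁻¹ = C.κ := by
  have h : C.W₂.sym D.e (algebraMap K F D.π) ≠ 0 := by
    rw [C.sym₂_π]; exact inv_ne_zero C.κ_ne_zero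
  rw [DVal.sym_inv h, C.sym₂_π, inv_inv]

/-- multiplication by `π^m` shifts `v₂` by `e m` -/
theorem ge₂_mul_π_zpow {j : ℤ} {f : F} (m : ℤ) (hf : C.W₂.Ge j f) :
    C.W₂.Ge (j + D.e * m) (f * algebraMap K F D.π ^ m) := by
  have h : C.W₂.Ge (D.e * m) (algebraMap K F D.π ^ m) := by
    rcases le_total 0 m with hm | hm
    · obtain ⟨n, rfl⟩ := Int.eq_ofNat_of_zero_le hm
      have := (C.ge₂_π).pow n
      rw [zpow_natCast]
      convert this using 1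
      ring
    · obtain ⟨n, hn⟩ := Int.eq_ofNat_of_zero_le (neg_nonneg.2 hm)
      have := (C.ge₂_π_inv).pow n
      have e1 : algebraMap K F D.π ^ m = ((algebraMap K F D.π)⁻¹) ^ n := by
        rw [← zpow_natCast, ← hn, inv_zpow', neg_neg]
      rw [e1]
      convert this using 1
      rw [← hn]; ring
  exact hf.mul h

/-- `v₁(π^m) ≥ m` -/
theorem ge₁_π_zpow (m : ℤ) : C.W₁.Ge m (algebraMap K F D.π ^ m) := C.W₁.ge_unif_zpow m

/-- `v₃(π^m) ≥ m` -/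
theorem ge₃_π_zpow (m : ℤ) : C.W₃.Ge m (algebraMap K F D.π ^ m) := C.W₃.ge_unif_zpow m

/-! ### the uniformizer `ϖ` on the outer components -/

theorem ϖ_zpow_mem₁ (j : ℤ) : D.ϖ ^ j ∈ D.V₁.O := by
  rcases le_total 0 j with hj | hj
  · obtain ⟨n, rfl⟩ := Int.eq_ofNat_of_zero_le hj
    rw [zpow_natCast]; exact D.V₁.O.pow_mem C.unif_mem₁ n
  · obtain ⟨n, hn⟩ := Int.eq_ofNat_of_zero_le (neg_nonneg.2 hj)
    have e1 : D.ϖ ^ j = (D.ϖ⁻¹) ^ n := by rw [← zpow_natCast, ← hn, inv_zpow', neg_neg]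
    rw [e1]; exact D.V₁.O.pow_mem C.unif_inv_mem₁ n

theorem ϖ_zpow_mem₃ (j : ℤ) : D.ϖ ^ j ∈ D.V₃.O := by
  rcases le_total 0 j with hj | hj
  · obtain ⟨n, rfl⟩ := Int.eq_ofNat_of_zero_le hj
    rw [zpow_natCast]; exact D.V₃.O.pow_mem C.unif_mem₃ n
  · obtain ⟨n, hn⟩ := Int.eq_ofNat_of_zero_le (neg_nonneg.2 hj)
    have e1 : D.ϖ ^ j = (D.ϖ⁻¹) ^ n := by rw [← zpow_natCast, ← hn, inv_zpow', neg_neg]
    rw [e1]; exact D.V₃.O.pow_mem C.unif_inv_mem₃ n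

/-- multiplication by a power of `ϖ` does not change `v₁` -/
theorem ge₁_mul_ϖ_zpow_iff {i : ℤ} {f : F} (j : ℤ) : C.W₁.Ge i (f * D.ϖ ^ j) ↔ C.W₁.Ge i f := by
  constructor
  · intro h
    have := h.mul_mem (C.ϖ_zpow_mem₁ (-j))
    rwa [mul_assoc, ← zpow_add₀ C.ϖ_ne_zero, add_neg_cancel, zpow_zero, mul_one] at this
  · intro h
    exact h.mul_mem (C.ϖ_zpow_mem₁ j)

theorem ge₃_mul_ϖ_zpow_iff {i : ℤ} {f : F} (j : ℤ) : C.W₃.Ge i (f * D.ϖ ^ j) ↔ C.W₃.Ge i f := by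
  constructor
  · intro h
    have := h.mul_mem (C.ϖ_zpow_mem₃ (-j))
    rwa [mul_assoc, ← zpow_add₀ C.ϖ_ne_zero, add_neg_cancel, zpow_zero, mul_one] at this
  · intro h
    exact h.mul_mem (C.ϖ_zpow_mem₃ j)

theorem redF₁_ϖ_ne_zero : D.V₁.redF D.ϖ ≠ 0 :=
  C.W₁.redF_ne_zero_of_mem_of_inv_mem C.ϖ_ne_zero C.unif_mem₁ C.unif_inv_mem₁

theorem redF₃_ϖ_ne_zero : D.V₃.redF D.ϖ ≠ 0 :=
  C.W₃.redF_ne_zero_of_mem_of_inv_mem C.ϖ_ne_zero C.unif_mem₃ C.unif_inv_mem₃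

/-! ### the valuation ideals -/

/-- `f ∈ I(α, β, γ)` : `v₁ f ≥ α`, `v₂ f ≥ β`, `v₃ f ≥ γ` -/
def I (α β γ : ℤ) (f : F) : Prop := C.W₁.Ge α f ∧ C.W₂.Ge β f ∧ C.W₃.Ge γ f

theorem I_zero_iff {f : F} : C.I 0 0 0 f ↔ f ∈ D.O := by
  rw [I, DVal.ge_zero_iff, DVal.ge_zero_iff, DVal.ge_zero_iff, ThickDatum.mem_O]; rfl

theorem I.zero (α β γ : ℤ) : C.I α β γ 0 := ⟨DVal.Ge.zero _ _, DVal.Ge.zero _ _, DVal.Ge.zero _ _⟩

variable {C}

theorem I.add {α β γ : ℤ} {f f' : F} (h : C.I α β γ f) (h' : C.I α β γ f') :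
    C.I α β γ (f + f') := ⟨h.1.add h'.1, h.2.1.add h'.2.1, h.2.2.add h'.2.2⟩

theorem I.neg {α β γ : ℤ} {f : F} (h : C.I α β γ f) : C.I α β γ (-f) :=
  ⟨h.1.neg, h.2.1.neg, h.2.2.neg⟩

theorem I.sub {α β γ : ℤ} {f f' : F} (h : C.I α β γ f) (h' : C.I α β γ f') :
    C.I α β γ (f - f') := ⟨h.1.sub h'.1, h.2.1.sub h'.2.1, h.2.2.sub h'.2.2⟩

theorem I.mul {α β γ α' β' γ' : ℤ} {f f' : F} (h : C.I α β γ f) (h' : C.I α' β' γ' f') :
    C.I (α + α') (β + β') (γ + γ') (f * f') :=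
  ⟨h.1.mul h'.1, h.2.1.mul h'.2.1, h.2.2.mul h'.2.2⟩

theorem I.mono {α β γ α' β' γ' : ℤ} {f : F} (hα : α' ≤ α) (hβ : β' ≤ β) (hγ : γ' ≤ γ)
    (h : C.I α β γ f) : C.I α' β' γ' f :=
  ⟨h.1.mono hα, h.2.1.mono hβ, h.2.2.mono hγ⟩

theorem I.mem_O {α β γ : ℤ} {f : F} (hα : 0 ≤ α) (hβ : 0 ≤ β) (hγ : 0 ≤ γ)
    (h : C.I α β γ f) : f ∈ D.O := (C.I_zero_iff).1 (h.mono hα hβ hγ)

theorem I.mul_mem_O {α β γ : ℤ} {f f' : F} (h : C.I α β γ f) (h' : f' ∈ D.O) :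
    C.I α β γ (f * f') := by
  have := h.mul ((C.I_zero_iff).2 h')
  simpa using this

theorem I.pow {α β γ : ℤ} {f : F} (h : C.I α β γ f) (n : ℕ) :
    C.I (n * α) (n * β) (n * γ) (f ^ n) := ⟨h.1.pow n, h.2.1.pow n, h.2.2.pow n⟩

variable (C)

/-- `π^m ∈ I(m, e m, m)` -/
theorem I_π_zpow (m : ℤ) : C.I m (D.e * m) m (algebraMap K F D.π ^ m) := by
  refine ⟨C.ge₁_π_zpow m, ?_, C.ge₃_π_zpow m⟩
  have := C.ge₂_mul_π_zpow (j := 0) (f := 1) m ((C.W₂.ge_zero_iff).2 D.V₂.O.one_mem)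
  simpa using this

/-- multiplication by `π^m` -/
theorem I_mul_π_zpow_iff {α β γ : ℤ} {f : F} (m : ℤ) :
    C.I (α + m) (β + D.e * m) (γ + m) (f * algebraMap K F D.π ^ m) ↔ C.I α β γ f := by
  constructor
  · intro h
    have := h.mul (C.I_π_zpow (-m))
    rw [mul_assoc, ← zpow_add₀ C.πF_ne_zero, add_neg_cancel, zpow_zero, mul_one] at this
    convert this using 1 <;> ring
  · intro h
    exact h.mul (C.I_π_zpow m)

/-- `ϖ^j ∈ I(0, j, 0)` -/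
theorem I_ϖ_zpow (j : ℤ) : C.I 0 j 0 (D.ϖ ^ j) :=
  ⟨(C.W₁.ge_zero_iff).2 (C.ϖ_zpow_mem₁ j), C.W₂.ge_unif_zpow j,
    (C.W₃.ge_zero_iff).2 (C.ϖ_zpow_mem₃ j)⟩

/-- multiplication by `ϖ^j` -/
theorem I_mul_ϖ_zpow_iff {α β γ : ℤ} {f : F} (j : ℤ) :
    C.I α (β + j) γ (f * D.ϖ ^ j) ↔ C.I α β γ f := by
  rw [I, I, C.ge₁_mul_ϖ_zpow_iff, C.ge₃_mul_ϖ_zpow_iff]
  have := C.W₂.ge_mul_unif_zpow_iff (i := β) (j := j) (f := f)
  rw [C.W₂_unif] at this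
  rw [this]

/-- every function becomes integral after multiplication by a power of `π` -/
theorem exists_π_pow_mul_mem_O (f : F) : ∃ n : ℕ, algebraMap K F D.π ^ n * f ∈ D.O := by
  obtain ⟨n₁, h₁⟩ := C.W₁.exists_pow_mul_mem f
  obtain ⟨n₂, h₂⟩ := C.W₂.exists_pow_mul_mem f
  obtain ⟨n₃, h₃⟩ := C.W₃.exists_pow_mul_mem f
  rw [C.W₁_unif, C.W₁_O] at h₁
  rw [C.W₂_unif, C.W₂_O] at h₂
  rw [C.W₃_unif, C.W₃_O] at h₃
  have hπ₁ : algebraMap K F D.π ∈ D.V₁.O := algebraMap_mem₁ ⟨D.π, C.π_mem⟩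
  have hπ₂ : algebraMap K F D.π ∈ D.V₂.O := algebraMap_mem₂ ⟨D.π, C.π_mem⟩
  have hπ₃ : algebraMap K F D.π ∈ D.V₃.O := algebraMap_mem₃ ⟨D.π, C.π_mem⟩
  refine ⟨n₁ + n₂ + n₃, ThickDatum.mem_O.2 ⟨?_, ?_, ?_⟩⟩
  · have e : algebraMap K F D.π ^ (n₁ + n₂ + n₃) * f =
        algebraMap K F D.π ^ (n₂ + n₃) * (algebraMap K F D.π ^ n₁ * f) := by
      ring
    rw [e]
    exact D.V₁.O.mul_mem _ _ (D.V₁.O.pow_mem hπ₁ _) h₁
  · -- `π^{n₂} f = (ϖ^e u⁻¹)^{n₂} f`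
    have h4 : algebraMap K F D.π ^ n₂ * f ∈ D.V₂.O := by
      have h5 : C.W₂.Ge ((n₂ : ℤ) * D.e) (algebraMap K F D.π ^ n₂) := (C.ge₂_π).pow n₂
      have h6 : C.W₂.Ge (-(n₂ : ℤ)) f := by
        rw [DVal.Ge, neg_neg, C.W₂_unif, zpow_natCast, mul_comm]
        exact h₂
      have h7 := h5.mul h6
      refine h7.mem ?_
      have : (0 : ℤ) ≤ (n₂ : ℤ) * ((D.e : ℤ) - 1) := by
        have he : (1 : ℤ) ≤ D.e := by exact_mod_cast C.e_pos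
        positivity
      nlinarith
    have e : algebraMap K F D.π ^ (n₁ + n₂ + n₃) * f =
        algebraMap K F D.π ^ (n₁ + n₃) * (algebraMap K F D.π ^ n₂ * f) := by
      ring
    rw [e]
    exact D.V₂.O.mul_mem _ _ (D.V₂.O.pow_mem hπ₂ _) h4
  · have e : algebraMap K F D.π ^ (n₁ + n₂ + n₃) * f =
        algebraMap K F D.π ^ (n₁ + n₂) * (algebraMap K F D.π ^ n₃ * f) := by
      ring
    rw [e]
    exact D.V₃.O.mul_mem _ _ (D.V₃.O.pow_mem hπ₃ _) h₃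

end ThickCtx

end Fermat.Agent.S36lib.Thick
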